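import Fermat.Agent.Lib.WeakChebotarev.Inertia

/-!
# S48 / block CH, node N9: Frobenius elements in a Galois number field
-/

set_option autoImplicit false

namespace Fermat.Agent.S48.CH

open NumberField Ideal
open scoped Pointwise
open Fermat.Agent.Lib.WeakChebotarev (inertia_eq_bot)
open Fermat.Agent.Lib.WeakChebotarev.Inertia (liesOver span_isPrime)

namespace Frob

lemma card_under {L : Type*} [Field L] [NumberField L] {ℓ : ℕ} (hℓ : ℓ.Prime)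
    (Q : Ideal (𝓞 L)) [Q.IsPrime] (hQ : (ℓ : 𝓞 L) ∈ Q) : Nat.card (ℤ ⧸ Q.under ℤ) = ℓ := by
  rw [← (liesOver hℓ Q hQ).over]
  exact Int.card_ideal_quot ℓ

lemma isArithFrobAt_iff {L : Type*} [Field L] [NumberField L] {ℓ : ℕ} (hℓ : ℓ.Prime)
    (Q : Ideal (𝓞 L)) [Q.IsPrime] (hQ : (ℓ : 𝓞 L) ∈ Q) (φ : L ≃ₐ[ℚ] L) :
    IsArithFrobAt ℤ φ Q ↔ ∀ x : 𝓞 L, φ • x - x ^ ℓ ∈ Q := by
  constructor
  · intro h x
    have := h x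
    rw [card_under hℓ Q hQ] at this
    exact this
  · intro h x
    rw [card_under hℓ Q hQ]
    exact h x

lemma ne_bot {L : Type*} [Field L] [NumberField L] {ℓ : ℕ} (hℓ : ℓ.Prime)
    (Q : Ideal (𝓞 L)) (hQ : (ℓ : 𝓞 L) ∈ Q) : Q ≠ ⊥ := by
  rintro rfl
  have : (ℓ : 𝓞 L) = 0 := by simpa using hQ
  exact hℓ.ne_zero (by exact_mod_cast this)

end Frob

open Frob

theorem exists_frob (L : Type*) [Field L] [NumberField L] [IsGalois ℚ L] (ℓ : ℕ) (hℓ : ℓ.Prime)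
    (Q : Ideal (𝓞 L)) [Q.IsPrime] (hQ : (ℓ : 𝓞 L) ∈ Q) :
    ∃ φ : L ≃ₐ[ℚ] L, ∀ x : 𝓞 L, φ • x - x ^ ℓ ∈ Q := by
  have hfin : Finite (𝓞 L ⧸ Q) := Ideal.finiteQuotientOfFreeOfNeBot Q (ne_bot hℓ Q hQ)
  obtain ⟨φ, hφ⟩ := IsArithFrobAt.exists_of_isInvariant ℤ (L ≃ₐ[ℚ] L) Q
  exact ⟨φ, (isArithFrobAt_iff hℓ Q hQ φ).mp hφ⟩

theorem frob_conj (L : Type*) [Field L] [NumberField L] [IsGalois ℚ L] (ℓ : ℕ) (hℓ : ℓ.Prime)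
    (hunr : ¬ (ℓ : ℤ) ∣ discr L) (Q Q' : Ideal (𝓞 L)) [Q.IsPrime] [Q'.IsPrime]
    (hQ : (ℓ : 𝓞 L) ∈ Q) (hQ' : (ℓ : 𝓞 L) ∈ Q') (φ φ' : L ≃ₐ[ℚ] L)
    (hφ : ∀ x : 𝓞 L, φ • x - x ^ ℓ ∈ Q) (hφ' : ∀ x : 𝓞 L, φ' • x - x ^ ℓ ∈ Q') :
    ∃ g : L ≃ₐ[ℚ] L, g * φ * g⁻¹ = φ' := by
  have hp := span_isPrime hℓ
  have h1 := liesOver hℓ Q hQ
  have h2 := liesOver hℓ Q' hQ'
  obtain ⟨g, hg⟩ := exists_smul_eq_of_isGaloisGroup (span {(ℓ : ℤ)}) Q Q' (L ≃ₐ[ℚ] L)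
  refine ⟨g, ?_⟩
  have hF : IsArithFrobAt ℤ (g * φ * g⁻¹) Q' := by
    rw [← hg]
    exact ((isArithFrobAt_iff hℓ Q hQ φ).mpr hφ).conj g
  have hF' : IsArithFrobAt ℤ φ' Q' := (isArithFrobAt_iff hℓ Q' hQ' φ').mpr hφ'
  have hin := hF.mul_inv_mem_inertia hF'
  have := inertia_eq_bot L ℓ hℓ hunr Q' hQ' _ (AddSubgroup.mem_inertia.mp hin)
  exact mul_inv_eq_one.mp this

theorem autToPow_frob (L : Type*) [Field L] [NumberField L] {q : ℕ} [NeZero q] {ζ : L}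
    (hζ : IsPrimitiveRoot ζ q) (ℓ : ℕ) (hℓ : ℓ.Prime) (hℓq : ¬ ℓ ∣ q)
    (Q : Ideal (𝓞 L)) [Q.IsPrime] (hQ : (ℓ : 𝓞 L) ∈ Q) (φ : L ≃ₐ[ℚ] L)
    (hφ : ∀ x : 𝓞 L, φ • x - x ^ ℓ ∈ Q) :
    ((hζ.autToPow ℚ φ : (ZMod q)ˣ) : ZMod q) = (ℓ : ZMod q) := by
  have hF : IsArithFrobAt ℤ φ Q := (isArithFrobAt_iff hℓ Q hQ φ).mpr hφ
  have hq0 : q ≠ 0 := NeZero.ne q
  -- `q ∉ Q`
  have hqQ : (q : 𝓞 L) ∉ Q := by
    intro hq
    have hcop : Nat.Coprime ℓ q := (Nat.Prime.coprime_iff_not_dvd hℓ).mpr hℓq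
    have hone : (1 : 𝓞 L) ∈ Q := by
      have hb := Nat.isCoprime_iff_coprime.mpr hcop
      obtain ⟨u, v, huv⟩ := hb
      have : ((u * (ℓ : ℤ) + v * (q : ℤ) : ℤ) : 𝓞 L) = 1 := by rw [huv]; simp
      rw [← this]
      push_cast
      exact Q.add_mem (Q.mul_mem_left _ hQ) (Q.mul_mem_left _ hq)
    exact (Ideal.IsPrime.ne_top inferInstance) ((Ideal.eq_top_iff_one Q).mpr hone)
  -- the integral root of unity
  let z : 𝓞 L := hζ.toInteger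
  have hz : z ^ q = 1 := by
    apply RingOfIntegers.ext
    show (z : L) ^ q = 1
    exact hζ.pow_eq_one
  have happ := AlgHom.IsArithFrobAt.apply_of_pow_eq_one hF hz hqQ
  rw [card_under hℓ Q hQ] at happ
  have happ' : φ ζ = ζ ^ ℓ := by
    have := congrArg (fun y : 𝓞 L => (y : L)) happ
    exact this
  have hspec := hζ.autToPow_spec ℚ φ
  rw [happ'] at hspec
  have hζ0 : ζ ≠ 0 := hζ.ne_zero hq0
  have hspec' : (Units.mk0 ζ hζ0) ^ ((hζ.autToPow ℚ φ : (ZMod q)ˣ) : ZMod q).val =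
      (Units.mk0 ζ hζ0) ^ ℓ := by
    apply Units.ext
    simpa using hspec
  have hord : orderOf (Units.mk0 ζ hζ0) = q := by
    rw [← orderOf_units, Units.val_mk0]
    exact hζ.eq_orderOf.symm
  have hmod := pow_eq_pow_iff_modEq.mp hspec'
  rw [hord] at hmod
  have := (ZMod.natCast_eq_natCast_iff _ _ _).mpr hmod
  rw [ZMod.natCast_zmod_val] at this
  exact this

end Fermat.Agent.S48.CH
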