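import Fermat.Agent.S48.GalNodes
import Fermat.Agent.S48.CH.Frob
import Fermat.Agent.Lib.WeakChebotarev.Qbar

/-!
# S48 / block CH, node N17: the node `ChebotarevSym` of `S48/GalNodes.lean`

`chebotarevSym_of` : `ChebotarevSym` from the consumer form `SymQbar` (= statement of
`chebotarev_sym_Qbar`, node N16).   Proofs: helper61.
-/

set_option autoImplicit false

namespace Fermat.Agent.S48.CH

open NumberField Filter Topology
open Fermat.Agent.Lib.WeakChebotarev.Transfer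

local notation "Qbar" => AlgebraicClosure ℚ
local notation "GQ" => (AlgebraicClosure ℚ ≃ₐ[ℚ] AlgebraicClosure ℚ)

namespace Node

/-- The statement of node N16 (`chebotarev_sym_Qbar`). -/
def SymQbar : Prop :=
  ∀ (L : IntermediateField ℚ Qbar) [FiniteDimensional ℚ L] [Normal ℚ L]
    (u : (L ≃ₐ[ℚ] L) → ℝ) (_ : ∀ g x, u (g * x * g⁻¹) = u x) (_ : ∀ x, u x⁻¹ = u x)
    (v : Nat.Primes → ℝ) (T : Finset ℕ)
    (_ : ∀ ℓ : Nat.Primes, (ℓ : ℕ) ∉ T → ∀ A : ValuationSubring Qbar, A.LiesOverPrime ℓ →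
      ∀ φ : GQ, A.IsFrobeniusAt φ ℓ → v ℓ = u (AlgEquiv.restrictNormalHom L φ))
    {ε : ℝ} (_ : 0 < ε),
    ∀ᶠ s in 𝓝[>] (1 : ℝ),
      |∑' ℓ : Nat.Primes, v ℓ * ((ℓ : ℕ) : ℝ) ^ (-s) -
        (∑ x, u x) / Nat.card (L ≃ₐ[ℚ] L) * Real.log (1 / (s - 1))| ≤
        ε * Real.log (1 / (s - 1))

/-- the preimage of a set under a surjective homomorphism is `C × ker`. -/
noncomputable def preimageEquiv {H G : Type*} [Group H] [Group G] (f : H →* G)
    (hf : Function.Surjective f) (C : Set G) : (f ⁻¹' C) ≃ C × f.ker where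
  toFun h := (⟨f h, h.2⟩, ⟨(Function.surjInv hf (f h))⁻¹ * h, by
    rw [MonoidHom.mem_ker, map_mul, map_inv, Function.surjInv_eq hf, inv_mul_cancel]⟩)
  invFun p := ⟨Function.surjInv hf p.1 * p.2, by
    show f _ ∈ C
    rw [map_mul, Function.surjInv_eq hf, MonoidHom.mem_ker.mp p.2.2, mul_one]
    exact p.1.2⟩
  left_inv h := by
    apply Subtype.ext
    show Function.surjInv hf (f h) * ((Function.surjInv hf (f h))⁻¹ * h) = h
    rw [mul_inv_cancel_left]
  right_inv p := by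
    have h1 : f (Function.surjInv hf (p.1 : G) * (p.2 : H)) = p.1 := by
      rw [map_mul, Function.surjInv_eq hf, MonoidHom.mem_ker.mp p.2.2, mul_one]
    refine Prod.ext (Subtype.ext h1) (Subtype.ext ?_)
    show (Function.surjInv hf (f (Function.surjInv hf (p.1 : G) * (p.2 : H))))⁻¹ *
      (Function.surjInv hf (p.1 : G) * (p.2 : H)) = p.2
    rw [h1, inv_mul_cancel_left]

theorem card_preimage_div {H G : Type*} [Group H] [Group G] [Finite H] (f : H →* G)
    (hf : Function.Surjective f) (C : Set G) :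
    (Nat.card (f ⁻¹' C) : ℝ) / Nat.card H = (Nat.card C : ℝ) / Nat.card G := by
  have : Finite G := Finite.of_surjective f hf
  have h1 : Nat.card (f ⁻¹' C) = Nat.card C * Nat.card f.ker := by
    rw [Nat.card_congr (preimageEquiv f hf C), Nat.card_prod]
  have h2 : Nat.card H = Nat.card G * Nat.card f.ker := by
    have h3 := Nat.card_congr (preimageEquiv f hf Set.univ)
    rw [Nat.card_prod, Set.preimage_univ, Nat.card_congr (Equiv.Set.univ H),
      Nat.card_congr (Equiv.Set.univ G)] at h3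
    exact h3
  have hk : (Nat.card f.ker : ℝ) ≠ 0 := by exact_mod_cast Nat.card_pos.ne'
  have hG : (Nat.card G : ℝ) ≠ 0 := by exact_mod_cast Nat.card_pos.ne'
  rw [h1, h2]
  push_cast
  field_simp

/-- finite partial sums approximate a `tsum` from below. -/
theorem exists_finset_tsum_sub_one_le {ι : Type*} (f : ι → ℝ) :
    ∃ S : Finset ι, ∑' i, f i - 1 ≤ ∑ i ∈ S, f i := by
  by_cases hf : Summable f
  · have h := hf.hasSum
    have h2 : ∀ᶠ S : Finset ι in atTop, ∑' i, f i - 1 < ∑ i ∈ S, f i :=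
      h.eventually_const_lt (by linarith)
    obtain ⟨S, hS⟩ := h2.exists
    exact ⟨S, hS.le⟩
  · exact ⟨∅, by rw [tsum_eq_zero_of_not_summable hf]; simp⟩

/-- a Frobenius element at a place of `ℚ̄` restricts to a Frobenius element of `L`. -/
theorem res_frobenius (L : IntermediateField ℚ Qbar) [Normal ℚ L] {A : ValuationSubring Qbar}
    {φ : GQ} {ℓ : ℕ} (hφ : A.IsFrobeniusAt φ ℓ) (x : 𝓞 L) :
    AlgEquiv.restrictNormalHom L φ • x - x ^ ℓ ∈ primeBelow L A := by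
  rw [mem_primeBelow_iff]
  have h2 : (((AlgEquiv.restrictNormalHom L φ • x - x ^ ℓ : 𝓞 L) : L) : Qbar)
      = φ ((x : L) : Qbar) - ((x : L) : Qbar) ^ ℓ := by
    rw [← coe_restrictNormal_smul]
    rfl
  rw [h2]
  exact sub_pow_mem_nonunits_of_isFrobeniusAt hφ (coe_mem_valuationSubring L _ x)

/-- the restrictions to `L` of two Frobenius elements at an unramified prime are conjugate. -/
theorem exists_conj_res (L : IntermediateField ℚ Qbar) [FiniteDimensional ℚ L] [Normal ℚ L]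
    [NumberField L] [IsGalois ℚ L] {ℓ : ℕ} (hℓ : ℓ.Prime) (hunr : ¬ (ℓ : ℤ) ∣ discr L)
    {A A' : ValuationSubring Qbar} (hA : A.LiesOverPrime ℓ) (hA' : A'.LiesOverPrime ℓ)
    {φ φ' : GQ} (hφ : A.IsFrobeniusAt φ ℓ) (hφ' : A'.IsFrobeniusAt φ' ℓ) :
    ∃ g : L ≃ₐ[ℚ] L, g * AlgEquiv.restrictNormalHom L φ * g⁻¹ =
      AlgEquiv.restrictNormalHom L φ' :=
  frob_conj L ℓ hℓ hunr (primeBelow L A) (primeBelow L A') (natCast_mem_primeBelow L hA)
    (natCast_mem_primeBelow L hA') _ _ (res_frobenius L hφ) (res_frobenius L hφ')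

end Node

open Node

theorem chebotarevSym_of (hQ : SymQbar) : S48.ChebotarevSym := by
  classical
  intro G _ _ r hr hfin C hCconj hCinv δ hδ
  obtain ⟨L0, hL0, hL0r⟩ := hfin
  have hGalQ := Fermat.Agent.Lib.Frobenius.isGalois_rat
  -- the normal closure
  let L : IntermediateField ℚ Qbar := IntermediateField.normalClosure ℚ L0 Qbar
  have hLfin : FiniteDimensional ℚ L := normalClosure.is_finiteDimensional ℚ L0 Qbar
  have hLnor : Normal ℚ L := normalClosure.normal ℚ L0 Qbar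
  have hLle : L0 ≤ L := IntermediateField.le_normalClosure L0
  have hNF : NumberField L := ⟨⟩
  have hGal : IsGalois ℚ L := ⟨⟩
  -- `r` factors through `Gal(L/ℚ)`
  have hsurj : Function.Surjective (AlgEquiv.restrictNormalHom (F := ℚ) (K₁ := Qbar) L) :=
    AlgEquiv.restrictNormalHom_surjective Qbar
  have hker : (AlgEquiv.restrictNormalHom (F := ℚ) (K₁ := Qbar) L).ker ≤ r.ker := by
    intro σ hσ
    rw [MonoidHom.mem_ker] at hσ ⊢
    apply hL0r
    intro x hx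
    have h1 : AlgEquiv.restrictNormalHom L σ = AlgEquiv.restrictNormalHom L (1 : GQ) := by
      rw [hσ, map_one]
    exact apply_eq_of_restrictNormalHom_eq L h1 x (hLle hx)
  let rbar : (L ≃ₐ[ℚ] L) →* G :=
    (AlgEquiv.restrictNormalHom (F := ℚ) (K₁ := Qbar) L).liftOfSurjective hsurj ⟨r, hker⟩
  have hrbar : ∀ σ : GQ, rbar (AlgEquiv.restrictNormalHom L σ) = r σ := fun σ =>
    MonoidHom.liftOfRightInverse_comp_apply _ _ _ ⟨r, hker⟩ σ
  have hrbsurj : Function.Surjective rbar := by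
    intro g
    obtain ⟨σ, rfl⟩ := hr g
    exact ⟨_, hrbar σ⟩
  -- the class function
  let u : (L ≃ₐ[ℚ] L) → ℝ := fun x => if rbar x ∈ C then 1 else 0
  have hconj_iff : ∀ g x : G, g * x * g⁻¹ ∈ C ↔ x ∈ C := by
    intro g x
    refine ⟨fun h => ?_, fun h => hCconj x g h⟩
    have := hCconj _ g⁻¹ h
    rwa [inv_inv, ← mul_assoc, ← mul_assoc, inv_mul_cancel, one_mul, mul_assoc, inv_mul_cancel,
      mul_one] at this
  have hinv_iff : ∀ x : G, x⁻¹ ∈ C ↔ x ∈ C := by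
    intro x
    refine ⟨fun h => ?_, fun h => hCinv x h⟩
    have := hCinv _ h
    rwa [inv_inv] at this
  have huc : ∀ g x, u (g * x * g⁻¹) = u x := by
    intro g x
    show (if rbar (g * x * g⁻¹) ∈ C then (1 : ℝ) else 0) = if rbar x ∈ C then 1 else 0
    rw [map_mul, map_mul, map_inv]
    simp only [hconj_iff]
  have hui : ∀ x, u x⁻¹ = u x := by
    intro x
    show (if rbar x⁻¹ ∈ C then (1 : ℝ) else 0) = if rbar x ∈ C then 1 else 0
    rw [map_inv]
    simp only [hinv_iff]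
  -- the weights
  let v : Nat.Primes → ℝ := fun ℓ => if ∀ σ : GQ, IsFrob σ ℓ → r σ ∈ C then 1 else 0
  let T : Finset ℕ := (discr L).natAbs.primeFactors
  have hT : ∀ ℓ : ℕ, ℓ.Prime → ℓ ∉ T → ¬ (ℓ : ℤ) ∣ discr L := by
    intro ℓ hℓ hℓT hdvd
    apply hℓT
    rw [Nat.mem_primeFactors]
    refine ⟨hℓ, Int.natCast_dvd.mp hdvd, ?_⟩
    exact Int.natAbs_ne_zero.mpr (discr_ne_zero L)
  have hv : ∀ ℓ : Nat.Primes, (ℓ : ℕ) ∉ T → ∀ A : ValuationSubring Qbar, A.LiesOverPrime ℓ →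
      ∀ φ : GQ, A.IsFrobeniusAt φ ℓ → v ℓ = u (AlgEquiv.restrictNormalHom L φ) := by
    intro ℓ hℓT A hA φ hφ
    show (if ∀ σ : GQ, IsFrob σ ℓ → r σ ∈ C then (1 : ℝ) else 0) =
      if rbar (AlgEquiv.restrictNormalHom L φ) ∈ C then 1 else 0
    rw [hrbar]
    have hiff : (∀ σ : GQ, IsFrob σ ℓ → r σ ∈ C) ↔ r φ ∈ C := by
      refine ⟨fun h => h φ ⟨A, hA, hφ⟩, ?_⟩
      rintro h σ ⟨A', hA', hσ⟩
      obtain ⟨g, hg⟩ := exists_conj_res L ℓ.2 (hT ℓ ℓ.2 hℓT) hA hA' hφ hσ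
      rw [← hrbar σ, ← hg, map_mul, map_mul, map_inv, hconj_iff, hrbar]
      exact h
    simp only [hiff]
  have hmain := hQ L u huc hui v T hv hδ
  -- the mean of `u`
  have hmean : (∑ x, u x) / Nat.card (L ≃ₐ[ℚ] L) = (Nat.card C : ℝ) / Nat.card G := by
    rw [← card_preimage_div rbar hrbsurj C]
    congr 1
    show ∑ x, (if rbar x ∈ C then (1 : ℝ) else 0) = _
    rw [Finset.sum_boole]
    congr 1
    exact (Nat.subtype_card _ (by intro x; simp)).symm
  rw [hmean] at hmain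
  obtain ⟨s0, hs0, hIoo⟩ := mem_nhdsGT_iff_exists_Ioo_subset.mp hmain
  have hs0' : (1 : ℝ) < s0 := hs0
  set η : ℝ := (Nat.card C : ℝ) / Nat.card G - δ with hη
  refine ⟨1 + |η| * |Real.log (1 / (s0 - 1))|, fun s hs1 hs2 => ?_⟩
  have hlog0 : 0 ≤ Real.log (1 / (s - 1)) := by
    apply Real.log_nonneg
    rw [le_div_iff₀ (by linarith)]
    linarith
  by_cases hs : s < s0
  · have h1 := hIoo (show s ∈ Set.Ioo 1 s0 from ⟨hs1, hs⟩)
    have h1' : |∑' ℓ : Nat.Primes, v ℓ * ((ℓ : ℕ) : ℝ) ^ (-s) -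
        (Nat.card C : ℝ) / Nat.card G * Real.log (1 / (s - 1))| ≤
        δ * Real.log (1 / (s - 1)) := h1
    obtain ⟨S, hS⟩ := exists_finset_tsum_sub_one_le
      (fun ℓ : Nat.Primes => v ℓ * ((ℓ : ℕ) : ℝ) ^ (-s))
    refine ⟨(S.filter fun ℓ : Nat.Primes => ∀ σ : GQ, IsFrob σ ℓ → r σ ∈ C).map
      ⟨fun ℓ : Nat.Primes => (ℓ : ℕ), Subtype.val_injective⟩, ?_, ?_⟩
    · intro p hp
      rw [Finset.mem_map] at hp
      obtain ⟨ℓ, hℓ, rfl⟩ := hp
      rw [Finset.mem_filter] at hℓ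
      exact ⟨ℓ.2, hℓ.2⟩
    · rw [Finset.sum_map, Finset.sum_filter]
      have h3 : ∑ ℓ ∈ S, v ℓ * ((ℓ : ℕ) : ℝ) ^ (-s) =
          ∑ ℓ ∈ S, if (∀ σ : GQ, IsFrob σ ℓ → r σ ∈ C) then ((ℓ : ℕ) : ℝ) ^ (-s) else 0 := by
        refine Finset.sum_congr rfl fun ℓ _ => ?_
        show (if ∀ σ : GQ, IsFrob σ ℓ → r σ ∈ C then (1 : ℝ) else 0) * _ = _
        split_ifs <;> simp
      have h4 := (abs_le.mp h1').1
      have h5 : 0 ≤ |η| * |Real.log (1 / (s0 - 1))| := by positivity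
      have h6 : η * Real.log (1 / (s - 1)) =
          (Nat.card C : ℝ) / Nat.card G * Real.log (1 / (s - 1)) - δ * Real.log (1 / (s - 1)) := by
        rw [hη]; ring
      have h8 : (∑ a ∈ S, if ∀ σ : GQ, IsFrob σ a → r σ ∈ C then
          (((⟨fun ℓ : Nat.Primes => (ℓ : ℕ), Subtype.val_injective⟩ : Nat.Primes ↪ ℕ) a : ℕ) : ℝ)
            ^ (-s) else 0) = ∑ ℓ ∈ S, v ℓ * ((ℓ : ℕ) : ℝ) ^ (-s) := h3.symm
      rw [h8, h6]
      linarith
  · refine ⟨∅, by simp, ?_⟩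
    rw [Finset.sum_empty]
    have hs0s : s0 ≤ s := not_lt.mp hs
    have hmono : Real.log (1 / (s - 1)) ≤ Real.log (1 / (s0 - 1)) := by
      apply Real.log_le_log (by apply div_pos one_pos; linarith)
      apply one_div_le_one_div_of_le (by linarith)
      linarith
    have h7 : η * Real.log (1 / (s - 1)) ≤ |η| * |Real.log (1 / (s0 - 1))| :=
      calc η * Real.log (1 / (s - 1)) ≤ |η| * Real.log (1 / (s - 1)) :=
            mul_le_mul_of_nonneg_right (le_abs_self η) hlog0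
        _ ≤ |η| * |Real.log (1 / (s0 - 1))| :=
            mul_le_mul_of_nonneg_left (hmono.trans (le_abs_self _)) (abs_nonneg η)
    linarith

end Fermat.Agent.S48.CH
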