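import Fermat.Agent.Lib.WeakChebotarev.Qbar
import Fermat.Agent.S48.CH.Frob
import Fermat.Agent.Lib.WeakChebotarev.NumberFieldOf

/-!
# S48 / block CH, node N16 : consumer forms over `ℚ̄` of the symmetrised Chebotarev theorem

Everything here is proved from `QbarForm.SymFun`, the statement of `chebotarev_sym_fun` (node N15) for
number fields `L : Type`.  The final wrappers are in `CH/Qbar.lean`.
-/

set_option autoImplicit false

namespace Fermat.Agent.S48.CH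

open NumberField Ideal Filter Topology
open scoped nonZeroDivisors Pointwise
open Fermat.Agent.Lib.Frobenius Fermat.Agent.Lib.WeakChebotarev.Transfer

local notation "Qbar" => AlgebraicClosure ℚ
local notation "GQ" => (AlgebraicClosure ℚ ≃ₐ[ℚ] AlgebraicClosure ℚ)

namespace QbarForm

/-- the statement of `chebotarev_sym_fun` (node N15) for `L : Type`. -/
def SymFun : Prop :=
  ∀ (L : Type) [Field L] [NumberField L] [IsGalois ℚ L]
    (u : (L ≃ₐ[ℚ] L) → ℝ) (_ : ∀ g x, u (g * x * g⁻¹) = u x) (_ : ∀ x, u x⁻¹ = u x)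
    (v : Nat.Primes → ℝ) (T : Finset ℕ)
    (_ : ∀ ℓ : Nat.Primes, (ℓ : ℕ) ∉ T → ∀ (Q : Ideal (𝓞 L)) [Q.IsPrime], ((ℓ : ℕ) : 𝓞 L) ∈ Q →
      ∀ φ : L ≃ₐ[ℚ] L, (∀ x : 𝓞 L, φ • x - x ^ (ℓ : ℕ) ∈ Q) → v ℓ = u φ)
    {ε : ℝ} (_ : 0 < ε),
    ∀ᶠ s in 𝓝[>] (1 : ℝ),
      |∑' ℓ : Nat.Primes, v ℓ * ((ℓ : ℕ) : ℝ) ^ (-s) -
        (∑ x, u x) / Nat.card (L ≃ₐ[ℚ] L) * Real.log (1 / (s - 1))| ≤
        ε * Real.log (1 / (s - 1))

/-- the restriction to `L` of a Frobenius at `A` is a Frobenius at the prime of `L` below `A`. -/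
theorem res_frob_mem_primeBelow (L : IntermediateField ℚ Qbar) [Normal ℚ L]
    {A : ValuationSubring Qbar} {φ : GQ} {ℓ : ℕ} (hφ : A.IsFrobeniusAt φ ℓ) (x : 𝓞 L) :
    AlgEquiv.restrictNormalHom L φ • x - x ^ ℓ ∈ primeBelow L A := by
  rw [mem_primeBelow_iff]
  have h2 : (((AlgEquiv.restrictNormalHom L φ • x - x ^ ℓ : 𝓞 L) : L) : Qbar)
      = φ ((x : L) : Qbar) - ((x : L) : Qbar) ^ ℓ := by
    rw [← coe_restrictNormal_smul]
    rfl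
  rw [h2]
  exact sub_pow_mem_nonunits_of_isFrobeniusAt hφ (coe_mem_valuationSubring L _ x)

/-- Away from the discriminant, any number field Frobenius over `ℓ` is conjugate to the restriction
of any Frobenius of `ℚ̄` over `ℓ`. -/
theorem exists_conj_res_frob (L : IntermediateField ℚ Qbar) [FiniteDimensional ℚ L] [Normal ℚ L]
    [NumberField L] [IsGalois ℚ L]
    {ℓ : ℕ} (hℓ : ℓ.Prime) (hunr : ¬ (ℓ : ℤ) ∣ discr L)
    {A : ValuationSubring Qbar} (hA : A.LiesOverPrime ℓ) {φ : GQ} (hφ : A.IsFrobeniusAt φ ℓ)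
    (Q : Ideal (𝓞 L)) [Q.IsPrime] (hQ : (ℓ : 𝓞 L) ∈ Q) (φ0 : L ≃ₐ[ℚ] L)
    (hφ0 : ∀ x : 𝓞 L, φ0 • x - x ^ ℓ ∈ Q) :
    ∃ g : L ≃ₐ[ℚ] L, g * AlgEquiv.restrictNormalHom L φ * g⁻¹ = φ0 :=
  frob_conj L ℓ hℓ hunr (primeBelow L A) Q (natCast_mem_primeBelow L hA) hQ _ _
    (res_frob_mem_primeBelow L hφ) hφ0

end QbarForm

open QbarForm

/-- consumer form 1: symmetric class functions. -/
theorem chebotarev_sym_Qbar_of (hMain : SymFun)
    (L : IntermediateField ℚ Qbar) [FiniteDimensional ℚ L] [Normal ℚ L]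
    (u : (L ≃ₐ[ℚ] L) → ℝ) (huc : ∀ g x, u (g * x * g⁻¹) = u x) (hui : ∀ x, u x⁻¹ = u x)
    (v : Nat.Primes → ℝ) (T : Finset ℕ)
    (hv : ∀ ℓ : Nat.Primes, (ℓ : ℕ) ∉ T → ∀ A : ValuationSubring Qbar, A.LiesOverPrime ℓ →
      ∀ φ : GQ, A.IsFrobeniusAt φ ℓ → v ℓ = u (AlgEquiv.restrictNormalHom L φ))
    {ε : ℝ} (hε : 0 < ε) :
    ∀ᶠ s in 𝓝[>] (1 : ℝ),
      |∑' ℓ : Nat.Primes, v ℓ * ((ℓ : ℕ) : ℝ) ^ (-s) -
        (∑ x, u x) / Nat.card (L ≃ₐ[ℚ] L) * Real.log (1 / (s - 1))| ≤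
        ε * Real.log (1 / (s - 1)) := by
  have : NumberField L := ⟨⟩
  have : IsGalois ℚ L := ⟨⟩
  refine hMain L u huc hui v (T ∪ (discr L).natAbs.primeFactors) ?_ hε
  intro ℓ hℓT Q _ hQ φ0 hφ0
  rw [Finset.mem_union, not_or] at hℓT
  have hunr : ¬ ((ℓ : ℕ) : ℤ) ∣ discr L := by
    intro hd
    apply hℓT.2
    rw [Nat.mem_primeFactors]
    refine ⟨ℓ.2, Int.natCast_dvd.1 hd, ?_⟩
    rw [Int.natAbs_ne_zero]
    exact discr_ne_zero L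
  obtain ⟨A, φ, hA, hφ⟩ := exists_liesOverPrime_isFrobeniusAt ℓ ℓ.2
  obtain ⟨g, hg⟩ := exists_conj_res_frob L ℓ.2 hunr hA hφ Q hQ φ0 hφ0
  rw [hv ℓ hℓT.1 A hA φ hφ, ← hg, huc]

/-- consumer form 2: a symmetric conjugation-stable set `C` all of whose Frobenius primes lie in a
set `X` of upper Dirichlet density `≤ η` has `|C| ≤ η |G|`. -/
theorem card_le_of_frob_notMem_of (hMain : SymFun)
    (L : IntermediateField ℚ Qbar) [FiniteDimensional ℚ L]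
    [Normal ℚ L] (C : Set (L ≃ₐ[ℚ] L)) (hconj : ∀ g, ∀ c ∈ C, g * c * g⁻¹ ∈ C)
    (hinv : ∀ c ∈ C, c⁻¹ ∈ C) (X : Set Nat.Primes) (η : ℝ)
    (hX : ∃ᶠ s in 𝓝[>] (1 : ℝ),
      ∑' ℓ : Nat.Primes, X.indicator (fun ℓ : Nat.Primes => ((ℓ : ℕ) : ℝ) ^ (-s)) ℓ ≤
        η * Real.log (1 / (s - 1)))
    (T : Finset ℕ)
    (hsub : ∀ ℓ : Nat.Primes, (ℓ : ℕ) ∉ T → ℓ ∉ X → ∀ A : ValuationSubring Qbar,
      A.LiesOverPrime ℓ → ∀ φ : GQ, A.IsFrobeniusAt φ ℓ → AlgEquiv.restrictNormalHom L φ ∉ C) :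
    (Nat.card C : ℝ) ≤ η * Nat.card (L ≃ₐ[ℚ] L) := by
  classical
  have hNF : NumberField L := ⟨⟩
  have hGal : IsGalois ℚ L := ⟨⟩
  set u : (L ≃ₐ[ℚ] L) → ℝ := fun x => if x ∈ C then 1 else 0 with hu
  have hconj_iff : ∀ g x, g * x * g⁻¹ ∈ C ↔ x ∈ C := by
    intro g x
    refine ⟨fun h => ?_, hconj g x⟩
    have := hconj g⁻¹ _ h
    simpa [mul_assoc] using this
  have hinv_iff : ∀ x, x⁻¹ ∈ C ↔ x ∈ C := by
    intro x
    refine ⟨fun h => ?_, hinv x⟩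
    simpa using hinv _ h
  have huc : ∀ g x, u (g * x * g⁻¹) = u x := fun g x => by simp only [hu, hconj_iff]
  have hui : ∀ x, u x⁻¹ = u x := fun x => by simp only [hu, hinv_iff]
  choose A φ hA hφ using fun ℓ : Nat.Primes => exists_liesOverPrime_isFrobeniusAt ℓ ℓ.2
  set v : Nat.Primes → ℝ := fun ℓ => u (AlgEquiv.restrictNormalHom L (φ ℓ)) with hvdef
  have hv : ∀ ℓ : Nat.Primes, (ℓ : ℕ) ∉ (discr L).natAbs.primeFactors →
      ∀ A' : ValuationSubring Qbar, A'.LiesOverPrime ℓ →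
      ∀ φ' : GQ, A'.IsFrobeniusAt φ' ℓ → v ℓ = u (AlgEquiv.restrictNormalHom L φ') := by
    intro ℓ hℓ A' hA' φ' hφ'
    have hunr : ¬ ((ℓ : ℕ) : ℤ) ∣ discr L := by
      intro hd
      apply hℓ
      rw [Nat.mem_primeFactors]
      refine ⟨ℓ.2, Int.natCast_dvd.1 hd, ?_⟩
      rw [Int.natAbs_ne_zero]
      exact discr_ne_zero L
    obtain ⟨g, hg⟩ := exists_conj_res_frob L ℓ.2 hunr (hA ℓ) (hφ ℓ) (primeBelow L A')
      (natCast_mem_primeBelow L hA') _ (res_frob_mem_primeBelow L hφ')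
    rw [← hg, huc]
  have hsumu : ∑ x, u x = Nat.card C := by
    rw [hu, Finset.sum_boole, Nat.subtype_card (Finset.univ.filter (· ∈ C)) (by simp)]
  have hG : (0 : ℝ) < Nat.card (L ≃ₐ[ℚ] L) := by exact_mod_cast Nat.card_pos
  by_contra hcon
  rw [not_le] at hcon
  set c : ℝ := (Nat.card C : ℝ) / Nat.card (L ≃ₐ[ℚ] L) with hc
  have hcη : η < c := by rw [hc, lt_div_iff₀ hG]; exact hcon
  set ε : ℝ := (c - η) / 2 with hεdef
  have hε : 0 < ε := by rw [hεdef]; linarith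
  have h1 := chebotarev_sym_Qbar_of hMain L u huc hui v _ hv hε
  have h2 : ∀ᶠ s in 𝓝[>] (1 : ℝ), 1 < s := self_mem_nhdsWithin
  have h3 : ∀ᶠ s in 𝓝[>] (1 : ℝ), (T.card : ℝ) / ε < Real.log (1 / (s - 1)) :=
    Fermat.Agent.Lib.WeakChebotarev.tendsto_log_one_div_sub_one.eventually_gt_atTop _
  obtain ⟨s, hsX, hs1, hs2, hs3⟩ := (hX.and_eventually (h1.and (h2.and h3))).exists
  set lam : ℝ := Real.log (1 / (s - 1)) with hlam
  set f : Nat.Primes → ℝ := fun ℓ => ((ℓ : ℕ) : ℝ) ^ (-s) with hf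
  have hfsum : Summable f := Nat.Primes.summable_rpow.2 (by linarith)
  have hf0 : ∀ ℓ, 0 ≤ f ℓ := fun ℓ => Real.rpow_nonneg (Nat.cast_nonneg _) _
  have hf1 : ∀ ℓ, f ℓ ≤ 1 := fun ℓ =>
    Real.rpow_le_one_of_one_le_of_nonpos (by exact_mod_cast ℓ.2.one_lt.le) (by linarith)
  set T' : Finset Nat.Primes := T.preimage (fun ℓ : Nat.Primes => (ℓ : ℕ))
    Nat.Primes.coe_nat_injective.injOn with hT'
  have hmemT' : ∀ ℓ : Nat.Primes, ℓ ∈ T' ↔ (ℓ : ℕ) ∈ T := fun ℓ => Finset.mem_preimage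
  set tind : Nat.Primes → ℝ := fun ℓ => if ℓ ∈ T' then 1 else 0 with htind
  have htsum : HasSum tind (∑ ℓ ∈ T', tind ℓ) :=
    hasSum_sum_of_ne_finset_zero (fun ℓ hℓ => by simp [htind, hℓ])
  have htle : ∑ ℓ ∈ T', tind ℓ ≤ T.card := by
    have : ∑ ℓ ∈ T', tind ℓ = T'.card := by
      rw [Finset.sum_congr rfl (fun ℓ hℓ => by simp [htind, hℓ] : ∀ ℓ ∈ T', tind ℓ = 1)]
      simp
    rw [this]
    exact_mod_cast Finset.card_le_card_of_injOn (fun ℓ : Nat.Primes => (ℓ : ℕ))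
      (fun ℓ hℓ => (hmemT' ℓ).1 hℓ) Nat.Primes.coe_nat_injective.injOn
  have hXind0 : ∀ ℓ, 0 ≤ X.indicator f ℓ := fun ℓ => Set.indicator_nonneg (fun a _ => hf0 a) ℓ
  have hterm : ∀ ℓ, v ℓ * f ℓ ≤ X.indicator f ℓ + tind ℓ := by
    intro ℓ
    by_cases hC : AlgEquiv.restrictNormalHom L (φ ℓ) ∈ C
    · have hv1 : v ℓ = 1 := by simp [hvdef, hu, hC]
      rw [hv1, one_mul]
      by_cases hT : (ℓ : ℕ) ∈ T
      · have : tind ℓ = 1 := by simp only [htind, if_pos ((hmemT' ℓ).2 hT)]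
        rw [this]
        linarith [hf1 ℓ, hXind0 ℓ]
      · by_cases hXm : ℓ ∈ X
        · rw [Set.indicator_of_mem hXm]
          have : 0 ≤ tind ℓ := by
            simp only [htind]; split_ifs <;> norm_num
          linarith
        · exact absurd hC (hsub ℓ hT hXm (A ℓ) (hA ℓ) (φ ℓ) (hφ ℓ))
    · have hv0 : v ℓ = 0 := by simp [hvdef, hu, hC]
      rw [hv0, zero_mul]
      have : 0 ≤ tind ℓ := by
        simp only [htind]; split_ifs <;> norm_num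
      linarith [hXind0 ℓ]
  have hv01 : ∀ ℓ, 0 ≤ v ℓ ∧ v ℓ ≤ 1 := by
    intro ℓ
    simp only [hvdef, hu]
    split_ifs <;> norm_num
  have hvfsum : Summable fun ℓ => v ℓ * f ℓ :=
    Summable.of_nonneg_of_le (fun ℓ => mul_nonneg (hv01 ℓ).1 (hf0 ℓ))
      (fun ℓ => mul_le_of_le_one_left (hf0 ℓ) (hv01 ℓ).2) hfsum
  have hXsum : Summable (X.indicator f) := hfsum.indicator X
  have hle : ∑' ℓ, v ℓ * f ℓ ≤ ∑' ℓ, X.indicator f ℓ + T.card := by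
    calc ∑' ℓ, v ℓ * f ℓ ≤ ∑' ℓ, (X.indicator f ℓ + tind ℓ) :=
          hvfsum.tsum_le_tsum hterm (hXsum.add htsum.summable)
      _ = ∑' ℓ, X.indicator f ℓ + ∑' ℓ, tind ℓ := hXsum.tsum_add htsum.summable
      _ ≤ ∑' ℓ, X.indicator f ℓ + T.card := by rw [htsum.tsum_eq]; linarith
  rw [hsumu] at hs1
  have h4 := (abs_le.1 hs1).1
  have h5 : ε * lam ≤ T.card := by
    have : c - ε - η = ε := by rw [hεdef]; ring
    nlinarith [hle, hsX, h4]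
  rw [div_lt_iff₀ hε] at hs3
  linarith

end Fermat.Agent.S48.CH
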