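import Fermat.Agent.S48.CH.Main
import Fermat.Agent.S48.CH.QbarOf
import Fermat.Agent.S48.CH.Node

/-!
# S48 / CH : final statements of the block

* `chebotarev_sym_Qbar`, `card_le_of_frob_notMem` : consumer forms over `ℚ̄`;
* `chebotarevSym : Fermat.Agent.S48.ChebotarevSym`.
Owner: helper108.
-/

set_option autoImplicit false

namespace Fermat.Agent.S48.CH

open NumberField Ideal Filter Topology

local notation "Qbar" => AlgebraicClosure ℚ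
local notation "GQ" => (AlgebraicClosure ℚ ≃ₐ[ℚ] AlgebraicClosure ℚ)

theorem symFun : QbarForm.SymFun :=
  fun L _ _ _ u huc hui v T hv _ hε => chebotarev_sym_fun L u huc hui v T hv hε

/-- consumer form 1: symmetric class functions. -/
theorem chebotarev_sym_Qbar (L : IntermediateField ℚ Qbar) [FiniteDimensional ℚ L] [Normal ℚ L]
    (u : (L ≃ₐ[ℚ] L) → ℝ) (huc : ∀ g x, u (g * x * g⁻¹) = u x) (hui : ∀ x, u x⁻¹ = u x)
    (v : Nat.Primes → ℝ) (T : Finset ℕ)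
    (hv : ∀ ℓ : Nat.Primes, (ℓ : ℕ) ∉ T → ∀ A : ValuationSubring Qbar, A.LiesOverPrime ℓ →
      ∀ φ : GQ, A.IsFrobeniusAt φ ℓ → v ℓ = u (AlgEquiv.restrictNormalHom L φ))
    {ε : ℝ} (hε : 0 < ε) :
    ∀ᶠ s in 𝓝[>] (1 : ℝ),
      |∑' ℓ : Nat.Primes, v ℓ * ((ℓ : ℕ) : ℝ) ^ (-s) -
        (∑ x, u x) / Nat.card (L ≃ₐ[ℚ] L) * Real.log (1 / (s - 1))| ≤
        ε * Real.log (1 / (s - 1)) :=
  chebotarev_sym_Qbar_of symFun L u huc hui v T hv hε

/-- consumer form 2: a symmetric conjugation-stable set `C` all of whose Frobenius primes lie in a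
set `X` of upper Dirichlet density `≤ η` has `|C| ≤ η |G|`. -/
theorem card_le_of_frob_notMem (L : IntermediateField ℚ Qbar) [FiniteDimensional ℚ L]
    [Normal ℚ L] (C : Set (L ≃ₐ[ℚ] L)) (hconj : ∀ g, ∀ c ∈ C, g * c * g⁻¹ ∈ C)
    (hinv : ∀ c ∈ C, c⁻¹ ∈ C) (X : Set Nat.Primes) (η : ℝ)
    (hX : ∃ᶠ s in 𝓝[>] (1 : ℝ),
      ∑' ℓ : Nat.Primes, X.indicator (fun ℓ : Nat.Primes => ((ℓ : ℕ) : ℝ) ^ (-s)) ℓ ≤
        η * Real.log (1 / (s - 1)))
    (T : Finset ℕ)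
    (hsub : ∀ ℓ : Nat.Primes, (ℓ : ℕ) ∉ T → ℓ ∉ X → ∀ A : ValuationSubring Qbar,
      A.LiesOverPrime ℓ → ∀ φ : GQ, A.IsFrobeniusAt φ ℓ → AlgEquiv.restrictNormalHom L φ ∉ C) :
    (Nat.card C : ℝ) ≤ η * Nat.card (L ≃ₐ[ℚ] L) :=
  card_le_of_frob_notMem_of symFun L C hconj hinv X η hX T hsub

/-- **Node CHS** of `S48/GalNodes.lean`. -/
theorem chebotarevSym : S48.ChebotarevSym :=
  chebotarevSym_of fun L _ _ u huc hui v T hv _ hε => chebotarev_sym_Qbar L u huc hui v T hv hε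

end Fermat.Agent.S48.CH
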