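import Fermat.Agent.S48.CH.Mass

/-!
# S48 / CH, node N13 : from good elements to symmetric class functions

`abstract_sym_density`: if `delta h + delta h⁻¹ = 2 lam + O(1)` for all `h` in a set `Good`, then
for every class function `U` with `U x⁻¹ = U x`, bounded by `M`, the weighted sum
`∑' i, U (Φ i) * w s i` is `(mean of U) * lam` up to `M * (2 * #bad / #G) * lam + O(1)`.
Owner: helper256.
-/

set_option autoImplicit false

namespace Fermat.Agent.S48.CH

open Filter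

namespace AbsDensity

variable {G : Type*} [Group G] [Fintype G]

theorem sum_mul_conjW (f : G → ℝ) (x : G) :
    ∑ h, f h * (conjW x h : ℝ) = ∑ g, f (g * x * g⁻¹) := by
  classical
  have h1 : ∀ h, (conjW x h : ℝ) = ∑ g : G, if g * x * g⁻¹ = h then (1 : ℝ) else 0 := by
    intro h
    unfold conjW
    rw [Nat.card_eq_fintype_card, Fintype.card_subtype]
    simp
  simp_rw [h1, Finset.mul_sum]
  rw [Finset.sum_comm]
  refine Finset.sum_congr rfl fun g _ => ?_
  simp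

theorem sum_mul_delta (μ U : G → ℝ) (hUc : ∀ g x, U (g * x * g⁻¹) = U x) :
    ∑ h, U h * (∑ x, (conjW x h : ℝ) * μ x) = (Fintype.card G : ℝ) * ∑ x, U x * μ x := by
  simp_rw [Finset.mul_sum]
  rw [Finset.sum_comm]
  refine Finset.sum_congr rfl fun x _ => ?_
  have h1 := sum_mul_conjW U x
  simp_rw [hUc] at h1
  calc ∑ h, U h * ((conjW x h : ℝ) * μ x) = (∑ h, U h * (conjW x h : ℝ)) * μ x := by
        rw [Finset.sum_mul]; exact Finset.sum_congr rfl fun h _ => by ring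
    _ = _ := by
        rw [h1]
        simp only [Finset.sum_const, Finset.card_univ, nsmul_eq_mul]
        ring

open Classical in
/-- The finite core of the argument. -/
theorem core (μ : G → ℝ) (hμ : ∀ x, 0 ≤ μ x) (lam C0 : ℝ) (hlam : 0 ≤ lam)
    (htot : |∑ x, μ x - lam| ≤ C0) (Good : Set G) (Cg : G → ℝ)
    (hgood : ∀ h ∈ Good, |(∑ x, (conjW x h : ℝ) * μ x) + (∑ x, (conjW x h⁻¹ : ℝ) * μ x)
      - 2 * lam| ≤ Cg h)
    (U : G → ℝ) (hUc : ∀ g x, U (g * x * g⁻¹) = U x) (hUi : ∀ x, U x⁻¹ = U x)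
    (M : ℝ) (hM : ∀ x, |U x| ≤ M) :
    |∑ x, U x * μ x - (∑ x, U x) / Nat.card G * lam| ≤
      M * (2 * Nat.card (Goodᶜ : Set G) / Nat.card G) * lam +
        M * (C0 + (∑ h ∈ Finset.univ.filter (· ∈ Good), Cg h) / Nat.card G) := by
  have hM0 : 0 ≤ M := (abs_nonneg _).trans (hM 1)
  set δ : G → ℝ := fun h => ∑ x, (conjW x h : ℝ) * μ x with hδ
  set D : G → ℝ := fun h => δ h + δ h⁻¹ with hD
  set S : ℝ := ∑ x, U x * μ x with hS
  set CG : ℝ := ∑ h ∈ Finset.univ.filter (· ∈ Good), Cg h with hCG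
  set n : ℝ := (Fintype.card G : ℝ) with hn
  have hnpos : 0 < n := by
    rw [hn]; exact_mod_cast Fintype.card_pos
  have hcardG : (Nat.card G : ℝ) = n := by rw [Nat.card_eq_fintype_card]
  set gd : Finset G := Finset.univ.filter (· ∈ Good) with hgd
  set bd : Finset G := Finset.univ.filter (fun h => ¬ h ∈ Good) with hbd
  have hcardB : (Nat.card (Goodᶜ : Set G) : ℝ) = (bd.card : ℝ) := by
    rw [Nat.card_eq_fintype_card, hbd, Fintype.card_subtype]
    rfl
  have hgb : (gd.card : ℝ) + (bd.card : ℝ) = n := by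
    rw [hn, ← Nat.cast_add, hgd, hbd, Finset.card_filter_add_card_filter_not, Finset.card_univ]
  have hδ0 : ∀ h, 0 ≤ δ h := fun h =>
    Finset.sum_nonneg fun x _ => mul_nonneg (Nat.cast_nonneg _) (hμ x)
  have hD0 : ∀ h, 0 ≤ D h := fun h => add_nonneg (hδ0 h) (hδ0 h⁻¹)
  -- the two averaging identities
  have havg : ∀ V : G → ℝ, (∀ g x, V (g * x * g⁻¹) = V x) → (∀ x, V x⁻¹ = V x) →
      ∑ h, V h * D h = 2 * n * ∑ x, V x * μ x := by
    intro V hVc hVi
    have h1 : ∑ h, V h * δ h = n * ∑ x, V x * μ x := sum_mul_delta μ V hVc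
    have h2 : ∑ h, V h * δ h⁻¹ = ∑ h, V h * δ h := by
      refine Fintype.sum_equiv (Equiv.inv G) _ _ fun h => ?_
      simp only [Equiv.inv_apply, hVi]
    simp only [hD, mul_add, Finset.sum_add_distrib]
    rw [h2, h1]; ring
  have hUD : ∑ h, U h * D h = 2 * n * S := havg U hUc hUi
  have h1D : ∑ h, D h = 2 * n * ∑ x, μ x := by
    have := havg (fun _ => 1) (fun _ _ => rfl) (fun _ => rfl)
    simpa using this
  -- the main estimate
  have hkey : 2 * n * S - 2 * (∑ x, U x) * lam = ∑ h, U h * (D h - 2 * lam) := by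
    simp only [mul_sub, Finset.sum_sub_distrib]
    rw [hUD, ← Finset.sum_mul]
    ring
  have hsplit : ∑ h, |D h - 2 * lam| = ∑ h ∈ gd, |D h - 2 * lam| + ∑ h ∈ bd, |D h - 2 * lam| :=
    (Finset.sum_filter_add_sum_filter_not Finset.univ (· ∈ Good) _).symm
  have hsplitD : ∑ h, D h = ∑ h ∈ gd, D h + ∑ h ∈ bd, D h :=
    (Finset.sum_filter_add_sum_filter_not Finset.univ (· ∈ Good) _).symm
  have hg1 : ∑ h ∈ gd, |D h - 2 * lam| ≤ CG :=
    Finset.sum_le_sum fun h hh => hgood h (Finset.mem_filter.mp hh).2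
  have hg2 : 2 * (gd.card : ℝ) * lam - CG ≤ ∑ h ∈ gd, D h := by
    have h1 : ∑ h ∈ gd, (2 * lam - Cg h) ≤ ∑ h ∈ gd, D h := by
      refine Finset.sum_le_sum fun h hh => ?_
      have := (abs_le.mp (hgood h (Finset.mem_filter.mp hh).2)).1
      have h2 : D h = (∑ x, (conjW x h : ℝ) * μ x) + (∑ x, (conjW x h⁻¹ : ℝ) * μ x) := rfl
      linarith
    rw [Finset.sum_sub_distrib, Finset.sum_const, nsmul_eq_mul] at h1
    linarith
  have hb1 : ∑ h ∈ bd, |D h - 2 * lam| ≤ ∑ h ∈ bd, D h + 2 * (bd.card : ℝ) * lam := by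
    have h1 : ∑ h ∈ bd, |D h - 2 * lam| ≤ ∑ h ∈ bd, (D h + 2 * lam) := by
      refine Finset.sum_le_sum fun h _ => ?_
      rw [abs_le]
      have := hD0 h
      constructor <;> linarith
    rw [Finset.sum_add_distrib, Finset.sum_const, nsmul_eq_mul] at h1
    linarith
  have htot' : ∑ x, μ x ≤ lam + C0 := by
    have := (abs_le.mp htot).2
    linarith
  have hsum : ∑ h, |D h - 2 * lam| ≤ 4 * (bd.card : ℝ) * lam + 2 * n * C0 + 2 * CG := by
    have h1 : 2 * n * ∑ x, μ x ≤ 2 * n * (lam + C0) :=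
      mul_le_mul_of_nonneg_left htot' (by positivity)
    have h2 : 2 * n * lam = 2 * (gd.card : ℝ) * lam + 2 * (bd.card : ℝ) * lam := by
      rw [← hgb]; ring
    rw [hsplit]
    linarith
  have habs : |2 * n * S - 2 * (∑ x, U x) * lam| ≤
      M * (4 * (bd.card : ℝ) * lam + 2 * n * C0 + 2 * CG) := by
    rw [hkey]
    calc |∑ h, U h * (D h - 2 * lam)| ≤ ∑ h, |U h * (D h - 2 * lam)| :=
          Finset.abs_sum_le_sum_abs _ _
      _ ≤ ∑ h, M * |D h - 2 * lam| := by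
          refine Finset.sum_le_sum fun h _ => ?_
          rw [abs_mul]
          exact mul_le_mul_of_nonneg_right (hM h) (abs_nonneg _)
      _ = M * ∑ h, |D h - 2 * lam| := by rw [Finset.mul_sum]
      _ ≤ _ := mul_le_mul_of_nonneg_left hsum hM0
  rw [hcardG, hcardB]
  have e1 : S - (∑ x, U x) / n * lam = (2 * n * S - 2 * (∑ x, U x) * lam) / (2 * n) := by
    field_simp
  have e2 : M * (2 * (bd.card : ℝ) / n) * lam + M * (C0 + CG / n) =
      M * (4 * (bd.card : ℝ) * lam + 2 * n * C0 + 2 * CG) / (2 * n) := by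
    field_simp
    ring
  rw [e1, e2, abs_div, abs_of_pos (by positivity : 0 < 2 * n)]
  exact div_le_div_of_nonneg_right habs (by positivity)

end AbsDensity

theorem abstract_sym_density {G : Type*} [Group G] [Fintype G] {ι : Type*} (Φ : ι → G)
    (w : ℝ → ι → ℝ) (lam : ℝ → ℝ) (l : Filter ℝ)
    (hw : ∀ᶠ s in l, (∀ i, 0 ≤ w s i) ∧ Summable (w s))
    (hlam : ∀ᶠ s in l, 0 ≤ lam s)
    (htot : ∃ C : ℝ, ∀ᶠ s in l, |∑' i, w s i - lam s| ≤ C)
    (Good : Set G)
    (hgood : ∀ h ∈ Good, ∃ C : ℝ, ∀ᶠ s in l, |delta Φ w s h + delta Φ w s h⁻¹ - 2 * lam s| ≤ C)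
    (U : G → ℝ) (hUc : ∀ g x, U (g * x * g⁻¹) = U x) (hUi : ∀ x, U x⁻¹ = U x)
    (M : ℝ) (hM : ∀ x, |U x| ≤ M) :
    ∃ C : ℝ, ∀ᶠ s in l,
      |∑' i, U (Φ i) * w s i - (∑ x, U x) / Nat.card G * lam s| ≤
        M * (2 * Nat.card (Goodᶜ : Set G) / Nat.card G) * lam s + C := by
  classical
  obtain ⟨C0, hC0⟩ := htot
  have hex : ∀ h : G, ∃ C : ℝ, h ∈ Good →
      ∀ᶠ s in l, |delta Φ w s h + delta Φ w s h⁻¹ - 2 * lam s| ≤ C := by
    intro h
    by_cases hh : h ∈ Good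
    · obtain ⟨C, hC⟩ := hgood h hh
      exact ⟨C, fun _ => hC⟩
    · exact ⟨0, fun h' => absurd h' hh⟩
  choose Cg hCg using hex
  have hall : ∀ᶠ s in l, ∀ h : G, h ∈ Good →
      |delta Φ w s h + delta Φ w s h⁻¹ - 2 * lam s| ≤ Cg h := by
    rw [Filter.eventually_all]
    intro h
    by_cases hh : h ∈ Good
    · exact (hCg h hh).mono fun s hs _ => hs
    · exact Filter.Eventually.of_forall fun s h' => absurd h' hh
  refine ⟨M * (C0 + (∑ h ∈ Finset.univ.filter (· ∈ Good), Cg h) / Nat.card G), ?_⟩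
  filter_upwards [hw, hlam, hC0, hall] with s hws hlams hC0s halls
  obtain ⟨hw0, hwS⟩ := hws
  rw [tsum_comp_mul Φ hwS U]
  refine AbsDensity.core (mass Φ (w s)) (mass_nonneg Φ hw0) (lam s) C0 hlams ?_ Good Cg ?_
    U hUc hUi M hM
  · rw [sum_mass Φ hwS]; exact hC0s
  · intro h hh
    rw [← delta_eq_sum Φ w s hwS h, ← delta_eq_sum Φ w s hwS h⁻¹]
    exact halls h hh

end Fermat.Agent.S48.CH
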