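import Fermat.Agent.S48.CH.Defs

/-!
# S48 / CH : pushing a weighted family `Φ : ι → G` forward to a finite type

`mass Φ v x = ∑' i, if Φ i = x then v i else 0`, and
`∑' i, f (Φ i) * v i = ∑ x, f x * mass Φ v x` for real and complex valued `f`.
Owner: helper108.
-/

set_option autoImplicit false
set_option linter.unusedSectionVars false

namespace Fermat.Agent.S48.CH

variable {G : Type*} [Fintype G] {ι : Type*}

open Classical in
/-- total weight of the indices `i` with `Φ i = x`. -/
noncomputable def mass (Φ : ι → G) (v : ι → ℝ) (x : G) : ℝ := ∑' i, if Φ i = x then v i else 0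

theorem mass_nonneg (Φ : ι → G) {v : ι → ℝ} (hv : ∀ i, 0 ≤ v i) (x : G) : 0 ≤ mass Φ v x := by
  classical
  unfold mass
  refine tsum_nonneg fun i => ?_
  split_ifs
  · exact hv i
  · exact le_rfl

open Classical in
theorem summable_ite (Φ : ι → G) {v : ι → ℝ} (hv : Summable v) (x : G) :
    Summable fun i => if Φ i = x then v i else 0 := by
  have := hv.indicator {i | Φ i = x}
  refine this.congr fun i => ?_
  simp [Set.indicator_apply]

theorem tsum_comp_mul (Φ : ι → G) {v : ι → ℝ} (hv : Summable v) (f : G → ℝ) :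
    ∑' i, f (Φ i) * v i = ∑ x, f x * mass Φ v x := by
  classical
  unfold mass
  have h1 : ∀ i, f (Φ i) * v i = ∑ x, f x * (if Φ i = x then v i else 0) := by
    intro i
    rw [Finset.sum_eq_single (Φ i)]
    · simp
    · intro b _ hb
      simp [Ne.symm hb]
    · simp
  rw [tsum_congr h1, Summable.tsum_finsetSum (fun x _ => (summable_ite Φ hv x).mul_left (f x))]
  exact Finset.sum_congr rfl fun x _ => tsum_mul_left

theorem summable_comp_mul (Φ : ι → G) {v : ι → ℝ} (hv : Summable v) (f : G → ℝ) :
    Summable fun i => f (Φ i) * v i := by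
  classical
  have h1 : ∀ i, f (Φ i) * v i = ∑ x, f x * (if Φ i = x then v i else 0) := by
    intro i
    rw [Finset.sum_eq_single (Φ i)]
    · simp
    · intro b _ hb
      simp [Ne.symm hb]
    · simp
  simp_rw [h1]
  exact summable_sum fun x _ => (summable_ite Φ hv x).mul_left (f x)

theorem tsum_comp_mul_complex (Φ : ι → G) {v : ι → ℝ} (hv : Summable v) (f : G → ℂ) :
    ∑' i, f (Φ i) * (v i : ℂ) = ∑ x, f x * (mass Φ v x : ℂ) := by
  classical
  unfold mass
  have h1 : ∀ i, f (Φ i) * (v i : ℂ) = ∑ x, f x * (((if Φ i = x then v i else 0 : ℝ)) : ℂ) := by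
    intro i
    rw [Finset.sum_eq_single (Φ i)]
    · simp
    · intro b _ hb
      simp [Ne.symm hb]
    · simp
  have hs : ∀ x, Summable fun i => (((if Φ i = x then v i else 0 : ℝ)) : ℂ) := fun x =>
    Complex.summable_ofReal.mpr (summable_ite Φ hv x)
  rw [tsum_congr h1, Summable.tsum_finsetSum (fun x _ => (hs x).mul_left (f x))]
  refine Finset.sum_congr rfl fun x _ => ?_
  rw [tsum_mul_left, Complex.ofReal_tsum]

theorem sum_mass (Φ : ι → G) {v : ι → ℝ} (hv : Summable v) : ∑ x, mass Φ v x = ∑' i, v i := by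
  have := tsum_comp_mul Φ hv (fun _ => 1)
  simpa using this.symm

/-- `delta` in terms of `mass`. -/
theorem delta_eq_sum [Group G] (Φ : ι → G) (w : ℝ → ι → ℝ) (s : ℝ) (hw : Summable (w s)) (σ : G) :
    delta Φ w s σ = ∑ x, (conjW x σ : ℝ) * mass Φ (w s) x :=
  tsum_comp_mul Φ hw (fun x => (conjW x σ : ℝ))

end Fermat.Agent.S48.CH
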