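import Fermat.Agent.Lib.WeakChebotarev.Abstract
import Fermat.Agent.S48.CH.Mass

/-!
# S48 / CH / N12 : abstract Fourier inversion on a cyclic subgroup

The core of Chebotarev's crossing trick, in abstract form: `abstract_cyc`.
Owner: helper108.
-/

set_option autoImplicit false
set_option linter.unusedSectionVars false

namespace Fermat.Agent.S48.CH

open Filter
open Fermat.Agent.Lib.WeakChebotarev (conjCount)

namespace AbsFourier

section comb

variable {G : Type*} [Group G] [Fintype G]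

open Classical in
theorem conjW_eq_sum (x σ : G) : (conjW x σ : ℂ) = ∑ g : G, if g * x * g⁻¹ = σ then 1 else 0 := by
  unfold conjW
  rw [Nat.card_eq_fintype_card, Fintype.card_subtype, Finset.card_filter]
  push_cast
  rfl

theorem forall_zpowers_iff (x g : G) (H : Subgroup G) :
    (∀ d ∈ Subgroup.zpowers x, g * d * g⁻¹ ∈ H) ↔ g * x * g⁻¹ ∈ H := by
  constructor
  · intro h
    exact h x (Subgroup.mem_zpowers x)
  · rintro h _ ⟨k, rfl⟩
    have : g * x ^ k * g⁻¹ = (g * x * g⁻¹) ^ k := (conj_zpow).symm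
    simp only
    rw [this]
    exact H.zpow_mem h k

open Classical in
theorem conjCount_eq_sum (x : G) (H : Subgroup G) :
    (conjCount (Subgroup.zpowers x) H : ℂ) = ∑ g : G, if g * x * g⁻¹ ∈ H then 1 else 0 := by
  unfold conjCount
  simp_rw [forall_zpowers_iff]
  rw [Nat.card_eq_fintype_card, Fintype.card_subtype, Finset.card_filter]
  push_cast
  rfl

open Classical in
/-- the key identity. -/
theorem key1 (c : G → ℂ) (hc : ∀ g x, c (g * x * g⁻¹) = c x) (H : Subgroup G) (x : G) :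
    (conjCount (Subgroup.zpowers x) H : ℂ) * c x =
      ∑ h' : G, if h' ∈ H then c h' * (conjW x h' : ℂ) else 0 := by
  simp_rw [conjW_eq_sum, conjCount_eq_sum, Finset.sum_mul, Finset.mul_sum]
  have : ∀ h' : G, (if h' ∈ H then ∑ g : G, c h' * (if g * x * g⁻¹ = h' then (1 : ℂ) else 0) else 0)
      = ∑ g : G, if g * x * g⁻¹ = h' then (if g * x * g⁻¹ ∈ H then c x else 0) else 0 := by
    intro h'
    split_ifs with hh
    · refine Finset.sum_congr rfl fun g _ => ?_
      split_ifs with h1 h2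
      · rw [← h1, hc, mul_one]
      · exact absurd (h1 ▸ hh) h2
      · simp
    · symm
      refine Finset.sum_eq_zero fun g _ => ?_
      split_ifs with h1 h2
      · exact absurd (h1 ▸ h2) hh
      · rfl
      · rfl
  simp_rw [this]
  rw [Finset.sum_comm]
  refine Finset.sum_congr rfl fun g _ => ?_
  rw [Finset.sum_ite_eq]
  simp

/-- `delta` for a weight function on `G`. -/
noncomputable def dl (m : G → ℝ) (σ : G) : ℝ := ∑ x, (conjW x σ : ℝ) * m x

/-- the sum attached to a subgroup. -/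
noncomputable def KK (m : G → ℝ) (H : Subgroup G) : ℝ :=
  ∑ x, (conjCount (Subgroup.zpowers x) H : ℝ) * m x

/-- the twisted sum attached to a subgroup. -/
noncomputable def UU (m : G → ℝ) (H : Subgroup G) (c : G → ℂ) : ℂ :=
  ∑ x, (conjCount (Subgroup.zpowers x) H : ℂ) * c x * (m x : ℂ)

open Classical in
theorem UU_eq (m : G → ℝ) (H : Subgroup G) (c : G → ℂ) (hc : ∀ g x, c (g * x * g⁻¹) = c x) :
    UU m H c = ∑ h' : G, if h' ∈ H then c h' * (dl m h' : ℂ) else 0 := by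
  unfold UU dl
  simp_rw [key1 c hc H, Finset.sum_mul]
  rw [Finset.sum_comm]
  refine Finset.sum_congr rfl fun h' _ => ?_
  split_ifs with hh
  · push_cast
    rw [Finset.mul_sum]
    exact Finset.sum_congr rfl fun x _ => by ring
  · simp

theorem UU_one (m : G → ℝ) (H : Subgroup G) : UU m H (fun _ => 1) = (KK m H : ℂ) := by
  unfold UU KK
  push_cast
  exact Finset.sum_congr rfl fun x _ => by ring

theorem UU_congr (m : G → ℝ) (H : Subgroup G) (c c' : G → ℂ)
    (hc : ∀ g x, c (g * x * g⁻¹) = c x) (hc' : ∀ g x, c' (g * x * g⁻¹) = c' x)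
    (h : ∀ x ∈ H, c x = c' x) : UU m H c = UU m H c' := by
  classical
  rw [UU_eq m H c hc, UU_eq m H c' hc']
  refine Finset.sum_congr rfl fun h' _ => ?_
  split_ifs with hh
  · rw [h h' hh]
  · rfl

theorem KK_bot (m : G → ℝ) : KK m ⊥ = dl m 1 := by
  unfold KK dl
  refine Finset.sum_congr rfl fun x _ => ?_
  congr 2
  unfold conjCount conjW
  simp_rw [forall_zpowers_iff, Subgroup.mem_bot]

theorem dl_nonneg (m : G → ℝ) (hm : ∀ x, 0 ≤ m x) (σ : G) : 0 ≤ dl m σ :=
  Finset.sum_nonneg fun x _ => mul_nonneg (Nat.cast_nonneg _) (hm x)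

end comb

section char

variable {G : Type*} [Group G] [Fintype G] {q : ℕ} [NeZero q] (cyc : G →* (ZMod q)ˣ)

/-- `χ ∘ cyc`. -/
noncomputable def cx (χ : DirichletCharacter ℂ q) (g : G) : ℂ := χ ((cyc g : (ZMod q)ˣ) : ZMod q)

theorem cx_conj (χ : DirichletCharacter ℂ q) (g x : G) : cx cyc χ (g * x * g⁻¹) = cx cyc χ x := by
  unfold cx
  rw [map_mul, map_mul, map_inv, mul_comm (cyc g), mul_inv_cancel_right]

theorem cx_mul (χ : DirichletCharacter ℂ q) (x y : G) :
    cx cyc χ (x * y) = cx cyc χ x * cx cyc χ y := by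
  unfold cx
  rw [map_mul, Units.val_mul, map_mul]

theorem cx_one (χ : DirichletCharacter ℂ q) : cx cyc χ 1 = 1 := by
  unfold cx
  rw [map_one, Units.val_one, map_one]

theorem norm_cx (χ : DirichletCharacter ℂ q) (x : G) : ‖cx cyc χ x‖ = 1 :=
  χ.unit_norm_eq_one _

theorem cx_inv (χ : DirichletCharacter ℂ q) (x : G) :
    cx cyc χ x⁻¹ = starRingEnd ℂ (cx cyc χ x) := by
  have h1 : cx cyc χ x⁻¹ * cx cyc χ x = 1 := by rw [← cx_mul, inv_mul_cancel, cx_one]
  have h2 : starRingEnd ℂ (cx cyc χ x) * cx cyc χ x = 1 := by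
    rw [mul_comm, Complex.mul_conj, Complex.normSq_eq_norm_sq, norm_cx]
    simp
  have h3 : cx cyc χ x ≠ 0 := by
    intro h0
    rw [h0, mul_zero] at h1
    exact zero_ne_one h1
  exact mul_right_cancel₀ h3 (h1.trans h2.symm)

theorem cx_zpow (χ : DirichletCharacter ℂ q) (x : G) (hx : cx cyc χ x = 1) :
    ∀ y ∈ Subgroup.zpowers x, cx cyc χ y = 1 := by
  let f : G →* ℂ := ⟨⟨cx cyc χ, cx_one cyc χ⟩, cx_mul cyc χ⟩
  rintro _ ⟨k, rfl⟩
  have hu : f x = 1 := hx
  have h1 : ∀ n : ℕ, f (x ^ n) = 1 := fun n => by rw [map_pow, hu, one_pow]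
  show f (x ^ k) = 1
  obtain ⟨n, rfl | rfl⟩ := k.eq_nat_or_neg
  · rw [zpow_natCast]; exact h1 n
  · rw [zpow_neg, zpow_natCast]
    have h2 : f (x ^ n)⁻¹ * f (x ^ n) = 1 := by rw [← map_mul, inv_mul_cancel, map_one]
    rw [h1 n, mul_one] at h2
    exact h2

theorem orth (a b : (ZMod q)ˣ) :
    ∑ χ : DirichletCharacter ℂ q, χ ((a⁻¹ : (ZMod q)ˣ) : ZMod q) * χ (b : ZMod q) =
      if a = b then (q.totient : ℂ) else 0 := by
  have := DirichletCharacter.sum_char_inv_mul_char_eq ℂ (a.isUnit) (b : ZMod q)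
  rw [ZMod.inv_coe_unit] at this
  rw [this]
  simp only [Units.val_inj]

open Classical in
theorem inversion (m : G → ℝ) (H : Subgroup G) (hinj : ∀ x ∈ H, cyc x = 1 → x = 1)
    (y : G) (hy : y ∈ H) :
    ∑ χ : DirichletCharacter ℂ q, cx cyc χ y⁻¹ * UU m H (cx cyc χ) =
      (q.totient : ℂ) * (dl m y : ℂ) := by
  simp_rw [UU_eq m H _ (cx_conj cyc _), Finset.mul_sum]
  rw [Finset.sum_comm, Finset.sum_eq_single y]
  · simp only [if_pos hy]
    have h1 : ∀ χ : DirichletCharacter ℂ q,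
        cx cyc χ y⁻¹ * (cx cyc χ y * (dl m y : ℂ)) = (dl m y : ℂ) := by
      intro χ
      rw [← mul_assoc, ← cx_mul, inv_mul_cancel, cx_one, one_mul]
    simp_rw [h1]
    rw [Finset.sum_const, Finset.card_univ, nsmul_eq_mul, ← Nat.card_eq_fintype_card,
      DirichletCharacter.card_eq_totient_of_hasEnoughRootsOfUnity]
  · intro b _ hb
    by_cases hbH : b ∈ H
    · simp only [if_pos hbH]
      have h1 : ∀ χ : DirichletCharacter ℂ q, cx cyc χ y⁻¹ * (cx cyc χ b * (dl m b : ℂ)) =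
          (χ (((cyc y)⁻¹ : (ZMod q)ˣ) : ZMod q) * χ ((cyc b : (ZMod q)ˣ) : ZMod q)) *
            (dl m b : ℂ) := by
        intro χ
        unfold cx
        rw [map_inv, mul_assoc]
      simp_rw [h1]
      rw [← Finset.sum_mul, orth, if_neg, zero_mul]
      intro hcy
      apply hb
      have h2 : cyc (y⁻¹ * b) = 1 := by rw [map_mul, map_inv, hcy, inv_mul_cancel]
      have h3 := hinj _ (H.mul_mem (H.inv_mem hy) hbH) h2
      exact (inv_mul_eq_one.mp h3).symm
    · simp [if_neg hbH]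
  · intro h
    exact absurd (Finset.mem_univ y) h

open Classical in
theorem sum_cx (χ : DirichletCharacter ℂ q) (H : Subgroup G) :
    (∑ b : G, if b ∈ H then cx cyc χ b else 0) =
      if (∀ x ∈ H, cx cyc χ x = 1) then (Nat.card H : ℂ) else 0 := by
  split_ifs with h
  · have : ∀ b : G, (if b ∈ H then cx cyc χ b else 0) = if b ∈ H then 1 else 0 := by
      intro b
      split_ifs with hb
      · exact h b hb
      · rfl
    simp_rw [this]
    rw [Nat.card_eq_fintype_card, Fintype.card_subtype, Finset.card_filter]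
    push_cast
    rfl
  · push Not at h
    obtain ⟨b0, hb0, hne⟩ := h
    refine eq_zero_of_mul_eq_self_left hne ?_
    rw [Finset.mul_sum]
    refine Fintype.sum_bijective (fun b => b0 * b) (Group.mulLeft_bijective b0) _ _ fun b => ?_
    have hiff : b0 * b ∈ H ↔ b ∈ H := H.mul_mem_cancel_left hb0
    by_cases hb : b ∈ H
    · rw [if_pos hb, if_pos (hiff.mpr hb), cx_mul]
    · rw [if_neg hb, if_neg (fun h' => hb (hiff.mp h')), mul_zero]

open Classical in
/-- the characters which are trivial on `cyc H`. -/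
noncomputable def TT (H : Subgroup G) : Finset (DirichletCharacter ℂ q) :=
  Finset.univ.filter fun χ => ∀ x ∈ H, cx cyc χ x = 1

theorem card_TT_mul (H : Subgroup G) (hinj : ∀ x ∈ H, cyc x = 1 → x = 1) :
    ((TT cyc H).card : ℝ) * Nat.card H = q.totient := by
  classical
  have h1 : ∑ χ : DirichletCharacter ℂ q, ∑ b : G, (if b ∈ H then cx cyc χ b else 0) =
      ((TT cyc H).card : ℂ) * Nat.card H := by
    simp_rw [sum_cx]
    rw [← Finset.sum_filter, Finset.sum_const, nsmul_eq_mul]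
    rfl
  have h2 : ∑ χ : DirichletCharacter ℂ q, ∑ b : G, (if b ∈ H then cx cyc χ b else 0) =
      (q.totient : ℂ) := by
    rw [Finset.sum_comm, Finset.sum_eq_single 1]
    · simp only [if_pos H.one_mem, cx_one]
      rw [Finset.sum_const, Finset.card_univ, nsmul_eq_mul, mul_one, ← Nat.card_eq_fintype_card,
        DirichletCharacter.card_eq_totient_of_hasEnoughRootsOfUnity]
    · intro b _ hb
      by_cases hbH : b ∈ H
      · simp only [if_pos hbH]
        unfold cx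
        rw [DirichletCharacter.sum_characters_eq, if_neg]
        intro h1
        apply hb
        apply hinj b hbH
        exact Units.ext (by simpa using h1)
      · simp [if_neg hbH]
    · intro h
      exact absurd (Finset.mem_univ _) h
  have h3 := h1.symm.trans h2
  exact_mod_cast h3

end char

section bound

variable {G : Type*} [Group G] [Fintype G] {q : ℕ} [NeZero q] (cyc : G →* (ZMod q)ˣ)

theorem UU_of_mem_TT (m : G → ℝ) (H : Subgroup G) (χ : DirichletCharacter ℂ q)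
    (hχ : χ ∈ TT cyc H) : UU m H (cx cyc χ) = (KK m H : ℂ) := by
  classical
  rw [← UU_one]
  exact UU_congr m H _ _ (cx_conj cyc χ) (fun _ _ => rfl)
    (fun x hx => (Finset.mem_filter.mp hχ).2 x hx)

theorem re_inversion_one (m : G → ℝ) (H : Subgroup G) (hinj : ∀ x ∈ H, cyc x = 1 → x = 1) :
    (q.totient : ℝ) * dl m 1 = (TT cyc H).card * KK m H +
      ∑ χ ∈ (TT cyc H)ᶜ, (UU m H (cx cyc χ)).re := by
  classical
  have h := inversion cyc m H hinj 1 H.one_mem
  simp only [inv_one, cx_one, one_mul] at h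
  have h2 := congrArg Complex.re h
  rw [Complex.re_sum, ← Complex.ofReal_natCast, ← Complex.ofReal_mul, Complex.ofReal_re] at h2
  rw [← h2, ← Finset.sum_add_sum_compl (TT cyc H)]
  congr 1
  rw [Finset.sum_congr rfl fun χ hχ => by rw [UU_of_mem_TT cyc m H χ hχ, Complex.ofReal_re]]
  rw [Finset.sum_const, nsmul_eq_mul]

theorem re_inversion_sym (m : G → ℝ) (H : Subgroup G) (hinj : ∀ x ∈ H, cyc x = 1 → x = 1)
    (y : G) (hy : y ∈ H) :
    (q.totient : ℝ) * (dl m y + dl m y⁻¹) = 2 * (TT cyc H).card * KK m H +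
      ∑ χ ∈ (TT cyc H)ᶜ, 2 * (cx cyc χ y).re * (UU m H (cx cyc χ)).re := by
  classical
  have h1 := inversion cyc m H hinj y hy
  have h2 := inversion cyc m H hinj y⁻¹ (H.inv_mem hy)
  rw [inv_inv] at h2
  have h3 : ∑ χ : DirichletCharacter ℂ q,
      (((2 * (cx cyc χ y).re : ℝ)) : ℂ) * UU m H (cx cyc χ) =
      (((q.totient : ℝ) * (dl m y + dl m y⁻¹) : ℝ) : ℂ) := by
    have : ∀ χ : DirichletCharacter ℂ q, (((2 * (cx cyc χ y).re : ℝ)) : ℂ) * UU m H (cx cyc χ) =
        cx cyc χ y⁻¹ * UU m H (cx cyc χ) + cx cyc χ y * UU m H (cx cyc χ) := by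
      intro χ
      rw [← add_mul, cx_inv, add_comm, Complex.add_conj]
    simp_rw [this]
    rw [Finset.sum_add_distrib, h1, h2]
    push_cast
    ring
  have h4 := congrArg Complex.re h3
  rw [Complex.re_sum, Complex.ofReal_re] at h4
  simp_rw [Complex.re_ofReal_mul] at h4
  rw [← h4, ← Finset.sum_add_sum_compl (TT cyc H)]
  congr 1
  rw [Finset.sum_congr rfl fun χ hχ => by
    rw [UU_of_mem_TT cyc m H χ hχ, Complex.ofReal_re, (Finset.mem_filter.mp hχ).2 y hy,
      Complex.one_re, mul_one]]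
  rw [Finset.sum_const, nsmul_eq_mul]
  ring

theorem final_bound (m : G → ℝ) (H : Subgroup G) (hinj : ∀ x ∈ H, cyc x = 1 → x = 1)
    (y : G) (hy : y ∈ H) (lam C0 C1 Cx : ℝ) (hCx : 0 ≤ Cx)
    (h0 : |KK m ⊥ - lam| ≤ C0) (h1 : |KK m H - Nat.card H * lam| ≤ C1)
    (hup : ∀ χ ∈ (TT cyc H)ᶜ, (UU m H (cx cyc χ)).re ≤ Cx) :
    |dl m y + dl m y⁻¹ - 2 * lam| ≤
      (2 * (TT cyc H).card * C1 + 2 * ((TT cyc H)ᶜ.card : ℝ) *
        ((q.totient : ℝ) * C0 + (TT cyc H).card * C1 + ((TT cyc H)ᶜ.card : ℝ) * Cx)) /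
          q.totient := by
  classical
  set t : ℝ := ((TT cyc H).card : ℝ) with ht
  set R : ℝ := ((TT cyc H)ᶜ.card : ℝ) with hR
  set φ : ℝ := (q.totient : ℝ) with hφ
  set N : ℝ := (Nat.card H : ℝ) with hN
  have ht0 : 0 ≤ t := Nat.cast_nonneg _
  have hR0 : 0 ≤ R := Nat.cast_nonneg _
  have hφ0 : 0 < φ := by
    rw [hφ]
    exact_mod_cast Nat.totient_pos.mpr (Nat.pos_of_ne_zero (NeZero.ne q))
  have htN : t * N = φ := card_TT_mul cyc H hinj
  have hC0 : 0 ≤ C0 := (abs_nonneg _).trans h0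
  have hC1 : 0 ≤ C1 := (abs_nonneg _).trans h1
  set S : ℝ := ∑ χ ∈ (TT cyc H)ᶜ, (UU m H (cx cyc χ)).re with hS
  have e1 := re_inversion_one cyc m H hinj
  rw [← KK_bot] at e1
  set E : ℝ := φ * C0 + t * C1 with hE
  have hE0 : 0 ≤ E := by positivity
  have hSE : |S| ≤ E := by
    have : S = φ * (KK m ⊥ - lam) - t * (KK m H - N * lam) := by
      have : S = φ * KK m ⊥ - t * KK m H := by linarith
      rw [this, ← htN]; ring
    rw [this]
    refine (abs_sub _ _).trans ?_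
    rw [abs_mul, abs_mul, abs_of_pos hφ0, abs_of_nonneg ht0]
    exact add_le_add (mul_le_mul_of_nonneg_left h0 hφ0.le) (mul_le_mul_of_nonneg_left h1 ht0)
  have hlow : ∀ χ ∈ (TT cyc H)ᶜ, |(UU m H (cx cyc χ)).re| ≤ E + R * Cx := by
    intro χ hχ
    have hR1 : 1 ≤ R := by
      rw [hR]
      exact_mod_cast Finset.card_pos.mpr ⟨χ, hχ⟩
    have hsplit := Finset.add_sum_erase (TT cyc H)ᶜ (fun χ => (UU m H (cx cyc χ)).re) hχ
    have hle : ∑ χ' ∈ (TT cyc H)ᶜ.erase χ, (UU m H (cx cyc χ')).re ≤ R * Cx := by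
      calc _ ≤ ((TT cyc H)ᶜ.erase χ).card • Cx :=
            Finset.sum_le_card_nsmul _ _ _ fun χ' hχ' => hup χ' (Finset.mem_of_mem_erase hχ')
        _ = (((TT cyc H)ᶜ.erase χ).card : ℝ) * Cx := nsmul_eq_mul _ _
        _ ≤ R * Cx := by
            refine mul_le_mul_of_nonneg_right ?_ hCx
            rw [hR]
            exact_mod_cast Finset.card_le_card (Finset.erase_subset _ _)
    have hS1 := (abs_le.mp hSE).1
    rw [abs_le]
    constructor
    · linarith
    · have := hup χ hχ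
      nlinarith
  have e2 := re_inversion_sym cyc m H hinj y hy
  have hmain : φ * (dl m y + dl m y⁻¹ - 2 * lam) = 2 * t * (KK m H - N * lam) +
      ∑ χ ∈ (TT cyc H)ᶜ, 2 * (cx cyc χ y).re * (UU m H (cx cyc χ)).re := by
    have : φ * (dl m y + dl m y⁻¹ - 2 * lam) = φ * (dl m y + dl m y⁻¹) - 2 * (t * N) * lam := by
      rw [htN]; ring
    rw [this, e2]; ring
  have hsum : |∑ χ ∈ (TT cyc H)ᶜ, 2 * (cx cyc χ y).re * (UU m H (cx cyc χ)).re| ≤
      2 * R * (E + R * Cx) := by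
    refine (Finset.abs_sum_le_sum_abs _ _).trans ?_
    calc _ ≤ (TT cyc H)ᶜ.card • (2 * (E + R * Cx)) := by
          refine Finset.sum_le_card_nsmul _ _ _ fun χ hχ => ?_
          rw [abs_mul, abs_mul, abs_two]
          have hz : |(cx cyc χ y).re| ≤ 1 := by
            have := Complex.abs_re_le_norm (cx cyc χ y)
            rwa [norm_cx] at this
          have hu := hlow χ hχ
          have hu0 := abs_nonneg (UU m H (cx cyc χ)).re
          have hz0 := abs_nonneg (cx cyc χ y).re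
          nlinarith
      _ = 2 * R * (E + R * Cx) := by rw [nsmul_eq_mul]; ring
  rw [le_div_iff₀ hφ0, mul_comm, ← abs_of_pos hφ0, ← abs_mul, hmain]
  refine (abs_add_le _ _).trans (add_le_add ?_ hsum)
  rw [abs_mul, abs_of_nonneg (by positivity : (0 : ℝ) ≤ 2 * t)]
  exact mul_le_mul_of_nonneg_left h1 (by positivity)

end bound

end AbsFourier

open AbsFourier in
theorem abstract_cyc {G : Type*} [Group G] [Finite G] {q : ℕ} [NeZero q] (cyc : G →* (ZMod q)ˣ)
    {ι : Type*} (Φ : ι → G) (w : ℝ → ι → ℝ) (lam : ℝ → ℝ) (l : Filter ℝ) [l.NeBot]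
    (hw : ∀ᶠ s in l, (∀ i, 0 ≤ w s i ∧ w s i ≤ 1) ∧ Summable (w s))
    (hlam : Tendsto lam l atTop)
    (hH : ∀ H : Subgroup G, ∃ C : ℝ, ∀ᶠ s in l,
      |∑' i, (conjCount (Subgroup.zpowers (Φ i)) H : ℝ) * w s i - Nat.card H * lam s| ≤ C)
    (hχ : ∀ (H : Subgroup G) (χ : DirichletCharacter ℂ q),
      (∃ i, 0 < conjCount (Subgroup.zpowers (Φ i)) H ∧ χ ((cyc (Φ i) : (ZMod q)ˣ) : ZMod q) ≠ 1) →
      ∃ C : ℝ, ∀ᶠ s in l,
        (∑' i, (conjCount (Subgroup.zpowers (Φ i)) H : ℂ) * χ ((cyc (Φ i) : (ZMod q)ˣ) : ZMod q) *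
          (w s i : ℂ)).re ≤ C)
    (h : G) (hinj : ∀ x ∈ Subgroup.zpowers h, cyc x = 1 → x = 1) :
    ∃ C : ℝ, ∀ᶠ s in l, |delta Φ w s h + delta Φ w s h⁻¹ - 2 * lam s| ≤ C := by
  classical
  have := Fintype.ofFinite G
  set H : Subgroup G := Subgroup.zpowers h with hHdef
  obtain ⟨C0, hC0⟩ := hH ⊥
  obtain ⟨C1, hC1⟩ := hH H
  -- the premise of `hχ` for the characters outside `TT`
  obtain ⟨i0, -, g0, hg0⟩ := Fermat.Agent.Lib.WeakChebotarev.abstract_density
    (fun i => Subgroup.zpowers (Φ i)) w lam l hw hlam hH h ∅ Set.finite_empty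
  have hgen : Subgroup.zpowers (g0 * Φ i0 * g0⁻¹) = H := by
    rw [hHdef, ← hg0, MonoidHom.map_zpowers]
    rfl
  have hpos : 0 < conjCount (Subgroup.zpowers (Φ i0)) H := by
    unfold conjCount
    have : Nonempty {g : G // ∀ d ∈ Subgroup.zpowers (Φ i0), g * d * g⁻¹ ∈ H} :=
      ⟨⟨g0, (forall_zpowers_iff _ _ _).mpr (hgen ▸ Subgroup.mem_zpowers _)⟩⟩
    exact Nat.card_pos
  have hprem : ∀ χ : DirichletCharacter ℂ q, χ ∈ (TT cyc H)ᶜ →
      χ ((cyc (Φ i0) : (ZMod q)ˣ) : ZMod q) ≠ 1 := by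
    intro χ hχT h1
    apply Finset.mem_compl.mp hχT
    refine Finset.mem_filter.mpr ⟨Finset.mem_univ _, ?_⟩
    rw [← hgen]
    apply cx_zpow
    rw [cx_conj]
    exact h1
  have hex : ∀ χ : DirichletCharacter ℂ q, ∃ C : ℝ, χ ∈ (TT cyc H)ᶜ → ∀ᶠ s in l,
        (∑' i, (conjCount (Subgroup.zpowers (Φ i)) H : ℂ) * χ ((cyc (Φ i) : (ZMod q)ˣ) : ZMod q) *
          (w s i : ℂ)).re ≤ C := by
    intro χ
    by_cases hχT : χ ∈ (TT cyc H)ᶜ
    · obtain ⟨C, hC⟩ := hχ H χ ⟨i0, hpos, hprem χ hχT⟩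
      exact ⟨C, fun _ => hC⟩
    · exact ⟨0, fun h => absurd h hχT⟩
  choose Cc hCc using hex
  set Cx : ℝ := ∑ χ : DirichletCharacter ℂ q, |Cc χ| with hCx
  have hCx0 : 0 ≤ Cx := Finset.sum_nonneg fun _ _ => abs_nonneg _
  have hall : ∀ᶠ s in l, ∀ χ ∈ (TT cyc H)ᶜ,
        (∑' i, (conjCount (Subgroup.zpowers (Φ i)) H : ℂ) * χ ((cyc (Φ i) : (ZMod q)ˣ) : ZMod q) *
          (w s i : ℂ)).re ≤ Cc χ :=
    (Filter.eventually_all_finset _).mpr fun χ hχT => hCc χ hχT
  refine ⟨(2 * (TT cyc H).card * C1 + 2 * ((TT cyc H)ᶜ.card : ℝ) *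
        ((q.totient : ℝ) * C0 + (TT cyc H).card * C1 + ((TT cyc H)ᶜ.card : ℝ) * Cx)) /
          q.totient, ?_⟩
  filter_upwards [hw, hC0, hC1, hall] with s hws h0 h1 h2
  have hsum := hws.2
  set m : G → ℝ := mass Φ (w s) with hm
  rw [delta_eq_sum Φ w s hsum, delta_eq_sum Φ w s hsum]
  rw [tsum_comp_mul Φ hsum (fun x => (conjCount (Subgroup.zpowers x) ⊥ : ℝ))] at h0
  rw [tsum_comp_mul Φ hsum (fun x => (conjCount (Subgroup.zpowers x) H : ℝ))] at h1
  have h0' : |KK m ⊥ - lam s| ≤ C0 := by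
    simpa [KK] using h0
  refine final_bound cyc m H hinj h (Subgroup.mem_zpowers h) (lam s) C0 C1 Cx hCx0 h0' h1 ?_
  intro χ hχT
  have h3 := h2 χ hχT
  rw [tsum_comp_mul_complex Φ hsum
    (fun x => (conjCount (Subgroup.zpowers x) H : ℂ) * χ ((cyc x : (ZMod q)ˣ) : ZMod q))] at h3
  refine h3.trans ?_
  exact (le_abs_self _).trans
    (Finset.single_le_sum (f := fun χ => |Cc χ|) (fun _ _ => abs_nonneg _) (Finset.mem_univ χ))

end Fermat.Agent.S48.CH
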