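import Mathlib

/-!
# S48 / block CH, node N11 (helper187): few elements of `(ℤ/q)ˣ` have order not divisible by `n`
when `n ^ k ∣ q - 1`.
-/

set_option autoImplicit false

namespace Fermat.Agent.S48.CH

namespace BadCount

/-- arithmetic core. -/
theorem exists_prime_dvd_div {n k N d : ℕ} (hn : 0 < n) (hk : 1 ≤ k) (hN : 0 < N)
    (hnN : n ^ k ∣ N) (hd : d ∣ N) (hnd : ¬ n ∣ d) :
    ∃ r ∈ n.primeFactors, d ∣ N / r ^ k := by
  have hd0 : d ≠ 0 := by
    rintro rfl
    exact hnd (dvd_zero n)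
  have h1 : ¬ ∀ p : ℕ, p.Prime → n.factorization p ≤ d.factorization p := by
    intro h
    exact hnd ((Nat.factorization_prime_le_iff_dvd hn.ne' hd0).mp h)
  push Not at h1
  obtain ⟨r, hr, hlt⟩ := h1
  have hrn : r ∣ n := by
    by_contra hrn
    rw [Nat.factorization_eq_zero_of_not_dvd hrn] at hlt
    exact Nat.not_lt_zero _ hlt
  have hrk : r ^ k ∣ N := (pow_dvd_pow_of_dvd hrn k).trans hnN
  have hpos : 0 < r ^ k := pow_pos hr.pos k
  have hq0 : N / r ^ k ≠ 0 := (Nat.div_pos (Nat.le_of_dvd hN hrk) hpos).ne'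
  refine ⟨r, Nat.mem_primeFactors.mpr ⟨hr, hrn, hn.ne'⟩, ?_⟩
  rw [← Nat.factorization_prime_le_iff_dvd hd0 hq0]
  intro p hp
  rw [Nat.factorization_div hrk, hr.factorization_pow, Finsupp.tsub_apply]
  have hdN : d.factorization p ≤ N.factorization p :=
    (Nat.factorization_le_iff_dvd hd0 hN.ne').mpr hd p
  by_cases hpr : p = r
  · subst hpr
    rw [Finsupp.single_eq_same]
    have h2 : (n ^ k).factorization p ≤ N.factorization p :=
      (Nat.factorization_le_iff_dvd (pow_pos hn k).ne' hN.ne').mpr hnN p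
    rw [Nat.factorization_pow, Finsupp.smul_apply, smul_eq_mul] at h2
    have h3 : d.factorization p + k ≤ k * n.factorization p := by
      calc d.factorization p + k ≤ k * d.factorization p + k :=
            Nat.add_le_add_right (Nat.le_mul_of_pos_left _ hk) k
        _ = k * (d.factorization p + 1) := by ring
        _ ≤ k * n.factorization p := Nat.mul_le_mul_left k hlt
    omega
  · rw [Finsupp.single_eq_of_ne hpr, Nat.sub_zero]
    exact hdN

theorem card_primeFactors_le (n : ℕ) : n.primeFactors.card ≤ n := by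
  have h : n.primeFactors ⊆ Finset.Icc 1 n := by
    intro p hp
    rw [Finset.mem_Icc]
    exact ⟨(Nat.prime_of_mem_primeFactors hp).pos, Nat.le_of_mem_primeFactors hp⟩
  simpa using Finset.card_le_card h

end BadCount

open BadCount in
theorem card_bad_le (q : ℕ) [Fact q.Prime] (n k : ℕ) (hn : 0 < n) (hq : n ^ k ∣ q - 1) :
    (Nat.card {τ : (ZMod q)ˣ // ¬ n ∣ orderOf τ} : ℝ) ≤ (n : ℝ) / 2 ^ k * (q - 1 : ℕ) := by
  classical
  have hqp : q.Prime := Fact.out
  have hN : 0 < q - 1 := Nat.sub_pos_of_lt hqp.one_lt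
  have hcard : Fintype.card (ZMod q)ˣ = q - 1 := ZMod.card_units q
  rw [Nat.card_eq_fintype_card, Fintype.card_subtype]
  rcases Nat.eq_zero_or_pos k with rfl | hk
  · -- trivial bound
    have h1 : (Finset.univ.filter fun τ : (ZMod q)ˣ => ¬ n ∣ orderOf τ).card ≤ q - 1 := by
      rw [← hcard]
      exact Finset.card_le_univ _
    have h2 : ((Finset.univ.filter fun τ : (ZMod q)ˣ => ¬ n ∣ orderOf τ).card : ℝ)
        ≤ ((q - 1 : ℕ) : ℝ) := by exact_mod_cast h1
    have h3 : (1 : ℝ) ≤ n := by exact_mod_cast hn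
    have h4 : (0 : ℝ) ≤ ((q - 1 : ℕ) : ℝ) := Nat.cast_nonneg _
    rw [pow_zero, div_one]
    nlinarith
  · have hsub : (Finset.univ.filter fun τ : (ZMod q)ˣ => ¬ n ∣ orderOf τ) ⊆
        n.primeFactors.biUnion fun r =>
          Finset.univ.filter fun τ : (ZMod q)ˣ => τ ^ ((q - 1) / r ^ k) = 1 := by
      intro τ hτ
      rw [Finset.mem_filter] at hτ
      have hd : orderOf τ ∣ q - 1 := by
        rw [← hcard]
        exact orderOf_dvd_card
      obtain ⟨r, hr, hdvd⟩ := exists_prime_dvd_div hn hk hN hq hd hτ.2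
      rw [Finset.mem_biUnion]
      exact ⟨r, hr, Finset.mem_filter.mpr ⟨Finset.mem_univ _, orderOf_dvd_iff_pow_eq_one.mp hdvd⟩⟩
    have h1 : (Finset.univ.filter fun τ : (ZMod q)ˣ => ¬ n ∣ orderOf τ).card ≤
        ∑ r ∈ n.primeFactors, (q - 1) / r ^ k := by
      refine (Finset.card_le_card hsub).trans (Finset.card_biUnion_le.trans ?_)
      refine Finset.sum_le_sum fun r hr => ?_
      have hrp := Nat.prime_of_mem_primeFactors hr
      have hrk : r ^ k ∣ q - 1 := (pow_dvd_pow_of_dvd (Nat.dvd_of_mem_primeFactors hr) k).trans hq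
      have hpos : 0 < (q - 1) / r ^ k :=
        Nat.div_pos (Nat.le_of_dvd hN hrk) (pow_pos hrp.pos k)
      exact IsCyclic.card_pow_eq_one_le hpos
    have h2 : ∀ r ∈ n.primeFactors, (((q - 1) / r ^ k : ℕ) : ℝ) ≤ ((q - 1 : ℕ) : ℝ) / 2 ^ k := by
      intro r hr
      have hrp := Nat.prime_of_mem_primeFactors hr
      refine (Nat.cast_div_le).trans ?_
      push_cast
      have h3 : (2 : ℝ) ^ k ≤ (r : ℝ) ^ k :=
        pow_le_pow_left₀ (by norm_num) (by exact_mod_cast hrp.two_le) k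
      exact div_le_div_of_nonneg_left (Nat.cast_nonneg _) (by positivity) h3
    have h4 : ((Finset.univ.filter fun τ : (ZMod q)ˣ => ¬ n ∣ orderOf τ).card : ℝ) ≤
        ∑ r ∈ n.primeFactors, (((q - 1) / r ^ k : ℕ) : ℝ) := by exact_mod_cast h1
    refine h4.trans ((Finset.sum_le_sum h2).trans ?_)
    rw [Finset.sum_const, nsmul_eq_mul]
    have h5 : (n.primeFactors.card : ℝ) ≤ n := by exact_mod_cast card_primeFactors_le n
    have h6 : (0 : ℝ) ≤ ((q - 1 : ℕ) : ℝ) / 2 ^ k := by positivity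
    calc (n.primeFactors.card : ℝ) * (((q - 1 : ℕ) : ℝ) / 2 ^ k)
        ≤ (n : ℝ) * (((q - 1 : ℕ) : ℝ) / 2 ^ k) := mul_le_mul_of_nonneg_right h5 h6
      _ = (n : ℝ) / 2 ^ k * ((q - 1 : ℕ) : ℝ) := by ring

end Fermat.Agent.S48.CH
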