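import Fermat.Agent.S48.CH.Defs
import Fermat.Agent.Lib.WeakChebotarev.Count
import Fermat.Agent.Lib.WeakChebotarev.DegOne
import Fermat.Agent.Lib.WeakChebotarev.Inertia
import Fermat.Agent.Lib.WeakChebotarev.NumberFieldOf

/-!
# S48 / block CH, node N14 : the hypotheses `hH`, `hχ` of the abstract theorems
for a Galois number field

`concrete_hH` is complete; `concrete_hχ_of` takes the nodes N8 (`re_degOneSumTw_le`) and
N9 (`autToPow_frob`) as explicit hypotheses.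
Owner: helper163.
-/

set_option autoImplicit false
set_option linter.unusedSectionVars false

namespace Fermat.Agent.S48.CH

open NumberField Ideal Filter Topology
open scoped nonZeroDivisors Pointwise
open Fermat.Agent.S14.Analytic (term zetaSum)
open Fermat.Agent.Lib.WeakChebotarev

namespace Concrete

/-- removing a finite set of indices changes a sum by a bounded amount. -/
theorem norm_tsum_compl_sub_le {α E : Type*} [NormedAddCommGroup E] [CompleteSpace E] (f : α → E)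
    (hf : Summable f) (T : Set α) (hT : T.Finite) (B : ℝ) (hB : ∀ x ∈ T, ‖f x‖ ≤ B) :
    ‖∑' i : {x // x ∉ T}, f i - ∑' x, f x‖ ≤ hT.toFinset.card * B := by
  classical
  have h1 := hf.sum_add_tsum_subtype_compl hT.toFinset
  have h2 : ∑' i : {x // x ∉ T}, f i = ∑' i : {x // x ∉ hT.toFinset}, f i :=
    Equiv.tsum_eq (Equiv.subtypeEquivRight (p := fun x => x ∉ T)
      (q := fun x => x ∉ hT.toFinset) (fun x => by simp))
      (fun i : {x // x ∉ hT.toFinset} => f i)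
  rw [h2, ← h1, sub_add_cancel_right, norm_neg, ← nsmul_eq_mul]
  refine (norm_sum_le _ _).trans (Finset.sum_le_card_nsmul _ _ _ fun x hx => hB x (by simpa using hx))

variable (M : Type*) [Field M] [NumberField M] [IsGalois ℚ M]

theorem conjCount_zpowers (H : Subgroup (M ≃ₐ[ℚ] M)) (ℓ : ℕ) (hℓ : ℓ.Prime)
    (hunr : ¬ (ℓ : ℤ) ∣ discr M) (φ : M ≃ₐ[ℚ] M)
    (hφ : ∃ Q : Ideal (𝓞 M), Q.IsPrime ∧ (ℓ : 𝓞 M) ∈ Q ∧ ∀ x : 𝓞 M, φ • x - x ^ ℓ ∈ Q) :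
    conjCount (Subgroup.zpowers φ) H =
      Nat.card H * degOneCount (FixedPoints.intermediateField H : IntermediateField ℚ M) ℓ := by
  obtain ⟨Q, hQp, hQ, hx⟩ := hφ
  rw [zpowers_eq_stabilizer M ℓ hℓ hunr Q hQ φ hx, card_mul_degOneCount M H ℓ hℓ hunr Q hQ]

theorem rpow_neg_le_one (ℓ : Nat.Primes) {s : ℝ} (hs : 1 < s) : ((ℓ : ℕ) : ℝ) ^ (-s) ≤ 1 :=
  Real.rpow_le_one_of_one_le_of_nonpos (by exact_mod_cast ℓ.2.one_lt.le) (by linarith)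

theorem rpow_neg_nonneg (ℓ : Nat.Primes) (s : ℝ) : 0 ≤ ((ℓ : ℕ) : ℝ) ^ (-s) :=
  Real.rpow_nonneg (Nat.cast_nonneg _) _

end Concrete

section concrete

variable (M : Type*) [Field M] [NumberField M] [IsGalois ℚ M]
  (T : Set Nat.Primes) (hT : T.Finite) (hTd : ∀ ℓ : Nat.Primes, ((ℓ : ℕ) : ℤ) ∣ discr M → ℓ ∈ T)
  (Φ : {ℓ : Nat.Primes // ℓ ∉ T} → (M ≃ₐ[ℚ] M))
  (hΦ : ∀ i, ∃ Q : Ideal (𝓞 M), Q.IsPrime ∧ ((i.1 : ℕ) : 𝓞 M) ∈ Q ∧
    ∀ x : 𝓞 M, Φ i • x - x ^ (i.1 : ℕ) ∈ Q)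

include hT hTd hΦ in
theorem concrete_hH (H : Subgroup (M ≃ₐ[ℚ] M)) : ∃ C : ℝ, ∀ᶠ s in 𝓝[>] (1 : ℝ),
    |∑' i, (conjCount (Subgroup.zpowers (Φ i)) H : ℝ) * ((i.1 : ℕ) : ℝ) ^ (-s) -
      Nat.card H * Real.log (1 / (s - 1))| ≤ C := by
  set F : IntermediateField ℚ M := FixedPoints.intermediateField H with hF
  obtain ⟨C, hC⟩ := degOneSum_bound F
  refine ⟨Nat.card H * (hT.toFinset.card * Module.finrank ℚ F + C), ?_⟩
  filter_upwards [hC, self_mem_nhdsWithin] with s hCs hs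
  have hs' : (1 : ℝ) < s := hs
  set f : Nat.Primes → ℝ := fun ℓ => (degOneCount F (ℓ : ℕ) : ℝ) * ((ℓ : ℕ) : ℝ) ^ (-s) with hf
  have e : ∑' i, (conjCount (Subgroup.zpowers (Φ i)) H : ℝ) * ((i.1 : ℕ) : ℝ) ^ (-s) =
      Nat.card H * ∑' i : {ℓ : Nat.Primes // ℓ ∉ T}, f i := by
    rw [← tsum_mul_left]
    refine tsum_congr fun i => ?_
    rw [Concrete.conjCount_zpowers M H (i.1 : ℕ) i.1.2 (fun h => i.2 (hTd _ h)) (Φ i) (hΦ i), hf]
    push_cast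
    ring
  have b := Concrete.norm_tsum_compl_sub_le f (summable_degOne F hs') T hT
    (Module.finrank ℚ F) (fun ℓ _ => by
      rw [hf, Real.norm_eq_abs, abs_of_nonneg
        (mul_nonneg (Nat.cast_nonneg _) (Concrete.rpow_neg_nonneg ℓ s))]
      calc _ ≤ (Module.finrank ℚ F : ℝ) * 1 :=
            mul_le_mul (by exact_mod_cast degOneCount_le F ℓ ℓ.2) (Concrete.rpow_neg_le_one ℓ hs')
              (Concrete.rpow_neg_nonneg ℓ s) (Nat.cast_nonneg _)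
        _ = _ := mul_one _)
  rw [Real.norm_eq_abs] at b
  rw [e, ← mul_sub, abs_mul, Nat.abs_cast]
  refine mul_le_mul_of_nonneg_left ?_ (Nat.cast_nonneg _)
  have hd : ∑' x, f x = degOneSum F s := rfl
  rw [hd] at b
  calc |∑' i : {ℓ : Nat.Primes // ℓ ∉ T}, f i - Real.log (1 / (s - 1))|
      = |(∑' i : {ℓ : Nat.Primes // ℓ ∉ T}, f i - degOneSum F s) +
          (degOneSum F s - Real.log (1 / (s - 1)))| := by ring_nf
    _ ≤ _ := (abs_add_le _ _).trans (add_le_add b hCs)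

include hT hTd hΦ in
/-- `concrete_hχ` with the nodes N8 and N9 as explicit hypotheses. -/
theorem concrete_hχ_of {q : ℕ} [NeZero q] {ζ : M} (hζ : IsPrimitiveRoot ζ q)
    (hTq : ∀ ℓ : Nat.Primes, (ℓ : ℕ) ∣ q → ℓ ∈ T)
    (H : Subgroup (M ≃ₐ[ℚ] M)) (χ : DirichletCharacter ℂ q)
    (hN8 : ∀ I₀ : (Ideal (𝓞 (FixedPoints.intermediateField H : IntermediateField ℚ M)))⁰,
      tw (FixedPoints.intermediateField H : IntermediateField ℚ M) χ I₀ ≠ 0 →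
      tw (FixedPoints.intermediateField H : IntermediateField ℚ M) χ I₀ ≠ 1 →
      ∃ C : ℝ, ∀ s : ℝ, 1 < s → s ≤ 2 →
        (degOneSumTw (FixedPoints.intermediateField H : IntermediateField ℚ M) χ s).re ≤ C)
    (hN9 : ∀ ℓ : ℕ, ℓ.Prime → ¬ ℓ ∣ q → ∀ (Q : Ideal (𝓞 M)) [Q.IsPrime], (ℓ : 𝓞 M) ∈ Q →
      ∀ φ : M ≃ₐ[ℚ] M, (∀ x : 𝓞 M, φ • x - x ^ ℓ ∈ Q) →
        ((hζ.autToPow ℚ φ : (ZMod q)ˣ) : ZMod q) = (ℓ : ZMod q))
    (hex : ∃ i, 0 < conjCount (Subgroup.zpowers (Φ i)) H ∧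
      χ ((hζ.autToPow ℚ (Φ i) : (ZMod q)ˣ) : ZMod q) ≠ 1) :
    ∃ C : ℝ, ∀ᶠ s in 𝓝[>] (1 : ℝ),
      (∑' i, (conjCount (Subgroup.zpowers (Φ i)) H : ℂ) *
        χ ((hζ.autToPow ℚ (Φ i) : (ZMod q)ˣ) : ZMod q) *
          ((((i.1 : ℕ) : ℝ) ^ (-s) : ℝ) : ℂ)).re ≤ C := by
  set F : IntermediateField ℚ M := FixedPoints.intermediateField H with hF
  have hpow : ∀ i, ((hζ.autToPow ℚ (Φ i) : (ZMod q)ˣ) : ZMod q) = ((i.1 : ℕ) : ZMod q) := by
    intro i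
    obtain ⟨Q, hQp, hQ, hx⟩ := hΦ i
    exact hN9 (i.1 : ℕ) i.1.2 (fun h => i.2 (hTq _ h)) Q hQ (Φ i) hx
  have hcount : ∀ i, conjCount (Subgroup.zpowers (Φ i)) H =
      Nat.card H * degOneCount F (i.1 : ℕ) := fun i =>
    Concrete.conjCount_zpowers M H (i.1 : ℕ) i.1.2 (fun h => i.2 (hTd _ h)) (Φ i) (hΦ i)
  -- the ideal `I₀`
  obtain ⟨i₀, hi₀, hχ₀⟩ := hex
  have hpos : 0 < degOneCount F (i₀.1 : ℕ) := by
    rw [hcount] at hi₀
    exact Nat.pos_of_mul_pos_left hi₀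
  obtain ⟨⟨P, hPp, hPn⟩⟩ : Nonempty {P : Ideal (𝓞 F) // P.IsPrime ∧ absNorm P = (i₀.1 : ℕ)} :=
    (Nat.card_pos_iff.mp hpos).1
  have hP0 : P ∈ (Ideal (𝓞 F))⁰ := by
    rw [mem_nonZeroDivisors_iff_ne_zero]
    rintro rfl
    have : absNorm (0 : Ideal (𝓞 F)) = 0 := by simp
    rw [this] at hPn
    exact i₀.1.2.ne_zero hPn.symm
  have htw : tw F χ ⟨P, hP0⟩ = χ ((hζ.autToPow ℚ (Φ i₀) : (ZMod q)ˣ) : ZMod q) := by
    rw [hpow, tw]
    simp only [hPn]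
  obtain ⟨C, hC⟩ := hN8 ⟨P, hP0⟩
    (by rw [htw]; exact ((hζ.autToPow ℚ (Φ i₀) : (ZMod q)ˣ).isUnit.map χ).ne_zero)
    (by rw [htw]; exact hχ₀)
  refine ⟨Nat.card H * (hT.toFinset.card * Module.finrank ℚ F + C), ?_⟩
  have hle2 : ∀ᶠ s in 𝓝[>] (1 : ℝ), s ≤ 2 :=
    (eventually_le_nhds (by norm_num : (1 : ℝ) < 2)).filter_mono nhdsWithin_le_nhds
  filter_upwards [hle2, self_mem_nhdsWithin] with s hs2 hs
  have hs' : (1 : ℝ) < s := hs
  set f : Nat.Primes → ℂ := fun ℓ => (degOneCount F (ℓ : ℕ) : ℂ) * χ ((ℓ : ℕ) : ZMod q) *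
    ((((ℓ : ℕ) : ℝ) ^ (-s) : ℝ) : ℂ) with hf
  have hnorm : ∀ ℓ : Nat.Primes, ‖f ℓ‖ ≤ (degOneCount F (ℓ : ℕ) : ℝ) * ((ℓ : ℕ) : ℝ) ^ (-s) := by
    intro ℓ
    rw [hf]
    simp only [norm_mul, Complex.norm_natCast, Complex.norm_real, Real.norm_eq_abs,
      abs_of_nonneg (Concrete.rpow_neg_nonneg ℓ s)]
    refine mul_le_mul_of_nonneg_right ?_ (Concrete.rpow_neg_nonneg ℓ s)
    exact mul_le_of_le_one_right (Nat.cast_nonneg _) (DirichletCharacter.norm_le_one χ _)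
  have hsum : Summable f := Summable.of_norm_bounded (summable_degOne F hs') hnorm
  have e : ∑' i, (conjCount (Subgroup.zpowers (Φ i)) H : ℂ) *
        χ ((hζ.autToPow ℚ (Φ i) : (ZMod q)ˣ) : ZMod q) * ((((i.1 : ℕ) : ℝ) ^ (-s) : ℝ) : ℂ) =
      Nat.card H * ∑' i : {ℓ : Nat.Primes // ℓ ∉ T}, f i := by
    rw [← tsum_mul_left]
    refine tsum_congr fun i => ?_
    rw [hcount, hpow, hf]
    push_cast
    ring
  have b := Concrete.norm_tsum_compl_sub_le f hsum T hT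
    (Module.finrank ℚ F) (fun ℓ _ => (hnorm ℓ).trans (by
      calc _ ≤ (Module.finrank ℚ F : ℝ) * 1 :=
            mul_le_mul (by exact_mod_cast degOneCount_le F ℓ ℓ.2) (Concrete.rpow_neg_le_one ℓ hs')
              (Concrete.rpow_neg_nonneg ℓ s) (Nat.cast_nonneg _)
        _ = _ := mul_one _))
  have hd : ∑' x, f x = degOneSumTw F χ s := rfl
  rw [hd] at b
  have hre : ∀ (n : ℕ) (z : ℂ), ((n : ℂ) * z).re = n * z.re := by
    intro n z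
    simp
  rw [e, hre]
  refine mul_le_mul_of_nonneg_left ?_ (Nat.cast_nonneg _)
  have h1 : (∑' i : {ℓ : Nat.Primes // ℓ ∉ T}, f i).re =
      (∑' i : {ℓ : Nat.Primes // ℓ ∉ T}, f i - degOneSumTw F χ s).re +
        (degOneSumTw F χ s).re := by
    rw [Complex.sub_re]; ring
  rw [h1]
  exact add_le_add ((Complex.re_le_norm _).trans b) (hC s hs' hs2)

end concrete

end Fermat.Agent.S48.CH
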