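import Mathlib

/-!
# S48 / block CH, node N5 : every ideal class contains an ideal of norm prime to `m`.
-/

set_option autoImplicit false

namespace Fermat.Agent.S48.CH

open NumberField Ideal
open scoped nonZeroDivisors

variable (F : Type*) [Field F] [NumberField F]

theorem isCoprime_of_absNorm_coprime (J : Ideal (𝓞 F)) (m : ℕ) (h : (absNorm J).Coprime m) :
    IsCoprime J (Ideal.span {(m : 𝓞 F)}) := by
  rw [Ideal.isCoprime_iff_exists]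
  obtain ⟨a, b, hab⟩ := Nat.isCoprime_iff_coprime.mpr h
  refine ⟨(a : 𝓞 F) * ((absNorm J : ℕ) : 𝓞 F), J.mul_mem_left _ (Ideal.absNorm_mem J),
    (b : 𝓞 F) * (m : 𝓞 F), Ideal.mul_mem_left _ _ (Ideal.mem_span_singleton_self _), ?_⟩
  have := congrArg (fun z : ℤ => (z : 𝓞 F)) hab
  simpa using this

namespace Coprime

/-- If `m` is invertible modulo the nonzero ideal `I`, the norm of `I` is prime to `m`. -/
theorem absNorm_coprime_of_sup_eq_top (I : Ideal (𝓞 F)) (hI : I ≠ ⊥) (m : ℕ)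
    (h : Ideal.span {(m : 𝓞 F)} ⊔ I = ⊤) : (absNorm I).Coprime m := by
  rw [Nat.coprime_iff_gcd_eq_one]
  by_contra hne
  obtain ⟨p, hp, hpd⟩ := Nat.exists_prime_and_dvd hne
  have hpN : p ∣ absNorm I := hpd.trans (Nat.gcd_dvd_left _ _)
  have hpm : p ∣ m := hpd.trans (Nat.gcd_dvd_right _ _)
  have : Fact p.Prime := ⟨hp⟩
  have : Finite (𝓞 F ⧸ I) := (Ideal.absNorm_ne_zero_iff I).mp (by
    rw [Ideal.absNorm_ne_zero_iff_mem_nonZeroDivisors]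
    exact mem_nonZeroDivisors_of_ne_zero hI)
  have hcard : p ∣ Nat.card (𝓞 F ⧸ I) := by
    have : absNorm I = Nat.card (𝓞 F ⧸ I) := by
      rw [Ideal.absNorm_apply, Submodule.cardQuot_apply]
    rwa [this] at hpN
  obtain ⟨y, hy⟩ := exists_prime_addOrderOf_dvd_card' (G := 𝓞 F ⧸ I) p hcard
  have hy0 : y ≠ 0 := by
    rintro rfl
    rw [addOrderOf_zero] at hy
    exact hp.one_lt.ne hy
  have hpy : p • y = 0 := by rw [← hy]; exact addOrderOf_nsmul_eq_zero y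
  have hmy : m • y = 0 := by
    obtain ⟨k, rfl⟩ := hpm
    rw [mul_comm, mul_smul, hpy, smul_zero]
  -- `m` is a unit modulo `I`
  have h1 : (1 : 𝓞 F) ∈ Ideal.span {(m : 𝓞 F)} ⊔ I := by rw [h]; trivial
  obtain ⟨u, hu, v, hv, huv⟩ := Submodule.mem_sup.mp h1
  obtain ⟨c, rfl⟩ := Ideal.mem_span_singleton'.mp hu
  apply hy0
  have hq : (Ideal.Quotient.mk I c) * (Ideal.Quotient.mk I (m : 𝓞 F)) = 1 := by
    rw [← map_mul, ← map_one (Ideal.Quotient.mk I), ← huv, map_add,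
      Ideal.Quotient.eq_zero_iff_mem.mpr hv, add_zero]
  calc y = 1 * y := (one_mul y).symm
    _ = (Ideal.Quotient.mk I c) * ((Ideal.Quotient.mk I (m : 𝓞 F)) * y) := by
        rw [← hq, mul_assoc]
    _ = (Ideal.Quotient.mk I c) * (m • y) := by
        rw [map_natCast, nsmul_eq_mul]
    _ = 0 := by rw [hmy, mul_zero]

end Coprime

theorem exists_mk0_eq_absNorm_coprime (C : ClassGroup (𝓞 F)) (m : ℕ) (hm : m ≠ 0) :
    ∃ J : (Ideal (𝓞 F))⁰, ClassGroup.mk0 J = C ∧ (absNorm (J : Ideal (𝓞 F))).Coprime m := by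
  classical
  obtain ⟨J0, hJ0⟩ := ClassGroup.mk0_surjective C⁻¹
  have hJ0ne : (J0 : Ideal (𝓞 F)) ≠ 0 := nonZeroDivisors.coe_ne_zero J0
  have hm0 : (m : 𝓞 F) ≠ 0 := Nat.cast_ne_zero.mpr hm
  have hMne : Ideal.span {(m : 𝓞 F)} ≠ 0 := by
    rw [Ne, Ideal.zero_eq_bot, Ideal.span_singleton_eq_bot]; exact hm0
  obtain ⟨a, ha⟩ := IsDedekindDomain.exists_sup_span_eq
    (I := (J0 : Ideal (𝓞 F)) * Ideal.span {(m : 𝓞 F)}) (J := (J0 : Ideal (𝓞 F)))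
    Ideal.mul_le_left (mul_ne_zero hJ0ne hMne)
  have hale : Ideal.span {a} ≤ (J0 : Ideal (𝓞 F)) := by rw [← ha]; exact le_sup_right
  obtain ⟨I', hI'⟩ := Ideal.dvd_iff_le.mpr hale
  -- cancel `J0`
  have hsup : Ideal.span {(m : 𝓞 F)} ⊔ I' = ⊤ := by
    have h1 : (J0 : Ideal (𝓞 F)) * (Ideal.span {(m : 𝓞 F)} ⊔ I') = (J0 : Ideal (𝓞 F)) * ⊤ := by
      rw [Ideal.mul_sup, ← hI', ha, Ideal.mul_top]
    exact mul_left_cancel₀ hJ0ne h1
  by_cases hI0 : I' = ⊥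
  · -- degenerate case: `m` is a unit
    obtain ⟨J, hJ⟩ := ClassGroup.mk0_surjective C
    refine ⟨J, hJ, Coprime.absNorm_coprime_of_sup_eq_top F _ (nonZeroDivisors.coe_ne_zero J) m ?_⟩
    rw [hI0, sup_bot_eq] at hsup
    rw [hsup, top_sup_eq]
  · have hI'mem : I' ∈ (Ideal (𝓞 F))⁰ := mem_nonZeroDivisors_of_ne_zero hI0
    refine ⟨⟨I', hI'mem⟩, ?_, Coprime.absNorm_coprime_of_sup_eq_top F I' hI0 m hsup⟩
    have hmem : (J0 : Ideal (𝓞 F)) * I' ∈ (Ideal (𝓞 F))⁰ := mul_mem J0.2 hI'mem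
    have hone : ClassGroup.mk0 (⟨(J0 : Ideal (𝓞 F)) * I', hmem⟩ : (Ideal (𝓞 F))⁰) = 1 := by
      rw [ClassGroup.mk0_eq_one_iff, ← hI']
      exact ⟨⟨a, rfl⟩⟩
    have hmul : (⟨(J0 : Ideal (𝓞 F)) * I', hmem⟩ : (Ideal (𝓞 F))⁰) =
        J0 * (⟨I', hI'mem⟩ : (Ideal (𝓞 F))⁰) := Subtype.ext (by rw [Submonoid.coe_mul])
    have hprod : ClassGroup.mk0 (J0 * (⟨I', hI'mem⟩ : (Ideal (𝓞 F))⁰)) = 1 := by
      rw [← hmul]; exact hone
    rw [map_mul, hJ0] at hprod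
    exact (inv_mul_eq_one.mp hprod).symm

end Fermat.Agent.S48.CH
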