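import Mathlib

/-!
# S48 / block CH, node N10: crossing with a cyclotomic field
-/

set_option autoImplicit false

namespace Fermat.Agent.S48.CH

open NumberField Ideal Polynomial
open scoped Pointwise

theorem isGalois_cyclotomicField (L : Type*) [Field L] [NumberField L] [IsGalois ℚ L] (q : ℕ)
    [NeZero q] : IsGalois ℚ (CyclotomicField q L) := by
  obtain ⟨p, hp_sep, hp_split⟩ := IsGalois.is_separable_splitting_field ℚ L
  have := hp_split
  have h1 : IsSplittingField L (CyclotomicField q L) (X ^ q - 1) :=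
    IsCyclotomicExtension.isSplittingField_X_pow_sub_one q L (CyclotomicField q L)
  have h2 : IsSplittingField L (CyclotomicField q L)
      ((X ^ q - 1 : ℚ[X]).map (algebraMap ℚ L)) := by
    simpa using h1
  have hp0 : p ≠ 0 := hp_sep.ne_zero
  have hq0 : (X ^ q - 1 : ℚ[X]) ≠ 0 := (monic_X_pow_sub_C (1 : ℚ) (NeZero.ne q)).ne_zero
  have h3 : IsSplittingField ℚ (CyclotomicField q L) (p * (X ^ q - 1)) :=
    IsSplittingField.mul (K := L) (CyclotomicField q L) p (X ^ q - 1) hp0 hq0
  have : Normal ℚ (CyclotomicField q L) := Normal.of_isSplittingField (p * (X ^ q - 1))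
  exact ⟨⟩

theorem eq_one_of_res_of_zeta (L : Type*) [Field L] [NumberField L] [IsGalois ℚ L] (q : ℕ)
    [NeZero q] (g : CyclotomicField q L ≃ₐ[ℚ] CyclotomicField q L)
    (hres : AlgEquiv.restrictNormalHom L g = 1)
    (hz : g (IsCyclotomicExtension.zeta q L (CyclotomicField q L)) =
      IsCyclotomicExtension.zeta q L (CyclotomicField q L)) : g = 1 := by
  have hfix : ∀ x : L, g (algebraMap L (CyclotomicField q L) x)
      = algebraMap L (CyclotomicField q L) x := by
    intro x
    have := AlgEquiv.restrictNormal_commutes g L x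
    rw [← this]
    congr 1
    exact congrArg (fun f : L ≃ₐ[ℚ] L => f x) hres
  let g' : CyclotomicField q L →ₐ[L] CyclotomicField q L :=
    { (g : CyclotomicField q L →+* CyclotomicField q L) with commutes' := hfix }
  have hζ := IsCyclotomicExtension.zeta_spec q L (CyclotomicField q L)
  have hg' : g' = AlgHom.id L (CyclotomicField q L) := by
    apply (hζ.powerBasis L).algHom_ext
    rw [IsPrimitiveRoot.powerBasis_gen]
    exact hz
  ext x
  exact congrArg (fun f : CyclotomicField q L →ₐ[L] CyclotomicField q L => f x) hg'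

theorem res_frob (L M : Type*) [Field L] [NumberField L] [IsGalois ℚ L] [Field M] [NumberField M]
    [Algebra L M] (ℓ : ℕ) (Q : Ideal (𝓞 M)) (Φ : M ≃ₐ[ℚ] M)
    (hΦ : ∀ x : 𝓞 M, Φ • x - x ^ ℓ ∈ Q) (x : 𝓞 L) :
    (AlgEquiv.restrictNormalHom L Φ) • x - x ^ ℓ ∈ Q.comap (algebraMap (𝓞 L) (𝓞 M)) := by
  rw [Ideal.mem_comap, map_sub, map_pow]
  have h : algebraMap (𝓞 L) (𝓞 M) ((AlgEquiv.restrictNormalHom L Φ) • x)
      = Φ • algebraMap (𝓞 L) (𝓞 M) x := by
    apply RingOfIntegers.ext
    exact AlgEquiv.restrictNormal_commutes Φ L (x : L)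
  rw [h]
  exact hΦ _

end Fermat.Agent.S48.CH
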