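import Fermat.Agent.Lib.WeakChebotarev.Defs
import Fermat.Agent.S14.Analytic.Defs

/-!
# S48 / block CH (Chebotarev density, symmetrised form): definitions

* `tw F χ I = χ (N I)` for a Dirichlet character `χ` mod `m` and a nonzero ideal `I` of `𝓞 F`;
* `lSum F χ s = ∑_I χ(N I) N(I)^(-s)`;
* `primeSumTw`, `degOneSumTw` : the twisted sums over prime ideals / over rational primes;
* `conjW x σ = #{g | g x g⁻¹ = σ}` and `delta Φ w s σ = ∑_i conjW (Φ i) σ * w s i`.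
Owner: helper108.
-/

set_option autoImplicit false

namespace Fermat.Agent.S48.CH

open NumberField Ideal
open scoped nonZeroDivisors
open Fermat.Agent.S14.Analytic (term zetaSum)
open Fermat.Agent.Lib.WeakChebotarev (degOneCount degOneSum conjCount)

section analytic

variable (F : Type*) [Field F] [NumberField F] {m : ℕ} (χ : DirichletCharacter ℂ m)

/-- `χ (N I)`. -/
noncomputable def tw (I : (Ideal (𝓞 F))⁰) : ℂ := χ ((absNorm (I : Ideal (𝓞 F)) : ℕ) : ZMod m)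

/-- `L_F(s, χ ∘ N)` as a sum over nonzero ideals, real `s`. -/
noncomputable def lSum (s : ℝ) : ℂ := ∑' I : (Ideal (𝓞 F))⁰, tw F χ I * (term F s I : ℂ)

/-- `∑_P χ(N P) N(P)^(-s)` over the nonzero prime ideals. -/
noncomputable def primeSumTw (s : ℝ) : ℂ :=
  ∑' P : {P : (Ideal (𝓞 F))⁰ // (P : Ideal (𝓞 F)).IsPrime}, tw F χ P.1 * (term F s P.1 : ℂ)

/-- `∑_ℓ #{P : N P = ℓ} χ(ℓ) ℓ^(-s)` over the rational primes. -/
noncomputable def degOneSumTw (s : ℝ) : ℂ :=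
  ∑' ℓ : Nat.Primes, (degOneCount F (ℓ : ℕ) : ℂ) * χ ((ℓ : ℕ) : ZMod m) *
    ((((ℓ : ℕ) : ℝ) ^ (-s) : ℝ) : ℂ)

/-- `χ(|N x|)` for an algebraic integer `x`. -/
noncomputable def X (x : 𝓞 F) : ℂ := χ (((Algebra.norm ℤ x).natAbs : ℕ) : ZMod m)

/-- twisted sum over the nonzero principal ideals divisible by `J`. -/
noncomputable def prinSumTw (J : (Ideal (𝓞 F))⁰) (s : ℝ) : ℂ :=
  ∑' I : {I : (Ideal (𝓞 F))⁰ // (J : Ideal (𝓞 F)) ∣ I ∧ (I : Ideal (𝓞 F)).IsPrincipal},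
    tw F χ I.1 * (term F s I.1 : ℂ)

/-- the part of `lSum` coming from one ideal class. -/
noncomputable def classSumTw (C : ClassGroup (𝓞 F)) (s : ℝ) : ℂ :=
  ∑' I : {I : (Ideal (𝓞 F))⁰ // ClassGroup.mk0 I = C}, tw F χ I.1 * (term F s I.1 : ℂ)

end analytic

section group

variable {G : Type*} [Group G]

/-- `#{g | g x g⁻¹ = σ}`. -/
noncomputable def conjW (x σ : G) : ℕ := Nat.card {g : G // g * x * g⁻¹ = σ}

/-- `∑_i #{g | g (Φ i) g⁻¹ = σ} w_s(i)`; Chebotarev says that it is `~ lam s` for every `σ`. -/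
noncomputable def delta {ι : Type*} (Φ : ι → G) (w : ℝ → ι → ℝ) (s : ℝ) (σ : G) : ℝ :=
  ∑' i, (conjW (Φ i) σ : ℝ) * w s i

end group

end Fermat.Agent.S48.CH
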