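import Fermat.Agent.S48.CH.Defs
import Fermat.Agent.Lib.WeakChebotarev.DegOneBase

/-!
# S48 / block CH, node N8 : the twisted degree-one sum

* `primeSumTw_sub_degOneSumTw` : `∑_P χ(N P) N(P)^(-s)` and `∑_ℓ #{P : N P = ℓ} χ(ℓ) ℓ^(-s)` differ
  by a bounded amount;
* `re_degOneSumTw_le_of` : the real part of the twisted degree-one sum is bounded above on `(1,2]`,
  from the boundedness of the twisted L-series (N6) and the Euler product inequality (N7), which are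
  taken as explicit hypotheses here.
-/

set_option autoImplicit false

namespace Fermat.Agent.S48.CH

open NumberField Ideal
open scoped nonZeroDivisors
open Fermat.Agent.S14.Analytic (term zetaSum)
open Fermat.Agent.Lib.WeakChebotarev (degOneCount degOneSum conjCount)
open Fermat.Agent.Lib.WeakChebotarev.DegOne

namespace DegOneTw

variable (F : Type*) [Field F] [NumberField F] {m : ℕ} (χ : DirichletCharacter ℂ m)

theorem norm_tw_le (I : (Ideal (𝓞 F))⁰) : ‖tw F χ I‖ ≤ 1 :=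
  DirichletCharacter.norm_le_one χ _

/-- twisted summand: prime ideals of prime norm -/
noncomputable def gA (s : ℝ) (P : (Ideal (𝓞 F))⁰) : ℂ := tw F χ P * (fA F s P : ℂ)

/-- twisted summand: prime ideals of non-prime norm -/
noncomputable def gB (s : ℝ) (P : (Ideal (𝓞 F))⁰) : ℂ := tw F χ P * (fB F s P : ℂ)

theorem norm_gA_le (s : ℝ) (P : (Ideal (𝓞 F))⁰) : ‖gA F χ s P‖ ≤ fA F s P := by
  unfold gA
  rw [norm_mul, Complex.norm_real, Real.norm_of_nonneg (fA_nonneg F s P)]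
  exact mul_le_of_le_one_left (fA_nonneg F s P) (norm_tw_le F χ P)

theorem norm_gB_le (s : ℝ) (P : (Ideal (𝓞 F))⁰) : ‖gB F χ s P‖ ≤ fB F s P := by
  unfold gB
  rw [norm_mul, Complex.norm_real, Real.norm_of_nonneg (fB_nonneg F s P)]
  exact mul_le_of_le_one_left (fB_nonneg F s P) (norm_tw_le F χ P)

theorem summable_gA {s : ℝ} (hs : 1 < s) : Summable (gA F χ s) :=
  Summable.of_norm_bounded (summable_fA F hs) (norm_gA_le F χ s)

theorem summable_gB {s : ℝ} (hs : 1 < s) : Summable (gB F χ s) :=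
  Summable.of_norm_bounded (summable_fB F hs) (norm_gB_le F χ s)

/-- the twisted sum over prime ideals splits -/
theorem primeSumTw_eq {s : ℝ} (hs : 1 < s) :
    primeSumTw F χ s = ∑' P, gA F χ s P + ∑' P, gB F χ s P := by
  classical
  rw [← (summable_gA F χ hs).tsum_add (summable_gB F χ hs)]
  have := tsum_subtype {P : (Ideal (𝓞 F))⁰ | (P : Ideal (𝓞 F)).IsPrime}
    (fun P ↦ tw F χ P * (term F s P : ℂ))
  unfold primeSumTw
  refine this.trans ?_
  refine tsum_congr fun P ↦ ?_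
  unfold gA gB fA fB Set.indicator
  by_cases h1 : (P : Ideal (𝓞 F)).IsPrime <;> by_cases h2 : (absNorm (P : Ideal (𝓞 F))).Prime <;>
    simp [h1, h2]

theorem gA_emb (s : ℝ) (x : Σ ℓ : Nat.Primes, Z F (ℓ : ℕ)) :
    gA F χ s (emb F x) = χ ((x.1 : ℕ) : ZMod m) * ((((x.1 : ℕ) : ℝ) ^ (-s) : ℝ) : ℂ) := by
  have h1 : ((emb F x : (Ideal (𝓞 F))⁰) : Ideal (𝓞 F)) = x.2.1 := rfl
  unfold gA tw
  rw [fA_emb, h1, x.2.2.2]

theorem support_gA_subset (s : ℝ) : Function.support (gA F χ s) ⊆ Set.range (emb F) := by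
  intro P hP
  apply support_fA_subset F s
  intro h
  apply hP
  unfold gA
  rw [h]
  simp

theorem tsum_gA_eq {s : ℝ} (hs : 1 < s) : ∑' P, gA F χ s P = degOneSumTw F χ s := by
  rw [← (emb_injective F).tsum_eq (support_gA_subset F χ s)]
  have hsum : Summable fun x : Σ ℓ : Nat.Primes, Z F (ℓ : ℕ) ↦ gA F χ s (emb F x) :=
    (summable_gA F χ hs).comp_injective (emb_injective F)
  have hfin : ∀ ℓ : Nat.Primes, Finite (Z F (ℓ : ℕ)) := fun ℓ ↦ finite_Z ℓ.2
  rw [hsum.tsum_sigma' (fun ℓ ↦ Summable.of_finite)]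
  unfold degOneSumTw
  refine tsum_congr fun ℓ ↦ ?_
  simp only [gA_emb]
  rw [tsum_const, nsmul_eq_mul, mul_assoc]
  rfl

theorem norm_tsum_gB_le {s : ℝ} (hs : 1 < s) :
    ‖∑' P, gB F χ s P‖ ≤ (Module.finrank ℚ F : ℝ) * ∑' k : ℕ, 1 / (k : ℝ) ^ 2 :=
  (tsum_of_norm_bounded (summable_fB F hs).hasSum (norm_gB_le F χ s)).trans (tsum_fB_le F hs)

end DegOneTw

open DegOneTw

variable (F : Type*) [Field F] [NumberField F] {m : ℕ} (χ : DirichletCharacter ℂ m)

theorem primeSumTw_sub_degOneSumTw :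
    ∃ C : ℝ, ∀ s : ℝ, 1 < s → ‖primeSumTw F χ s - degOneSumTw F χ s‖ ≤ C := by
  refine ⟨(Module.finrank ℚ F : ℝ) * ∑' k : ℕ, 1 / (k : ℝ) ^ 2, fun s hs ↦ ?_⟩
  rw [primeSumTw_eq F χ hs, tsum_gA_eq F χ hs, add_sub_cancel_left]
  exact norm_tsum_gB_le F χ hs

/-- THE ANALYTIC INPUT, from N6 (`hL`) and N7 (`hE`). -/
theorem re_degOneSumTw_le_of
    (hL : ∃ B : ℝ, ∀ s : ℝ, 1 < s → s ≤ 2 → ‖lSum F χ s‖ ≤ B)
    (hE : ∀ s : ℝ, 1 < s →
      Real.exp (primeSumTw F χ s).re ≤ ‖lSum F χ s‖ * Real.exp (zetaSum F 2)) :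
    ∃ C : ℝ, ∀ s : ℝ, 1 < s → s ≤ 2 → (degOneSumTw F χ s).re ≤ C := by
  obtain ⟨B, hB⟩ := hL
  obtain ⟨C1, hC1⟩ := primeSumTw_sub_degOneSumTw F χ
  refine ⟨Real.log (max B 1) + zetaSum F 2 + C1, fun s hs hs2 ↦ ?_⟩
  have hB1 : (0 : ℝ) < max B 1 := lt_of_lt_of_le one_pos (le_max_right _ _)
  have h1 : Real.exp (primeSumTw F χ s).re ≤ Real.exp (Real.log (max B 1) + zetaSum F 2) := by
    rw [Real.exp_add, Real.exp_log hB1]
    refine (hE s hs).trans ?_
    exact mul_le_mul_of_nonneg_right ((hB s hs hs2).trans (le_max_left _ _)) (Real.exp_pos _).le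
  have h2 : (primeSumTw F χ s).re ≤ Real.log (max B 1) + zetaSum F 2 := Real.exp_le_exp.1 h1
  have h3 : (degOneSumTw F χ s - primeSumTw F χ s).re ≤ C1 := by
    refine (Complex.re_le_norm _).trans ?_
    rw [norm_sub_rev]
    exact hC1 s hs
  rw [Complex.sub_re] at h3
  linarith

end Fermat.Agent.S48.CH
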