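import Fermat.Agent.S48.CH.Defs
import Fermat.Agent.Lib.WeakChebotarev.EulerLog

/-!
# S48 / block CH, node N7: `exp (Re ∑_P χ(N P) N(P)^(-s)) ≤ ‖L_F(s, χ ∘ N)‖ * exp (ζ_F(2))`
-/

set_option autoImplicit false

namespace Fermat.Agent.S48.CH

open NumberField Ideal Filter Topology
open scoped nonZeroDivisors
open Fermat.Agent.S14.Analytic (term zetaSum term_pos term_one term_mul summable_term real_factor
  one_sub_term_pos summable_good prod_one_sub_mul_tsum summable_sieve_ideal)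
open Fermat.Agent.Lib.WeakChebotarev (summable_primeIdeal)
open Fermat.Agent.Lib.WeakChebotarev.EulerLog (exists_finset_sieve_le term_sq_le)

namespace EulerLogTw

theorem norm_one_sub_le (z : ℂ) : ‖1 - z‖ ≤ Real.exp (-z.re + ‖z‖ ^ 2 / 2) := by
  have h1 : ‖1 - z‖ ^ 2 = 1 - 2 * z.re + ‖z‖ ^ 2 := by
    rw [Complex.sq_norm, Complex.sq_norm, Complex.normSq_apply, Complex.normSq_apply]
    simp only [Complex.sub_re, Complex.one_re, Complex.sub_im, Complex.one_im]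
    ring
  have h2 : ‖1 - z‖ ^ 2 ≤ Real.exp (-z.re + ‖z‖ ^ 2 / 2) ^ 2 := by
    rw [h1, ← Real.exp_nat_mul]
    have := Real.add_one_le_exp (((2 : ℕ) : ℝ) * (-z.re + ‖z‖ ^ 2 / 2))
    push_cast at this ⊢
    linarith
  exact (sq_le_sq₀ (norm_nonneg _) (Real.exp_pos _).le).mp h2

variable (F : Type*) [Field F] [NumberField F] {m : ℕ} (χ : DirichletCharacter ℂ m)

/-- `I ↦ χ(N I) N(I)^(-s)` as a monoid homomorphism. -/
noncomputable def twHom (s : ℝ) : (Ideal (𝓞 F))⁰ →* ℂ where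
  toFun I := tw F χ I * (term F s I : ℂ)
  map_one' := by simp [tw, term_one]
  map_mul' I J := by
    simp only [tw, term_mul, Complex.ofReal_mul, Submonoid.coe_mul, map_mul, Nat.cast_mul]
    ring

theorem twHom_apply (s : ℝ) (I : (Ideal (𝓞 F))⁰) :
    twHom F χ s I = tw F χ I * (term F s I : ℂ) := rfl

theorem norm_twHom_le (s : ℝ) (I : (Ideal (𝓞 F))⁰) : ‖twHom F χ s I‖ ≤ term F s I := by
  rw [twHom_apply, norm_mul, Complex.norm_real, Real.norm_of_nonneg (term_pos F s I).le]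
  have h : ‖tw F χ I‖ ≤ 1 := DirichletCharacter.norm_le_one χ _
  calc ‖tw F χ I‖ * term F s I ≤ 1 * term F s I :=
        mul_le_mul_of_nonneg_right h (term_pos F s I).le
    _ = term F s I := one_mul _

theorem summable_norm_twHom {s : ℝ} (hs : 1 < s) : Summable fun I ↦ ‖twHom F χ s I‖ :=
  Summable.of_nonneg_of_le (fun _ ↦ norm_nonneg _) (norm_twHom_le F χ s) (summable_term F hs)

theorem not_dvd_one (q : (Ideal (𝓞 F))⁰) (hq : (q : Ideal (𝓞 F)).IsPrime) : ¬ q ∣ 1 := by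
  intro h
  rw [nonZeroDivisors_dvd_iff_dvd_coe, Submonoid.coe_one, Ideal.one_eq_top, Ideal.dvd_iff_le,
    top_le_iff] at h
  exact hq.ne_top h

theorem lSum_eq (s : ℝ) : lSum F χ s = ∑' I, twHom F χ s I := rfl

theorem norm_tsum_ite_sub_one_le {s : ℝ} (hs : 1 < s) (P : (Ideal (𝓞 F))⁰ → Prop)
    {d₁ : DecidablePred P} {d₂ : DecidablePred P} (h1 : P 1) :
    ‖(∑' I : (Ideal (𝓞 F))⁰, @ite _ (P I) (d₁ I) (twHom F χ s I) 0) - 1‖ ≤
      (∑' I : (Ideal (𝓞 F))⁰, @ite _ (P I) (d₂ I) (term F s I) 0) - 1 := by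
  classical
  have hsR : Summable fun I : (Ideal (𝓞 F))⁰ ↦ @ite _ (P I) (d₂ I) (term F s I) 0 := by
    refine Summable.of_nonneg_of_le (fun I ↦ ?_) (fun I ↦ ?_) (summable_term F hs)
    · split_ifs
      · exact (term_pos F s I).le
      · exact le_rfl
    · split_ifs
      · exact le_rfl
      · exact (term_pos F s I).le
  have hsC : Summable fun I : (Ideal (𝓞 F))⁰ ↦ @ite _ (P I) (d₁ I) (twHom F χ s I) 0 := by
    refine Summable.of_norm_bounded (summable_term F hs) fun I ↦ ?_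
    split_ifs
    · exact norm_twHom_le F χ s I
    · rw [norm_zero]; exact (term_pos F s I).le
  have hC1 : HasSum (fun I : (Ideal (𝓞 F))⁰ ↦ if I = 1 then (1 : ℂ) else 0) 1 :=
    hasSum_ite_eq (1 : (Ideal (𝓞 F))⁰) (1 : ℂ)
  have hR1 : HasSum (fun I : (Ideal (𝓞 F))⁰ ↦ if I = 1 then (1 : ℝ) else 0) 1 :=
    hasSum_ite_eq (1 : (Ideal (𝓞 F))⁰) (1 : ℝ)
  have hC := hsC.hasSum.sub hC1
  have hR := hsR.hasSum.sub hR1
  rw [← hC.tsum_eq]
  refine tsum_of_norm_bounded hR fun I ↦ ?_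
  by_cases hI : I = 1
  · have hg : P I := hI ▸ h1
    rw [if_pos hg, if_pos hg, if_pos hI, if_pos hI, hI, map_one, term_one, sub_self, sub_self,
      norm_zero]
  · rw [if_neg hI, if_neg hI, sub_zero, sub_zero]
    by_cases hg : P I
    · rw [if_pos hg, if_pos hg]
      exact norm_twHom_le F χ s I
    · rw [if_neg hg, if_neg hg, norm_zero]

/-- the sieved twisted sum is close to `1` as soon as the sieved zeta sum is. -/
theorem norm_sieve_sub_one_le {s : ℝ} (hs : 1 < s) (T : Finset (Ideal (𝓞 F))⁰)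
    (hT : ∀ q ∈ T, (q : Ideal (𝓞 F)).IsPrime) :
    ‖(∏ q ∈ T, (1 - twHom F χ s q)) * lSum F χ s - 1‖ ≤
      (∏ q ∈ T, (1 - term F s q)) * zetaSum F s - 1 := by
  rw [lSum_eq, prod_one_sub_mul_tsum F (twHom F χ s) (summable_norm_twHom F χ hs) T hT,
    real_factor hs T hT]
  exact norm_tsum_ite_sub_one_le F χ hs (fun I ↦ ∀ q ∈ T, ¬ (q ∣ I))
    (fun q hq ↦ not_dvd_one F q (hT q hq))

theorem prod_one_sub_term_anti {s : ℝ} (hs : 1 < s) {T₀ T : Finset (Ideal (𝓞 F))⁰} (h : T₀ ⊆ T)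
    (hT : ∀ q ∈ T, (q : Ideal (𝓞 F)).IsPrime) :
    ∏ q ∈ T, (1 - term F s q) ≤ ∏ q ∈ T₀, (1 - term F s q) := by
  classical
  rw [← Finset.prod_sdiff h]
  have h1 : ∏ q ∈ T \ T₀, (1 - term F s q) ≤ 1 :=
    Finset.prod_le_one (fun q hq ↦ (one_sub_term_pos hs q (hT q (Finset.sdiff_subset hq))).le)
      (fun q _ ↦ by linarith [term_pos F s q])
  have h2 : 0 ≤ ∏ q ∈ T₀, (1 - term F s q) :=
    Finset.prod_nonneg fun q hq ↦ (one_sub_term_pos hs q (hT q (h hq))).le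
  calc (∏ q ∈ T \ T₀, (1 - term F s q)) * ∏ q ∈ T₀, (1 - term F s q)
      ≤ 1 * ∏ q ∈ T₀, (1 - term F s q) := mul_le_mul_of_nonneg_right h1 h2
    _ = _ := one_mul _

/-- the inequality for a finite set of primes. -/
theorem finite_bound {s : ℝ} (hs : 1 < s) (T : Finset (Ideal (𝓞 F))⁰)
    (hT : ∀ q ∈ T, (q : Ideal (𝓞 F)).IsPrime) {ε : ℝ}
    (hε : (∏ q ∈ T, (1 - term F s q)) * zetaSum F s ≤ 1 + ε) :
    (1 - ε) * Real.exp (∑ q ∈ T, (twHom F χ s q).re) ≤
      ‖lSum F χ s‖ * Real.exp (zetaSum F 2) := by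
  have h1 := norm_sieve_sub_one_le F χ hs T hT
  have h2 : 1 - ε ≤ ‖(∏ q ∈ T, (1 - twHom F χ s q)) * lSum F χ s‖ := by
    have h3 : ‖(1 : ℂ)‖ - ‖(∏ q ∈ T, (1 - twHom F χ s q)) * lSum F χ s‖ ≤
        ‖1 - (∏ q ∈ T, (1 - twHom F χ s q)) * lSum F χ s‖ := norm_sub_norm_le _ _
    rw [norm_one, norm_sub_rev] at h3
    linarith
  have h4 : ‖∏ q ∈ T, (1 - twHom F χ s q)‖ ≤
      Real.exp (-∑ q ∈ T, (twHom F χ s q).re + zetaSum F 2) := by
    rw [norm_prod]
    calc ∏ q ∈ T, ‖1 - twHom F χ s q‖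
        ≤ ∏ q ∈ T, Real.exp (-(twHom F χ s q).re + ‖twHom F χ s q‖ ^ 2 / 2) :=
          Finset.prod_le_prod (fun _ _ ↦ norm_nonneg _) fun q _ ↦ norm_one_sub_le _
      _ = Real.exp (∑ q ∈ T, (-(twHom F χ s q).re + ‖twHom F χ s q‖ ^ 2 / 2)) :=
          (Real.exp_sum _ _).symm
      _ ≤ Real.exp (-∑ q ∈ T, (twHom F χ s q).re + zetaSum F 2) := by
          apply Real.exp_le_exp.mpr
          rw [Finset.sum_add_distrib, Finset.sum_neg_distrib]
          refine add_le_add le_rfl ?_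
          calc ∑ q ∈ T, ‖twHom F χ s q‖ ^ 2 / 2 ≤ ∑ q ∈ T, term F 2 q := by
                refine Finset.sum_le_sum fun q _ ↦ ?_
                have a1 : ‖twHom F χ s q‖ ^ 2 ≤ term F s q ^ 2 :=
                  pow_le_pow_left₀ (norm_nonneg _) (norm_twHom_le F χ s q) 2
                have a2 := term_sq_le F hs.le q
                have a3 : 0 ≤ ‖twHom F χ s q‖ ^ 2 := by positivity
                linarith
            _ ≤ zetaSum F 2 :=
                (summable_term F (by norm_num)).sum_le_tsum _ (fun q _ ↦ (term_pos F 2 q).le)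
  rw [norm_mul] at h2
  have h5 : 1 - ε ≤ Real.exp (-∑ q ∈ T, (twHom F χ s q).re + zetaSum F 2) * ‖lSum F χ s‖ :=
    h2.trans (mul_le_mul_of_nonneg_right h4 (norm_nonneg _))
  rw [Real.exp_add, Real.exp_neg] at h5
  have hpos : 0 < Real.exp (∑ q ∈ T, (twHom F χ s q).re) := Real.exp_pos _
  calc (1 - ε) * Real.exp (∑ q ∈ T, (twHom F χ s q).re)
      ≤ ((Real.exp (∑ q ∈ T, (twHom F χ s q).re))⁻¹ * Real.exp (zetaSum F 2) * ‖lSum F χ s‖) *
          Real.exp (∑ q ∈ T, (twHom F χ s q).re) := mul_le_mul_of_nonneg_right h5 hpos.le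
    _ = ‖lSum F χ s‖ * Real.exp (zetaSum F 2) := by
        field_simp

theorem summable_twHom_prime {s : ℝ} (hs : 1 < s) :
    Summable fun P : {P : (Ideal (𝓞 F))⁰ // (P : Ideal (𝓞 F)).IsPrime} ↦ twHom F χ s P.1 :=
  ((summable_norm_twHom F χ hs).of_norm).subtype _

end EulerLogTw

open EulerLogTw

variable (F : Type*) [Field F] [NumberField F] {m : ℕ} (χ : DirichletCharacter ℂ m)

theorem exp_re_primeSumTw_le {s : ℝ} (hs : 1 < s) :
    Real.exp (primeSumTw F χ s).re ≤ ‖lSum F χ s‖ * Real.exp (zetaSum F 2) := by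
  classical
  set C := ‖lSum F χ s‖ * Real.exp (zetaSum F 2) with hC
  have hsum : HasSum (fun P : {P : (Ideal (𝓞 F))⁰ // (P : Ideal (𝓞 F)).IsPrime} ↦
      (twHom F χ s P.1).re) (primeSumTw F χ s).re :=
    Complex.hasSum_re (summable_twHom_prime F χ hs).hasSum
  have key : ∀ ε : ℝ, 0 < ε → (1 - ε) * Real.exp (primeSumTw F χ s).re ≤ C := by
    intro ε hε
    obtain ⟨T₀, hT₀, hle⟩ := exists_finset_sieve_le F hs hε
    have htend : Tendsto (fun T' : Finset {P : (Ideal (𝓞 F))⁰ // (P : Ideal (𝓞 F)).IsPrime} ↦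
        (1 - ε) * Real.exp (∑ P ∈ T', (twHom F χ s P.1).re)) atTop
        (𝓝 ((1 - ε) * Real.exp (primeSumTw F χ s).re)) :=
      ((Real.continuous_exp.tendsto _).comp hsum).const_mul _
    refine le_of_tendsto htend ?_
    filter_upwards [eventually_ge_atTop (T₀.subtype _)] with T' hT'
    set T : Finset (Ideal (𝓞 F))⁰ := T'.map (Function.Embedding.subtype _) with hTdef
    have hT : ∀ q ∈ T, (q : Ideal (𝓞 F)).IsPrime := by
      intro q hq
      obtain ⟨P, _, rfl⟩ := Finset.mem_map.mp hq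
      exact P.2
    have hsub : T₀ ⊆ T := by
      intro q hq
      refine Finset.mem_map.mpr ⟨⟨q, hT₀ q hq⟩, hT' ?_, rfl⟩
      exact Finset.mem_subtype.mpr hq
    have hs' : ∑ P ∈ T', (twHom F χ s P.1).re = ∑ q ∈ T, (twHom F χ s q).re := by
      rw [hTdef, Finset.sum_map]
      rfl
    rw [hs']
    refine finite_bound F χ hs T hT ?_
    refine le_trans (mul_le_mul_of_nonneg_right (prod_one_sub_term_anti F hs hsub hT) ?_) hle
    exact Fermat.Agent.S14.Analytic.zetaSum_nonneg F s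
  set X := Real.exp (primeSumTw F χ s).re with hX
  have hXpos : 0 < X := Real.exp_pos _
  refine le_of_forall_pos_le_add fun δ hδ ↦ ?_
  have := key (δ / X) (by positivity)
  have e : (1 - δ / X) * X = X - δ := by field_simp
  rw [e] at this
  linarith

end Fermat.Agent.S48.CH
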