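import Fermat.Agent.S48.CH.Defs

/-!
# S48 / block CH, N1 : the norm modulo `m`, the sign of `N(1+t)`, and `X (x + h) = X x`.
-/

set_option autoImplicit false

namespace Fermat.Agent.S48.CH

open NumberField Ideal Filter Topology
open scoped nonZeroDivisors Pointwise
open Fermat.Agent.S14.Analytic (term zetaSum)
open Fermat.Agent.Lib.WeakChebotarev (degOneCount degOneSum conjCount)

section analytic

variable (F : Type*) [Field F] [NumberField F] {m : ℕ} (χ : DirichletCharacter ℂ m)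

theorem norm_add_congr (m : ℕ) (x h : 𝓞 F) (hh : h ∈ Ideal.span {(m : 𝓞 F)}) :
    ((Algebra.norm ℤ (x + h) : ℤ) : ZMod m) = ((Algebra.norm ℤ x : ℤ) : ZMod m) := by
  classical
  obtain ⟨c, rfl⟩ := Ideal.mem_span_singleton'.mp hh
  set b := RingOfIntegers.basis F
  rw [Algebra.norm_eq_matrix_det b, Algebra.norm_eq_matrix_det b]
  have key : ∀ M : Matrix (Module.Free.ChooseBasisIndex ℤ (𝓞 F))
      (Module.Free.ChooseBasisIndex ℤ (𝓞 F)) ℤ, ((M.det : ℤ) : ZMod m)
      = ((Int.castRingHom (ZMod m)).mapMatrix M).det := fun M => by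
    rw [← RingHom.map_det]; rfl
  rw [key, key]
  congr 1
  rw [map_add, map_add, map_mul, map_mul, map_natCast, map_natCast]
  have : ((m : ℕ) : Matrix (Module.Free.ChooseBasisIndex ℤ (𝓞 F))
      (Module.Free.ChooseBasisIndex ℤ (𝓞 F)) (ZMod m)) = 0 := by
    ext i j
    simp [Matrix.natCast_apply]
  rw [this, mul_zero, add_zero]

namespace NormCongr

variable {F}

/-- the auxiliary function `r ↦ ∏_σ (1 + r σ(t))`. -/
noncomputable def gFun (t : F) (r : ℝ) : ℂ := ∏ σ : F →+* ℂ, (1 + (r : ℂ) * σ t)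

theorem gFun_continuous (t : F) : Continuous (gFun t) := by
  unfold gFun
  fun_prop

theorem gFun_im (t : F) (r : ℝ) : (gFun t r).im = 0 := by
  have : (starRingEnd ℂ) (gFun t r) = gFun t r := by
    unfold gFun
    rw [map_prod]
    refine Fintype.prod_equiv
      (ComplexEmbedding.involutive_conjugate F).toPerm _ _ (fun σ => ?_)
    simp [ComplexEmbedding.conjugate_coe_eq]
  exact Complex.conj_eq_iff_im.mp this

theorem gFun_ne_zero (t : F) (ht : ∀ v : InfinitePlace F, v t ≤ 1 / 4) (r : ℝ)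
    (hr : r ∈ Set.Icc (0 : ℝ) 1) : gFun t r ≠ 0 := by
  unfold gFun
  rw [Finset.prod_ne_zero_iff]
  intro σ _ h0
  have h1 : ‖σ t‖ ≤ 1 / 4 := ht (InfinitePlace.mk σ)
  have h2 : (r : ℂ) * σ t = -1 := by linear_combination h0
  have h3 : ‖(r : ℂ) * σ t‖ = 1 := by rw [h2]; simp
  rw [norm_mul, Complex.norm_real, Real.norm_eq_abs, abs_of_nonneg hr.1] at h3
  nlinarith [hr.1, hr.2, norm_nonneg (σ t)]

theorem gFun_zero (t : F) : gFun t 0 = 1 := by
  simp [gFun]

theorem gFun_one (t : F) : gFun t 1 = ((Algebra.norm ℚ (1 + t) : ℚ) : ℂ) := by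
  have := Algebra.norm_eq_prod_embeddings ℚ ℂ (1 + t)
  rw [eq_ratCast] at this
  rw [this]
  unfold gFun
  refine Fintype.prod_equiv (RingHom.equivRatAlgHom F ℂ) _ _ (fun σ => ?_)
  simp [RingHom.equivRatAlgHom_apply]

end NormCongr

open NormCongr in
theorem norm_one_add_pos (t : F) (ht : ∀ v : InfinitePlace F, v t ≤ 1 / 4) :
    0 < Algebra.norm ℚ (1 + t) := by
  by_contra hneg
  rw [not_lt] at hneg
  have hc : ContinuousOn (fun r => (gFun t r).re) (Set.Icc (0 : ℝ) 1) :=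
    (Complex.continuous_re.comp (gFun_continuous t)).continuousOn
  have h1 : (gFun t 1).re ≤ 0 := by
    rw [gFun_one]
    have : (((Algebra.norm ℚ (1 + t) : ℚ) : ℂ)).re = ((Algebra.norm ℚ (1 + t) : ℚ) : ℝ) := by
      simp
    rw [this]
    exact_mod_cast hneg
  have h0 : (0 : ℝ) ≤ (gFun t 0).re := by rw [gFun_zero]; simp
  obtain ⟨r, hr, hr0⟩ := intermediate_value_Icc' (zero_le_one' ℝ) hc ⟨h1, h0⟩
  exact gFun_ne_zero t ht r hr (Complex.ext hr0 (gFun_im t r))

theorem X_add_eq (x h : 𝓞 F) (hx : x ≠ 0) (hh : h ∈ Ideal.span {(m : 𝓞 F)})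
    (hsmall : ∀ v : InfinitePlace F, v (h : F) ≤ 1 / 4 * v (x : F)) :
    X F χ (x + h) = X F χ x := by
  have hx' : (x : F) ≠ 0 := by
    simpa using hx
  have hpos := norm_one_add_pos F ((h : F) / (x : F)) (fun v => by
    rw [map_div₀]
    have hv : 0 < v (x : F) := InfinitePlace.pos_iff.mpr hx'
    rw [div_le_iff₀ hv]
    exact hsmall v)
  have hmul : Algebra.norm ℚ ((x + h : 𝓞 F) : F)
      = Algebra.norm ℚ (x : F) * Algebra.norm ℚ (1 + (h : F) / (x : F)) := by
    rw [← map_mul]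
    congr 1
    push_cast
    field_simp
  rw [← Algebra.coe_norm_int, ← Algebra.coe_norm_int] at hmul
  have hcong := norm_add_congr F m x h hh
  have hN : Algebra.norm ℤ x ≠ 0 := Algebra.norm_ne_zero_iff.mpr hx
  unfold X
  congr 1
  rcases lt_or_gt_of_ne hN with hlt | hgt
  · have hlt' : Algebra.norm ℤ (x + h) < 0 := by
      have : ((Algebra.norm ℤ (x + h) : ℤ) : ℚ) < 0 := by
        rw [hmul]
        exact mul_neg_of_neg_of_pos (by exact_mod_cast hlt) hpos
      exact_mod_cast this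
    have e1 : (((Algebra.norm ℤ (x + h)).natAbs : ℕ) : ℤ) = - Algebra.norm ℤ (x + h) := by
      rw [Int.natCast_natAbs, abs_of_neg hlt']
    have e2 : (((Algebra.norm ℤ x).natAbs : ℕ) : ℤ) = - Algebra.norm ℤ x := by
      rw [Int.natCast_natAbs, abs_of_neg hlt]
    rw [← Int.cast_natCast, ← Int.cast_natCast (R := ZMod m) (Algebra.norm ℤ x).natAbs, e1, e2,
      Int.cast_neg, Int.cast_neg, hcong]
  · have hgt' : 0 < Algebra.norm ℤ (x + h) := by
      have : 0 < ((Algebra.norm ℤ (x + h) : ℤ) : ℚ) := by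
        rw [hmul]
        exact mul_pos (by exact_mod_cast hgt) hpos
      exact_mod_cast this
    have e1 : (((Algebra.norm ℤ (x + h)).natAbs : ℕ) : ℤ) = Algebra.norm ℤ (x + h) := by
      rw [Int.natCast_natAbs, abs_of_pos hgt']
    have e2 : (((Algebra.norm ℤ x).natAbs : ℕ) : ℤ) = Algebra.norm ℤ x := by
      rw [Int.natCast_natAbs, abs_of_pos hgt]
    rw [← Int.cast_natCast, ← Int.cast_natCast (R := ZMod m) (Algebra.norm ℤ x).natAbs, e1, e2,
      hcong]

theorem X_eq_tw (x : 𝓞 F) (I : (Ideal (𝓞 F))⁰) (hI : (I : Ideal (𝓞 F)) = Ideal.span {x}) :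
    X F χ x = tw F χ I := by
  unfold X tw
  rw [hI, Ideal.absNorm_span_singleton]

theorem norm_X_le (x : 𝓞 F) : ‖X F χ x‖ ≤ 1 := by
  unfold X
  exact DirichletCharacter.norm_le_one χ _

end analytic

end Fermat.Agent.S48.CH
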