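import Fermat.Agent.S48.CH.Defs
import Fermat.Agent.S14.ClassZeta.Ratio
import Fermat.Agent.S48.CH.NormCongr

/-!
# S48 / block CH, node N2 (helper187): the twisted ratio estimate

`tw_ratio_estimate_of` takes the statement of `X_add_eq` (node N1) as a hypothesis;
`tw_ratio_estimate` is the final statement.
-/

set_option autoImplicit false
set_option linter.unusedSectionVars false

namespace Fermat.Agent.S48.CH

open NumberField Ideal Module
open scoped nonZeroDivisors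

variable (F : Type*) [Field F] [NumberField F] {m : ℕ} (χ : DirichletCharacter ℂ m)

namespace TwRatio

theorem norm_X_le' (x : 𝓞 F) : ‖X F χ x‖ ≤ 1 := DirichletCharacter.norm_le_one χ _

theorem norm_X_mul_le (x : 𝓞 F) (r : ℝ) : ‖X F χ x * (r : ℂ)‖ ≤ |r| := by
  rw [norm_mul, Complex.norm_real, Real.norm_eq_abs]
  exact mul_le_of_le_one_left (abs_nonneg _) (norm_X_le' F χ x)

theorem norm_sub_le_of_eq {x y : 𝓞 F} (hxy : X F χ x = X F χ y) (a b : ℝ) :
    ‖X F χ x * (a : ℂ) - X F χ y * (b : ℂ)‖ ≤ |a - b| := by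
  rw [hxy, ← mul_sub, ← Complex.ofReal_sub]
  exact norm_X_mul_le F χ y (a - b)

end TwRatio

open S14.ClassZeta S14.ClassZeta.Ratio TwRatio in
theorem tw_ratio_estimate_of
    (hXadd : ∀ x h : 𝓞 F, x ≠ 0 → h ∈ Ideal.span {(m : 𝓞 F)} →
      (∀ v : InfinitePlace F, v (h : F) ≤ 1 / 4 * v (x : F)) → X F χ (x + h) = X F χ x)
    (h : 𝓞 F) (hh : h ∈ Ideal.span {(m : 𝓞 F)}) :
    ∃ A : ℝ, 0 ≤ A ∧ ∀ s : ℝ, 1 ≤ s → s ≤ 2 → ∀ β : 𝓞 F,
      ‖X F χ (β + h) * (S14.ClassZeta.F F s (β + h) : ℂ) - X F χ β * (S14.ClassZeta.F F s β : ℂ)‖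
        ≤ A * (S14.ClassZeta.G F β + S14.ClassZeta.G F (β + h)) := by
  set H : ℝ := ∑ v : InfinitePlace F, v (h : F) with hH
  have hH0 : 0 ≤ H := Finset.sum_nonneg fun v _ => apply_nonneg v _
  have hHv : ∀ v : InfinitePlace F, v (h : F) ≤ H := fun v =>
    Finset.single_le_sum (f := fun v : InfinitePlace F => v (h : F))
      (fun v _ => apply_nonneg v _) (Finset.mem_univ v)
  obtain ⟨A₃, M₀, hA₃, hM₀, hmain⟩ := main_estimate F H hH0
  obtain ⟨κ, hκ, hlow⟩ := exists_lower_bound F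
  have hnpos : 0 < finrank ℚ F := finrank_pos
  set n : ℝ := (finrank ℚ F : ℝ) with hn
  have hn0 : 0 < n := by rw [hn]; exact_mod_cast hnpos
  set R₀ : ℝ := 4 * H / κ + 1 with hR₀
  have hR₀1 : 1 ≤ R₀ := by
    have : 0 ≤ 4 * H / κ := by positivity
    linarith
  set M₁ : ℝ := max M₀ (R₀ ^ (finrank ℚ F)) with hM₁
  have hM₁0 : M₀ ≤ M₁ := le_max_left _ _
  have hM₁R : R₀ ^ (finrank ℚ F) ≤ M₁ := le_max_right _ _
  have hM₁1 : 1 ≤ M₁ := hM₀.trans hM₁0
  -- in the main range `h` is small compared with `x`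
  have hsmall : ∀ x : 𝓞 F, x ≠ 0 → (∀ i, |cc F (x : F) i| ≤ 1) → M₁ ≤ nrm F x →
      ∀ v : InfinitePlace F, H ≤ 1 / 4 * v (x : F) := by
    intro x hx hc hM v
    have hxK : (x : F) ≠ 0 := by
      intro h0
      exact hx (RingOfIntegers.coe_eq_zero_iff.mp h0)
    rw [nrm_eq] at hM
    have hρR : R₀ ≤ (Nm F (x : F)) ^ (1 / n) := by
      have h1 : (R₀ ^ (finrank ℚ F)) ^ (1 / n) ≤ (Nm F (x : F)) ^ (1 / n) :=
        Real.rpow_le_rpow (by positivity) (hM₁R.trans hM) (by positivity)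
      rw [← Real.rpow_natCast, ← Real.rpow_mul (by linarith), ← hn, mul_one_div_cancel hn0.ne',
        Real.rpow_one] at h1
      exact h1
    have h2 := hlow _ hxK hc v
    have h3 : 4 * H / κ ≤ (Nm F (x : F)) ^ (1 / n) := by linarith
    rw [div_le_iff₀ hκ] at h3
    linarith
  have hP : 0 ≤ M₁ ^ (1 + 1 / (finrank ℚ F : ℝ)) := Real.rpow_nonneg (by linarith) _
  refine ⟨A₃ + M₁ ^ (1 + 1 / (finrank ℚ F : ℝ)), by positivity, ?_⟩
  intro s hs1 hs2 β
  have hG1 := G_nonneg β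
  have hG2 := G_nonneg (β + h)
  by_cases c1 : (∀ i, |cc F (β : F) i| ≤ 1) ∧ M₁ ≤ nrm F β
  · have hβ : β ≠ 0 := by
      rintro rfl
      rw [nrm_zero'] at c1
      linarith [c1.2]
    have h1 := hmain β h hHv hβ c1.1 (hM₁0.trans c1.2) s hs1 hs2
    rw [← G_of_box c1.1] at h1
    have hX : X F χ (β + h) = X F χ β :=
      hXadd β h hβ hh fun v => (hHv v).trans (hsmall β hβ c1.1 c1.2 v)
    have h2 := norm_sub_le_of_eq F χ hX (S14.ClassZeta.F F s (β + h)) (S14.ClassZeta.F F s β)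
    nlinarith
  · by_cases c2 : (∀ i, |cc F ((β + h : 𝓞 F) : F) i| ≤ 1) ∧ M₁ ≤ nrm F (β + h)
    · have hβ : β + h ≠ 0 := by
        intro h0
        rw [h0, nrm_zero'] at c2
        linarith [c2.2]
      have hHv' : ∀ v : InfinitePlace F, v ((-h : 𝓞 F) : F) ≤ H := by
        intro v
        have : ((-h : 𝓞 F) : F) = -(h : F) := by push_cast; rfl
        rw [this, place_neg]
        exact hHv v
      have h1 := hmain (β + h) (-h) hHv' hβ c2.1 (hM₁0.trans c2.2) s hs1 hs2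
      rw [← G_of_box c2.1, add_neg_cancel_right, abs_sub_comm] at h1
      have hX : X F χ (β + h + -h) = X F χ (β + h) :=
        hXadd (β + h) (-h) hβ (neg_mem hh) fun v => (hHv' v).trans (hsmall (β + h) hβ c2.1 c2.2 v)
      rw [add_neg_cancel_right] at hX
      have h2 := norm_sub_le_of_eq F χ hX.symm (S14.ClassZeta.F F s (β + h))
        (S14.ClassZeta.F F s β)
      nlinarith
    · have h1 := abs_F_le_small hM₁1 β hs1 c1
      have h2 := abs_F_le_small hM₁1 (β + h) hs1 c2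
      have h3 := norm_sub_le (X F χ (β + h) * (S14.ClassZeta.F F s (β + h) : ℂ))
        (X F χ β * (S14.ClassZeta.F F s β : ℂ))
      have h4 := norm_X_mul_le F χ (β + h) (S14.ClassZeta.F F s (β + h))
      have h5 := norm_X_mul_le F χ β (S14.ClassZeta.F F s β)
      nlinarith

theorem tw_ratio_estimate (h : 𝓞 F) (hh : h ∈ Ideal.span {(m : 𝓞 F)}) :
    ∃ A : ℝ, 0 ≤ A ∧ ∀ s : ℝ, 1 ≤ s → s ≤ 2 → ∀ β : 𝓞 F,
      ‖X F χ (β + h) * (S14.ClassZeta.F F s (β + h) : ℂ) - X F χ β * (S14.ClassZeta.F F s β : ℂ)‖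
        ≤ A * (S14.ClassZeta.G F β + S14.ClassZeta.G F (β + h)) :=
  tw_ratio_estimate_of F χ (X_add_eq F χ) h hh

end Fermat.Agent.S48.CH
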