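import Fermat.Agent.S48.CH.Defs
import Fermat.Agent.S14.ClassZeta.Main
import Fermat.Agent.S48.CH.TwRatio

/-!
# S48 / block CH, node N4 : coset comparison with representatives in `m 𝓞`

`tw_coset_bound_of` : from the twisted ratio estimate (node N2, taken as a hypothesis) the sum of
`X x * F s x` over `𝓞 F` and `N J` times the same sum over `J` differ by a bounded function of
`s ∈ (1, 2]`, for every `J` prime to `m`.  `tw_coset_bound` is the final statement.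
Owner: helper163.
-/

set_option autoImplicit false
set_option linter.unusedSectionVars false

namespace Fermat.Agent.S48.CH

open NumberField Ideal
open scoped nonZeroDivisors

namespace TwCoset

section coset

variable {R : Type*} [CommRing R] (J : Ideal R) (ρ : R ⧸ J → R)
  (hρ : ∀ q, Ideal.Quotient.mk J (ρ q) = q)

/-- the splitting `(R ⧸ J) × J ≃ R` attached to a section `ρ` of the quotient map. -/
noncomputable def cosetEquiv : (R ⧸ J) × J ≃ R where
  toFun p := (p.2 : R) + ρ p.1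
  invFun x := (Ideal.Quotient.mk J x, ⟨x - ρ (Ideal.Quotient.mk J x), by
    rw [← Ideal.Quotient.eq, hρ]⟩)
  left_inv := by
    rintro ⟨q, a, ha⟩
    have h1 : Ideal.Quotient.mk J (a + ρ q) = q := by
      rw [map_add, hρ, Ideal.Quotient.eq_zero_iff_mem.mpr ha, zero_add]
    ext
    · simp only [h1]
    · simp only [h1]; ring
  right_inv := by
    intro x
    simp

include hρ in
theorem coset_compare [Fintype (R ⧸ J)] (f : R → ℂ) (g : R → ℝ) (A : (R ⧸ J) → ℝ)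
    (hf : Summable f) (hg : Summable g) (hg0 : ∀ x, 0 ≤ g x) (hA : ∀ q, 0 ≤ A q)
    (h : ∀ (q : R ⧸ J) (β : R), ‖f (β + ρ q) - f β‖ ≤ A q * (g β + g (β + ρ q))) :
    ‖∑' x, f x - (Fintype.card (R ⧸ J) : ℂ) * ∑' β : J, f β‖ ≤ (∑ q, A q) * (2 * ∑' x, g x) := by
  have hinj : ∀ q : R ⧸ J, Function.Injective (fun a : J => (a : R) + ρ q) := by
    intro q a b hab
    exact Subtype.ext (add_right_cancel hab)
  have hfq : ∀ q : R ⧸ J, Summable (fun a : J => f ((a : R) + ρ q)) :=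
    fun q => hf.comp_injective (hinj q)
  have hgq : ∀ q : R ⧸ J, Summable (fun a : J => g ((a : R) + ρ q)) :=
    fun q => hg.comp_injective (hinj q)
  have hfJ : Summable (fun a : J => f (a : R)) := hf.subtype _
  have hgJ : Summable (fun a : J => g (a : R)) := hg.subtype _
  have h1 : ∑' x, f x = ∑ q, ∑' a : J, f ((a : R) + ρ q) := by
    rw [← (cosetEquiv J ρ hρ).tsum_eq f]
    have hs : Summable (fun p : (R ⧸ J) × J => f (cosetEquiv J ρ hρ p)) :=
      (cosetEquiv J ρ hρ).summable_iff.mpr hf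
    rw [hs.tsum_prod' (fun q => hfq q), tsum_fintype]
    rfl
  have h2 : (Fintype.card (R ⧸ J) : ℂ) * ∑' β : J, f β = ∑ _q : R ⧸ J, ∑' a : J, f (a : R) := by
    rw [Finset.sum_const, Finset.card_univ, nsmul_eq_mul]
  rw [h1, h2, ← Finset.sum_sub_distrib, Finset.sum_mul]
  refine (norm_sum_le _ _).trans (Finset.sum_le_sum fun q _ => ?_)
  rw [← (hfq q).tsum_sub hfJ]
  have hle1 : ∑' a : J, g (a : R) ≤ ∑' x, g x :=
    hg.tsum_subtype_le _ _ hg0
  have hle2 : ∑' a : J, g ((a : R) + ρ q) ≤ ∑' x, g x :=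
    tsum_comp_le_tsum_of_inj hg hg0 (hinj q)
  have hmaj : Summable (fun a : J => A q * (g (a : R) + g ((a : R) + ρ q))) :=
    (hgJ.add (hgq q)).mul_left _
  have habs : Summable (fun a : J => ‖f ((a : R) + ρ q) - f (a : R)‖) :=
    Summable.of_nonneg_of_le (fun _ => norm_nonneg _) (fun a => h q a) hmaj
  calc ‖∑' a : J, (f ((a : R) + ρ q) - f (a : R))‖
      ≤ ∑' a : J, ‖f ((a : R) + ρ q) - f (a : R)‖ := norm_tsum_le_tsum_norm habs
    _ ≤ ∑' a : J, A q * (g (a : R) + g ((a : R) + ρ q)) :=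
        habs.tsum_le_tsum (fun a => h q a) hmaj
    _ = A q * (∑' a : J, g (a : R) + ∑' a : J, g ((a : R) + ρ q)) := by
        rw [tsum_mul_left, hgJ.tsum_add (hgq q)]
    _ ≤ A q * (2 * ∑' x, g x) := by
        apply mul_le_mul_of_nonneg_left _ (hA q)
        linarith

/-- if `J` is coprime to `M`, every class mod `J` has a representative in `M`. -/
theorem exists_section_mem (M : Ideal R) (hJM : IsCoprime J M) :
    ∃ ρ : R ⧸ J → R, (∀ q, Ideal.Quotient.mk J (ρ q) = q) ∧ ∀ q, ρ q ∈ M := by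
  obtain ⟨a, ha, b, hb, hab⟩ := Ideal.isCoprime_iff_exists.mp hJM
  have hb1 : Ideal.Quotient.mk J b = 1 := by
    rw [← map_one (Ideal.Quotient.mk J), Ideal.Quotient.eq, ← hab]
    simpa using J.neg_mem ha
  refine ⟨fun q => b * Quotient.out q, fun q => ?_, fun q => M.mul_mem_right _ hb⟩
  rw [map_mul, hb1, one_mul, Ideal.Quotient.mk_out]

end coset

end TwCoset

variable (F : Type*) [Field F] [NumberField F] {m : ℕ} (χ : DirichletCharacter ℂ m)

theorem TwCoset.norm_X_le_one (x : 𝓞 F) : ‖X F χ x‖ ≤ 1 := DirichletCharacter.norm_le_one χ _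

theorem TwCoset.summable_X_mul_F {s : ℝ} (hs : 1 < s) :
    Summable (fun x : 𝓞 F => X F χ x * (S14.ClassZeta.F F s x : ℂ)) := by
  have hF := (S14.ClassZeta.hasSum_F F hs).summable
  refine Summable.of_norm_bounded hF fun x => ?_
  have h0 : 0 ≤ S14.ClassZeta.F F s x :=
    mul_nonneg (S14.ClassZeta.W_nonneg F _) (Real.rpow_nonneg (S14.ClassZeta.nrm_nonneg F x) _)
  rw [norm_mul, Complex.norm_real, Real.norm_eq_abs, abs_of_nonneg h0]
  exact mul_le_of_le_one_left h0 (TwCoset.norm_X_le_one F χ x)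

/-- node N4 with node N2 (`tw_ratio_estimate`) as an explicit hypothesis. -/
theorem tw_coset_bound_of
    (hratio : ∀ h : 𝓞 F, h ∈ Ideal.span {(m : 𝓞 F)} →
      ∃ A : ℝ, 0 ≤ A ∧ ∀ s : ℝ, 1 ≤ s → s ≤ 2 → ∀ β : 𝓞 F,
        ‖X F χ (β + h) * (S14.ClassZeta.F F s (β + h) : ℂ) -
            X F χ β * (S14.ClassZeta.F F s β : ℂ)‖
          ≤ A * (S14.ClassZeta.G F β + S14.ClassZeta.G F (β + h)))
    (J : (Ideal (𝓞 F))⁰)
    (hJ : IsCoprime (J : Ideal (𝓞 F)) (Ideal.span {(m : 𝓞 F)})) :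
    ∃ B : ℝ, ∀ s : ℝ, 1 < s → s ≤ 2 →
      ‖∑' x : 𝓞 F, X F χ x * (S14.ClassZeta.F F s x : ℂ) -
        (absNorm (J : Ideal (𝓞 F)) : ℂ) *
          ∑' β : (J : Ideal (𝓞 F)), X F χ β * (S14.ClassZeta.F F s β : ℂ)‖ ≤ B := by
  classical
  have hJ0 : (J : Ideal (𝓞 F)) ≠ ⊥ := by
    have := nonZeroDivisors.coe_ne_zero J
    simpa using this
  have : Finite (𝓞 F ⧸ (J : Ideal (𝓞 F))) := Ideal.finiteQuotientOfFreeOfNeBot _ hJ0
  have : Fintype (𝓞 F ⧸ (J : Ideal (𝓞 F))) := Fintype.ofFinite _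
  obtain ⟨ρ, hρ, hρm⟩ := TwCoset.exists_section_mem (J : Ideal (𝓞 F)) _ hJ
  choose A hA0 hA using fun q : 𝓞 F ⧸ (J : Ideal (𝓞 F)) => hratio (ρ q) (hρm q)
  refine ⟨(∑ q, A q) * (2 * ∑' x, S14.ClassZeta.G F x), fun s hs hs2 => ?_⟩
  have hcard : (absNorm (J : Ideal (𝓞 F)) : ℂ) =
      (Fintype.card (𝓞 F ⧸ (J : Ideal (𝓞 F))) : ℂ) := by
    rw [Ideal.absNorm_apply, Submodule.cardQuot_apply, Nat.card_eq_fintype_card]
  rw [hcard]
  exact TwCoset.coset_compare (J : Ideal (𝓞 F)) ρ hρ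
    (fun x : 𝓞 F => X F χ x * (S14.ClassZeta.F F s x : ℂ)) (S14.ClassZeta.G F) A
    (TwCoset.summable_X_mul_F F χ hs) (S14.ClassZeta.summable_G F)
    (S14.ClassZeta.G_nonneg F) hA0 (fun q β => hA q s hs.le hs2 β)

theorem tw_coset_bound (J : (Ideal (𝓞 F))⁰)
    (hJ : IsCoprime (J : Ideal (𝓞 F)) (Ideal.span {(m : 𝓞 F)})) :
    ∃ B : ℝ, ∀ s : ℝ, 1 < s → s ≤ 2 →
      ‖∑' x : 𝓞 F, X F χ x * (S14.ClassZeta.F F s x : ℂ) -
        (absNorm (J : Ideal (𝓞 F)) : ℂ) *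
          ∑' β : (J : Ideal (𝓞 F)), X F χ β * (S14.ClassZeta.F F s β : ℂ)‖ ≤ B :=
  tw_coset_bound_of F χ (tw_ratio_estimate F χ) J hJ

end Fermat.Agent.S48.CH
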