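import Fermat.Agent.S48.CH.TwUnfold
import Fermat.Agent.S48.CH.TwCoset
import Fermat.Agent.S48.CH.Coprime

/-!
# S48 / block CH, node N6 : the twisted series `L_F(s, χ ∘ N)` is bounded on `(1, 2]`.
(helper224)
-/

set_option autoImplicit false

namespace Fermat.Agent.S48.CH

open NumberField Ideal Filter Topology
open scoped nonZeroDivisors Pointwise
open Fermat.Agent.S14.Analytic (term zetaSum)

section analytic

variable (F : Type*) [Field F] [NumberField F] {m : ℕ} (χ : DirichletCharacter ℂ m)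

namespace LBound

theorem norm_tw_le (I : (Ideal (𝓞 F))⁰) : ‖tw F χ I‖ ≤ 1 := DirichletCharacter.norm_le_one χ _

theorem tw_mul (I J : (Ideal (𝓞 F))⁰) : tw F χ (I * J) = tw F χ I * tw F χ J := by
  unfold tw
  rw [Submonoid.coe_mul, _root_.map_mul, Nat.cast_mul, _root_.map_mul]

theorem norm_tw_mul_term_le (s : ℝ) (I : (Ideal (𝓞 F))⁰) :
    ‖tw F χ I * (term F s I : ℂ)‖ ≤ term F s I := by
  have h0 : 0 ≤ term F s I := (S14.Analytic.term_pos F s I).le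
  rw [norm_mul, Complex.norm_real, Real.norm_eq_abs, abs_of_nonneg h0]
  exact mul_le_of_le_one_left h0 (norm_tw_le F χ I)

theorem summable_tw_mul_term {s : ℝ} (hs : 1 < s) :
    Summable (fun I : (Ideal (𝓞 F))⁰ => tw F χ I * (term F s I : ℂ)) :=
  Summable.of_norm_bounded (S14.Analytic.summable_term F hs) (norm_tw_mul_term_le F χ s)

theorem norm_prinSumTw_le (J : (Ideal (𝓞 F))⁰) {s : ℝ} (hs : 1 < s) :
    ‖prinSumTw F χ J s‖ ≤ zetaSum F s := by
  have h : Summable (term F s) := S14.Analytic.summable_term F hs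
  have h1 : Summable (fun I : {I : (Ideal (𝓞 F))⁰ //
      (J : Ideal (𝓞 F)) ∣ I ∧ (I : Ideal (𝓞 F)).IsPrincipal} => term F s I.1) :=
    h.subtype _
  refine (tsum_of_norm_bounded h1.hasSum fun I => norm_tw_mul_term_le F χ s I.1).trans ?_
  exact Summable.tsum_subtype_le _
    {I : (Ideal (𝓞 F))⁰ | (J : Ideal (𝓞 F)) ∣ I ∧ (I : Ideal (𝓞 F)).IsPrincipal}
    (fun I => (S14.Analytic.term_pos F s I).le) h

end LBound

theorem lSum_eq_sum_classSumTw {s : ℝ} (hs : 1 < s) :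
    lSum F χ s = ∑ C : ClassGroup (𝓞 F), classSumTw F χ C s := by
  have h := (LBound.summable_tw_mul_term F χ hs).hasSum.tsum_fiberwise
    (fun I : (Ideal (𝓞 F))⁰ => ClassGroup.mk0 I)
  exact h.unique (hasSum_fintype _)

theorem tw_mul_classSumTw (C : ClassGroup (𝓞 F)) (J : (Ideal (𝓞 F))⁰)
    (hJ : ClassGroup.mk0 J = C⁻¹) (s : ℝ) :
    tw F χ J * classSumTw F χ C s =
      (((absNorm (J : Ideal (𝓞 F)) : ℝ) ^ s : ℝ) : ℂ) * prinSumTw F χ J s := by
  have hJ0 : (0 : ℝ) < absNorm (J : Ideal (𝓞 F)) :=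
    Nat.cast_pos.mpr (absNorm_pos_of_nonZeroDivisors J)
  unfold classSumTw prinSumTw
  rw [← (S14.ClassZeta.classEquiv F C J hJ).tsum_eq, ← tsum_mul_left, ← tsum_mul_left]
  refine tsum_congr fun I => ?_
  rw [S14.ClassZeta.classEquiv_apply, LBound.tw_mul, S14.Analytic.term_mul]
  have h1 : (((absNorm (J : Ideal (𝓞 F)) : ℝ) ^ s : ℝ) : ℂ) * ((term F s J : ℝ) : ℂ) = 1 := by
    rw [← Complex.ofReal_mul]
    unfold term
    rw [← Real.rpow_add hJ0, add_neg_cancel, Real.rpow_zero, Complex.ofReal_one]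
  push_cast
  linear_combination (-(tw F χ J * tw F χ I.1 * ((term F s I.1 : ℝ) : ℂ))) * h1

/-- the key comparison: `χ(N J) L_{[J]⁻¹}(s) = T_O(s)/w + O(1)` for every `J` prime to `m`. -/
theorem class_piece (J : (Ideal (𝓞 F))⁰) (hJ : (absNorm (J : Ideal (𝓞 F))).Coprime m) :
    ∃ B : ℝ, ∀ s : ℝ, 1 < s → s ≤ 2 →
      ‖tw F χ J * classSumTw F χ (ClassGroup.mk0 J)⁻¹ s -
        (Units.torsionOrder F : ℂ)⁻¹ * ∑' x : 𝓞 F, X F χ x * (S14.ClassZeta.F F s x : ℂ)‖ ≤ B := by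
  obtain ⟨B₁, hB₁⟩ := tw_coset_bound F χ J (isCoprime_of_absNorm_coprime F _ m hJ)
  obtain ⟨B₂, hB₂⟩ := S14.Analytic.exists_sub_one_mul_zetaSum_le F
  set n : ℝ := (absNorm (J : Ideal (𝓞 F)) : ℝ) with hn
  have hn1 : 1 ≤ n := by
    have : 1 ≤ absNorm (J : Ideal (𝓞 F)) := absNorm_pos_of_nonZeroDivisors J
    rw [hn]; exact_mod_cast this
  set w : ℝ := (Units.torsionOrder F : ℝ) with hw
  have hw1 : 1 ≤ w := by
    have : 1 ≤ Units.torsionOrder F := Units.torsionOrder_pos F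
    rw [hw]; exact_mod_cast this
  refine ⟨(n - 1) * n * B₂ + B₁, fun s hs hs2 => ?_⟩
  have h1 := hB₁ s hs hs2
  rw [(hasSum_tw_unfold F χ J hs).tsum_eq] at h1
  have h2 := hB₂ s hs hs2
  have h3 := LBound.norm_prinSumTw_le F χ J hs
  rw [tw_mul_classSumTw F χ (ClassGroup.mk0 J)⁻¹ J (inv_inv _).symm s]
  set P := prinSumTw F χ J s
  set T := ∑' x : 𝓞 F, X F χ x * (S14.ClassZeta.F F s x : ℂ)
  set Z := zetaSum F s
  have hZ : 0 ≤ Z := S14.Analytic.zetaSum_nonneg F s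
  have hwc : ((Units.torsionOrder F : ℕ) : ℂ) = ((w : ℝ) : ℂ) := by rw [hw]; push_cast; rfl
  have hnc : ((absNorm (J : Ideal (𝓞 F)) : ℕ) : ℂ) = ((n : ℝ) : ℂ) := by rw [hn]; push_cast; rfl
  rw [hwc] at h1 ⊢
  rw [hnc] at h1
  have hw0 : ((w : ℝ) : ℂ) ≠ 0 := by
    have : w ≠ 0 := by linarith
    exact_mod_cast this
  have hms : n ^ s = n ^ (s - 1) * n := by
    rw [← Real.rpow_add_one (by linarith)]; ring_nf
  have hpow1 : 1 ≤ n ^ (s - 1) := Real.one_le_rpow hn1 (by linarith)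
  have hpow2 : n ^ (s - 1) ≤ 1 + (s - 1) * (n - 1) := by
    have := rpow_one_add_le_one_add_mul_self (s := n - 1) (p := s - 1) (by linarith)
      (by linarith) (by linarith)
    simpa using this
  have key : (((n ^ s : ℝ)) : ℂ) * P - ((w : ℝ) : ℂ)⁻¹ * T =
      (((n ^ (s - 1) - 1 : ℝ)) : ℂ) * (((n : ℝ) : ℂ) * P) -
        ((w : ℝ) : ℂ)⁻¹ * (T - ((n : ℝ) : ℂ) * (((w : ℝ) : ℂ) * P)) := by
    rw [hms]
    push_cast
    field_simp
    ring
  rw [key]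
  have h6 : ‖(((n ^ (s - 1) - 1 : ℝ)) : ℂ) * (((n : ℝ) : ℂ) * P)‖ ≤ (n - 1) * n * B₂ := by
    rw [norm_mul, norm_mul, Complex.norm_real, Complex.norm_real, Real.norm_eq_abs,
      Real.norm_eq_abs, abs_of_nonneg (by linarith : 0 ≤ n ^ (s - 1) - 1),
      abs_of_nonneg (by linarith : 0 ≤ n)]
    calc (n ^ (s - 1) - 1) * (n * ‖P‖) ≤ ((s - 1) * (n - 1)) * (n * Z) :=
          mul_le_mul (by linarith) (mul_le_mul_of_nonneg_left h3 (by linarith))
            (mul_nonneg (by linarith) (norm_nonneg _))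
            (mul_nonneg (by linarith) (by linarith))
      _ = (n - 1) * n * ((s - 1) * Z) := by ring
      _ ≤ (n - 1) * n * B₂ :=
          mul_le_mul_of_nonneg_left h2 (mul_nonneg (by linarith) (by linarith))
  have h7 : ‖((w : ℝ) : ℂ)⁻¹ * (T - ((n : ℝ) : ℂ) * (((w : ℝ) : ℂ) * P))‖ ≤ B₁ := by
    rw [norm_mul, norm_inv, Complex.norm_real, Real.norm_eq_abs,
      abs_of_nonneg (by linarith : 0 ≤ w)]
    have hinv : w⁻¹ ≤ 1 := inv_le_one_of_one_le₀ hw1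
    calc w⁻¹ * ‖T - ((n : ℝ) : ℂ) * (((w : ℝ) : ℂ) * P)‖
        ≤ 1 * ‖T - ((n : ℝ) : ℂ) * (((w : ℝ) : ℂ) * P)‖ :=
          mul_le_mul_of_nonneg_right hinv (norm_nonneg _)
      _ ≤ B₁ := by rw [one_mul]; exact h1
  exact (norm_sub_le _ _).trans (add_le_add h6 h7)

/-- **the twisted L-series is bounded near `s = 1`** -/
theorem lSum_bounded [NeZero m] (I₀ : (Ideal (𝓞 F))⁰) (h0 : tw F χ I₀ ≠ 0) (h1 : tw F χ I₀ ≠ 1) :
    ∃ B : ℝ, ∀ s : ℝ, 1 < s → s ≤ 2 → ‖lSum F χ s‖ ≤ B := by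
  classical
  have hm : m ≠ 0 := NeZero.ne m
  -- the norm of `I₀` is prime to `m`
  have hI₀ : (absNorm (I₀ : Ideal (𝓞 F))).Coprime m := by
    rw [← ZMod.isUnit_iff_coprime]
    by_contra hu
    exact h0 (MulChar.map_nonunit χ hu)
  choose J hJC hJm using fun C : ClassGroup (𝓞 F) => exists_mk0_eq_absNorm_coprime F C⁻¹ m hm
  have hJn : ∀ C, ‖tw F χ (J C)‖ = 1 := by
    intro C
    have hu : IsUnit ((absNorm (J C : Ideal (𝓞 F)) : ℕ) : ZMod m) :=
      (ZMod.isUnit_iff_coprime _ _).mpr (hJm C)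
    obtain ⟨u, hu⟩ := hu
    unfold tw
    rw [← hu]
    exact DirichletCharacter.unit_norm_eq_one χ u
  have hJI : ∀ C, (absNorm ((J C * I₀ : (Ideal (𝓞 F))⁰) : Ideal (𝓞 F))).Coprime m := by
    intro C
    rw [Submonoid.coe_mul, _root_.map_mul]
    exact Nat.Coprime.mul_left (hJm C) hI₀
  choose B hB using fun C => class_piece F χ (J C) (hJm C)
  choose B' hB' using fun C => class_piece F χ (J C * I₀) (hJI C)
  have hne : tw F χ I₀ - 1 ≠ 0 := sub_ne_zero.mpr h1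
  have hpos : 0 < ‖tw F χ I₀ - 1‖ := norm_pos_iff.mpr hne
  refine ⟨(∑ C, (B C + B' C)) / ‖tw F χ I₀ - 1‖, fun s hs hs2 => ?_⟩
  rw [le_div_iff₀ hpos, ← norm_mul]
  set c₀ : ClassGroup (𝓞 F) := ClassGroup.mk0 I₀ with hc₀
  have hcl : ∀ C, (ClassGroup.mk0 (J C))⁻¹ = C := fun C => by rw [hJC, inv_inv]
  have hcl' : ∀ C, (ClassGroup.mk0 (J C * I₀))⁻¹ = C * c₀⁻¹ := fun C => by
    rw [_root_.map_mul, hJC, mul_inv, inv_inv]
  have hstep : ∀ C, ‖tw F χ I₀ * classSumTw F χ (C * c₀⁻¹) s - classSumTw F χ C s‖ ≤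
      B C + B' C := by
    intro C
    have e1 := hB C s hs hs2
    have e2 := hB' C s hs hs2
    rw [hcl] at e1
    rw [hcl', LBound.tw_mul] at e2
    set Zt := (Units.torsionOrder F : ℂ)⁻¹ * ∑' x : 𝓞 F, X F χ x * (S14.ClassZeta.F F s x : ℂ)
    have e3 : ‖tw F χ (J C) * (tw F χ I₀ * classSumTw F χ (C * c₀⁻¹) s - classSumTw F χ C s)‖ ≤
        B C + B' C := by
      have : tw F χ (J C) * (tw F χ I₀ * classSumTw F χ (C * c₀⁻¹) s - classSumTw F χ C s) =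
          (tw F χ (J C) * tw F χ I₀ * classSumTw F χ (C * c₀⁻¹) s - Zt) -
            (tw F χ (J C) * classSumTw F χ C s - Zt) := by ring
      rw [this]
      exact (norm_sub_le _ _).trans (by linarith)
    rwa [norm_mul, hJn, one_mul] at e3
  have hsum : lSum F χ s * (tw F χ I₀ - 1) =
      ∑ C, (tw F χ I₀ * classSumTw F χ (C * c₀⁻¹) s - classSumTw F χ C s) := by
    have hperm : ∑ C, classSumTw F χ (C * c₀⁻¹) s = ∑ C, classSumTw F χ C s :=
      Equiv.sum_comp (Equiv.mulRight c₀⁻¹) (fun C => classSumTw F χ C s)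
    rw [Finset.sum_sub_distrib, ← Finset.mul_sum, hperm, ← lSum_eq_sum_classSumTw F χ hs]
    ring
  rw [hsum]
  exact (norm_sum_le _ _).trans (Finset.sum_le_sum fun C _ => hstep C)

end analytic

end Fermat.Agent.S48.CH
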