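import Fermat.Agent.S48.CH.LBound
import Fermat.Agent.S48.CH.EulerLogTw
import Fermat.Agent.S48.CH.DegOneTw
import Fermat.Agent.S48.CH.Frob
import Fermat.Agent.S48.CH.Concrete

/-!
# S48 / CH : wiring of the analytic input (N6 + N7 + N8) and of `concrete_hχ` (N8 + N9 + N14)
Owner: helper108.
-/

set_option autoImplicit false

namespace Fermat.Agent.S48.CH

open NumberField Ideal Filter Topology
open scoped nonZeroDivisors Pointwise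
open Fermat.Agent.Lib.WeakChebotarev (conjCount)

/-- THE ANALYTIC INPUT -/
theorem re_degOneSumTw_le (F : Type*) [Field F] [NumberField F] {m : ℕ}
    (χ : DirichletCharacter ℂ m) [NeZero m] (I₀ : (Ideal (𝓞 F))⁰) (h0 : tw F χ I₀ ≠ 0)
    (h1 : tw F χ I₀ ≠ 1) :
    ∃ C : ℝ, ∀ s : ℝ, 1 < s → s ≤ 2 → (degOneSumTw F χ s).re ≤ C :=
  re_degOneSumTw_le_of F χ (lSum_bounded F χ I₀ h0 h1) (fun _ hs => exp_re_primeSumTw_le F χ hs)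

section concrete

variable (M : Type*) [Field M] [NumberField M] [IsGalois ℚ M]
  (T : Set Nat.Primes) (hT : T.Finite) (hTd : ∀ ℓ : Nat.Primes, ((ℓ : ℕ) : ℤ) ∣ discr M → ℓ ∈ T)
  (Φ : {ℓ : Nat.Primes // ℓ ∉ T} → (M ≃ₐ[ℚ] M))
  (hΦ : ∀ i, ∃ Q : Ideal (𝓞 M), Q.IsPrime ∧ ((i.1 : ℕ) : 𝓞 M) ∈ Q ∧
    ∀ x : 𝓞 M, Φ i • x - x ^ (i.1 : ℕ) ∈ Q)

include hT hTd hΦ in
theorem concrete_hχ {q : ℕ} [NeZero q] {ζ : M} (hζ : IsPrimitiveRoot ζ q)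
    (hTq : ∀ ℓ : Nat.Primes, (ℓ : ℕ) ∣ q → ℓ ∈ T)
    (H : Subgroup (M ≃ₐ[ℚ] M)) (χ : DirichletCharacter ℂ q)
    (hex : ∃ i, 0 < conjCount (Subgroup.zpowers (Φ i)) H ∧
      χ ((hζ.autToPow ℚ (Φ i) : (ZMod q)ˣ) : ZMod q) ≠ 1) :
    ∃ C : ℝ, ∀ᶠ s in 𝓝[>] (1 : ℝ),
      (∑' i, (conjCount (Subgroup.zpowers (Φ i)) H : ℂ) *
        χ ((hζ.autToPow ℚ (Φ i) : (ZMod q)ˣ) : ZMod q) *
          ((((i.1 : ℕ) : ℝ) ^ (-s) : ℝ) : ℂ)).re ≤ C :=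
  concrete_hχ_of M T hT hTd Φ hΦ hζ hTq H χ
    (fun I₀ h0 h1 => re_degOneSumTw_le _ χ I₀ h0 h1)
    (fun ℓ hℓ hℓq Q _ hQ φ hφ => autToPow_frob M hζ ℓ hℓ hℓq Q hQ φ hφ) hex

end concrete

end Fermat.Agent.S48.CH
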