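import Fermat.Agent.S48.CH.AbsFourier
import Fermat.Agent.S48.CH.AbsDensity
import Fermat.Agent.S48.CH.BadCount
import Fermat.Agent.S48.CH.Frob
import Fermat.Agent.S48.CH.Crossing
import Fermat.Agent.S48.CH.Wire

/-!
# S48 / CH / N15 : the symmetrised Chebotarev density theorem (number field form)

Assembly of the nodes N9-N14.  Owner: helper108.
-/

set_option autoImplicit false
set_option linter.unusedSectionVars false

namespace Fermat.Agent.S48.CH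

open NumberField Ideal Filter Topology
open Fermat.Agent.Lib.WeakChebotarev (conjCount)

namespace Main

section group

variable {GG G : Type*} [Group GG] [Fintype GG] [Group G] [Fintype G]

/-- averaging along a surjective homomorphism. -/
theorem average_comp (res : GG →* G) (hres : Function.Surjective res) (u : G → ℝ) :
    (∑ x, u (res x)) / Nat.card GG = (∑ y, u y) / Nat.card G := by
  classical
  set c : ℕ := (Finset.univ.filter fun g : GG => res g = 1).card with hc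
  have hfib : ∀ y : G, (Finset.univ.filter fun g : GG => res g = y).card = c := fun y =>
    MonoidHom.card_fiber_eq_of_mem_range res (hres y) (hres 1)
  have h1 : ∀ f : G → ℝ, ∑ x, f (res x) = c * ∑ y, f y := by
    intro f
    rw [← Finset.sum_fiberwise Finset.univ res (fun x => f (res x)), Finset.mul_sum]
    refine Finset.sum_congr rfl fun y _ => ?_
    rw [Finset.sum_congr rfl (g := fun _ => f y) fun x hx => by rw [(Finset.mem_filter.mp hx).2],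
      Finset.sum_const, hfib, nsmul_eq_mul]
  have h2 : (Nat.card GG : ℝ) = c * Nat.card G := by
    have := h1 (fun _ => 1)
    simpa [Nat.card_eq_fintype_card] using this
  have hG : (0 : ℝ) < Nat.card G := by exact_mod_cast Nat.card_pos
  have hGG : (0 : ℝ) < Nat.card GG := by exact_mod_cast Nat.card_pos
  have hc0 : (c : ℝ) ≠ 0 := by
    intro h0
    rw [h0, zero_mul] at h2
    exact hGG.ne' h2
  rw [h1 u, h2]
  field_simp

/-- counting the bad elements. -/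
theorem card_bad_le_mul {A : Type*} [Group A] [Finite A] (res : GG →* G) (cyc : GG →* A)
    (hinj : ∀ g : GG, res g = 1 → cyc g = 1 → g = 1) (Bad : Set A) :
    Nat.card {h : GG // cyc h ∈ Bad} ≤ Nat.card G * Nat.card Bad := by
  rw [← Nat.card_prod]
  refine Nat.card_le_card_of_injective
    (fun h : {h : GG // cyc h ∈ Bad} => ((res h.1, ⟨cyc h.1, h.2⟩) : G × Bad)) ?_
  rintro ⟨a, ha⟩ ⟨b, hb⟩ hab
  simp only [Prod.mk.injEq, Subtype.mk.injEq] at hab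
  apply Subtype.ext
  have h1 : res (a⁻¹ * b) = 1 := by rw [map_mul, map_inv, hab.1, inv_mul_cancel]
  have h2 : cyc (a⁻¹ * b) = 1 := by rw [map_mul, map_inv, hab.2, inv_mul_cancel]
  exact (inv_mul_eq_one.mp (hinj _ h1 h2))

end group

section crossing

open Fermat.Agent.Lib.WeakChebotarev (exists_prime_ideal_mem finite_primes_dvd_discr
  tendsto_log_one_div_sub_one)

theorem finite_primes_mem (T : Finset ℕ) : {ℓ : Nat.Primes | (ℓ : ℕ) ∈ T}.Finite := by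
  refine Set.Finite.of_finite_image (f := fun ℓ : Nat.Primes ↦ (ℓ : ℕ))
    ((Finset.finite_toSet T).subset ?_) (fun a _ b _ h ↦ Subtype.ext h)
  rintro _ ⟨ℓ, hℓ, rfl⟩
  exact hℓ

theorem finite_primes_dvd (q : ℕ) (hq : q ≠ 0) : {ℓ : Nat.Primes | (ℓ : ℕ) ∣ q}.Finite := by
  refine (finite_primes_mem q.divisors).subset ?_
  intro ℓ hℓ
  exact Nat.mem_divisors.mpr ⟨hℓ, hq⟩

theorem crossing_bound_aux (L M : Type*) [Field L] [NumberField L] [IsGalois ℚ L]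
    [Field M] [NumberField M] [IsGalois ℚ M] [Algebra L M]
    (q : ℕ) [Fact q.Prime] {ζ : M} (hζ : IsPrimitiveRoot ζ q)
    (hgen : ∀ g : M ≃ₐ[ℚ] M, AlgEquiv.restrictNormalHom L g = 1 → g ζ = ζ → g = 1)
    (u : (L ≃ₐ[ℚ] L) → ℝ) (huc : ∀ g x, u (g * x * g⁻¹) = u x) (hui : ∀ x, u x⁻¹ = u x)
    (v : Nat.Primes → ℝ) (T : Finset ℕ)
    (hv : ∀ ℓ : Nat.Primes, (ℓ : ℕ) ∉ T → ∀ (Q : Ideal (𝓞 L)) [Q.IsPrime], ((ℓ : ℕ) : 𝓞 L) ∈ Q →
      ∀ φ : L ≃ₐ[ℚ] L, (∀ x : 𝓞 L, φ • x - x ^ (ℓ : ℕ) ∈ Q) → v ℓ = u φ)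
    (Mu : ℝ) (hMu : ∀ x, |u x| ≤ Mu) (k : ℕ)
    (hq : Nat.card (L ≃ₐ[ℚ] L) ^ k ∣ q - 1) :
    ∃ C : ℝ, ∀ᶠ s in 𝓝[>] (1 : ℝ),
      |∑' ℓ : Nat.Primes, v ℓ * ((ℓ : ℕ) : ℝ) ^ (-s) -
        (∑ x, u x) / Nat.card (L ≃ₐ[ℚ] L) * Real.log (1 / (s - 1))| ≤
        Mu * (2 * (Nat.card (L ≃ₐ[ℚ] L) : ℝ) ^ 2 / 2 ^ k) * Real.log (1 / (s - 1)) + C := by
  classical
  have hqp : q.Prime := Fact.out
  set n : ℕ := Nat.card (L ≃ₐ[ℚ] L) with hn
  have hn0 : 0 < n := Nat.card_pos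
  let res : (M ≃ₐ[ℚ] M) →* (L ≃ₐ[ℚ] L) := AlgEquiv.restrictNormalHom L
  have hres : Function.Surjective res := AlgEquiv.restrictNormalHom_surjective M
  let cyc : (M ≃ₐ[ℚ] M) →* (ZMod q)ˣ := hζ.autToPow ℚ
  -- the exceptional set
  set Tf : Finset Nat.Primes := ((finite_primes_mem T).union
    ((finite_primes_dvd_discr M).union (finite_primes_dvd q hqp.ne_zero))).toFinset with hTf
  have hTf1 : ∀ ℓ : Nat.Primes, (ℓ : ℕ) ∈ T → ℓ ∈ (Tf : Set Nat.Primes) := by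
    intro ℓ h
    simp only [hTf, Set.Finite.coe_toFinset]
    exact Or.inl h
  have hTd : ∀ ℓ : Nat.Primes, ((ℓ : ℕ) : ℤ) ∣ discr M → ℓ ∈ (Tf : Set Nat.Primes) := by
    intro ℓ h
    simp only [hTf, Set.Finite.coe_toFinset]
    exact Or.inr (Or.inl h)
  have hTq : ∀ ℓ : Nat.Primes, (ℓ : ℕ) ∣ q → ℓ ∈ (Tf : Set Nat.Primes) := by
    intro ℓ h
    simp only [hTf, Set.Finite.coe_toFinset]
    exact Or.inr (Or.inr h)
  have hex : ∀ i : {ℓ : Nat.Primes // ℓ ∉ (Tf : Set Nat.Primes)}, ∃ φ : M ≃ₐ[ℚ] M,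
      ∃ Q : Ideal (𝓞 M), Q.IsPrime ∧ ((i.1 : ℕ) : 𝓞 M) ∈ Q ∧
        ∀ x : 𝓞 M, φ • x - x ^ (i.1 : ℕ) ∈ Q := by
    intro i
    obtain ⟨Q, hQp, hQ⟩ := exists_prime_ideal_mem M i.1 i.1.2
    obtain ⟨φ, hφ⟩ := exists_frob M i.1 i.1.2 Q hQ
    exact ⟨φ, Q, hQp, hQ, hφ⟩
  choose Φ hΦ using hex
  set w : ℝ → {ℓ : Nat.Primes // ℓ ∉ (Tf : Set Nat.Primes)} → ℝ :=
    fun s i => ((i.1 : ℕ) : ℝ) ^ (-s) with hwdef
  set lam : ℝ → ℝ := fun s => Real.log (1 / (s - 1)) with hlamdef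
  have hw : ∀ᶠ s in 𝓝[>] (1 : ℝ), (∀ i, 0 ≤ w s i ∧ w s i ≤ 1) ∧ Summable (w s) := by
    filter_upwards [self_mem_nhdsWithin] with s hs
    have hs' : (1 : ℝ) < s := hs
    refine ⟨fun i => ⟨Real.rpow_nonneg (Nat.cast_nonneg _) _,
      Real.rpow_le_one_of_one_le_of_nonpos (by exact_mod_cast i.1.2.one_lt.le) (by linarith)⟩, ?_⟩
    exact (Nat.Primes.summable_rpow.mpr (by linarith : -s < -1)).subtype _
  have hlam : Tendsto lam (𝓝[>] (1 : ℝ)) atTop := tendsto_log_one_div_sub_one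
  have hH := concrete_hH M (Tf : Set Nat.Primes) (Finset.finite_toSet Tf) hTd Φ hΦ
  have hχ := fun H χ hex =>
    concrete_hχ M (Tf : Set Nat.Primes) (Finset.finite_toSet Tf) hTd Φ hΦ hζ hTq H χ hex
  -- good elements
  set Good : Set (M ≃ₐ[ℚ] M) := {h | n ∣ orderOf (cyc h)} with hGood
  have hgood : ∀ h ∈ Good, ∃ C : ℝ, ∀ᶠ s in 𝓝[>] (1 : ℝ),
      |delta Φ w s h + delta Φ w s h⁻¹ - 2 * lam s| ≤ C := by
    intro h hh
    refine abstract_cyc cyc Φ w lam (𝓝[>] (1 : ℝ)) hw hlam hH hχ h ?_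
    rintro _ ⟨j, rfl⟩ hj
    simp only at hj ⊢
    rw [map_zpow, ← orderOf_dvd_iff_zpow_eq_one] at hj
    have h1 : ((orderOf (res h) : ℕ) : ℤ) ∣ j :=
      (Int.natCast_dvd_natCast.mpr ((orderOf_dvd_natCard (res h)).trans hh)).trans hj
    have h2 : res (h ^ j) = 1 := by
      rw [map_zpow]
      exact orderOf_dvd_iff_zpow_eq_one.mp h1
    have h3 : cyc (h ^ j) = 1 := by
      rw [map_zpow]
      exact orderOf_dvd_iff_zpow_eq_one.mp hj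
    apply hgen _ h2
    have h4 := hζ.autToPow_spec ℚ (h ^ j)
    have h5 : hζ.autToPow ℚ (h ^ j) = 1 := h3
    have : Fact (1 < q) := ⟨hqp.one_lt⟩
    rw [h5, Units.val_one, ZMod.val_one, pow_one] at h4
    exact h4.symm
  -- total mass
  have hGG1 : (1 : ℝ) ≤ Nat.card (M ≃ₐ[ℚ] M) := by exact_mod_cast Nat.card_pos
  have htot : ∃ C : ℝ, ∀ᶠ s in 𝓝[>] (1 : ℝ), |∑' i, w s i - lam s| ≤ C := by
    obtain ⟨C, hC⟩ := hH ⊤
    refine ⟨C, ?_⟩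
    filter_upwards [hC] with s hs
    have h1 : ∀ i, (conjCount (Subgroup.zpowers (Φ i)) ⊤ : ℝ) = Nat.card (M ≃ₐ[ℚ] M) := by
      intro i
      unfold conjCount
      simp
    simp_rw [h1] at hs
    rw [tsum_mul_left, Subgroup.card_top, ← mul_sub, abs_mul, abs_of_pos (by linarith)] at hs
    have h2 := abs_nonneg (∑' i : {ℓ : Nat.Primes // ℓ ∉ (Tf : Set Nat.Primes)},
      ((i.1 : ℕ) : ℝ) ^ (-s) - Real.log (1 / (s - 1)))
    show |∑' i : {ℓ : Nat.Primes // ℓ ∉ (Tf : Set Nat.Primes)},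
      ((i.1 : ℕ) : ℝ) ^ (-s) - Real.log (1 / (s - 1))| ≤ C
    nlinarith
  have hlam0 : ∀ᶠ s in 𝓝[>] (1 : ℝ), 0 ≤ lam s := hlam.eventually_ge_atTop 0
  obtain ⟨C, hC⟩ := abstract_sym_density Φ w lam (𝓝[>] (1 : ℝ))
    (hw.mono fun s hs => ⟨fun i => (hs.1 i).1, hs.2⟩) hlam0 htot Good hgood
    (fun x => u (res x)) (fun g x => by rw [map_mul, map_mul, map_inv, huc])
    (fun x => by rw [map_inv, hui]) Mu (fun x => hMu _)
  rw [average_comp res hres u] at hC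
  -- the proportion of bad elements
  have hMu0 : 0 ≤ Mu := (abs_nonneg _).trans (hMu 1)
  have hcycζ : ∀ g : M ≃ₐ[ℚ] M, cyc g = 1 → g ζ = ζ := by
    intro g hg
    have h4 := hζ.autToPow_spec ℚ g
    have h5 : hζ.autToPow ℚ g = 1 := hg
    have : Fact (1 < q) := ⟨hqp.one_lt⟩
    rw [h5, Units.val_one, ZMod.val_one, pow_one] at h4
    exact h4.symm
  have hq1 : (0 : ℝ) < ((q - 1 : ℕ) : ℝ) := by
    exact_mod_cast Nat.sub_pos_of_lt hqp.one_lt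
  have hcardGG : ((q - 1 : ℕ) : ℝ) ≤ Nat.card (M ≃ₐ[ℚ] M) := by
    rw [IsGalois.card_aut_eq_finrank]
    have h1 := minpoly.natDegree_le (A := ℚ) ζ
    rw [← Polynomial.cyclotomic_eq_minpoly_rat hζ hqp.pos, Polynomial.natDegree_cyclotomic,
      Nat.totient_prime hqp] at h1
    exact_mod_cast h1
  have hbad : (Nat.card (Goodᶜ : Set (M ≃ₐ[ℚ] M)) : ℝ) / Nat.card (M ≃ₐ[ℚ] M) ≤
      (n : ℝ) ^ 2 / 2 ^ k := by
    have h1 := card_bad_le_mul res cyc (fun g h1 h2 => hgen g h1 (hcycζ g h2))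
      {τ : (ZMod q)ˣ | ¬ n ∣ orderOf τ}
    have h2 := card_bad_le q n k hn0 hq
    have h3 : (Nat.card (Goodᶜ : Set (M ≃ₐ[ℚ] M)) : ℝ) ≤ n * ((n : ℝ) / 2 ^ k * (q - 1 : ℕ)) := by
      calc (Nat.card (Goodᶜ : Set (M ≃ₐ[ℚ] M)) : ℝ)
          ≤ ((n * Nat.card {τ : (ZMod q)ˣ | ¬ n ∣ orderOf τ} : ℕ) : ℝ) := by exact_mod_cast h1
        _ = n * (Nat.card {τ : (ZMod q)ˣ // ¬ n ∣ orderOf τ} : ℝ) := by push_cast; rfl
        _ ≤ _ := mul_le_mul_of_nonneg_left h2 (Nat.cast_nonneg _)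
    rw [div_le_iff₀ (by linarith)]
    refine h3.trans ?_
    have h4 : (0 : ℝ) ≤ (n : ℝ) ^ 2 / 2 ^ k := by positivity
    calc (n : ℝ) * ((n : ℝ) / 2 ^ k * (q - 1 : ℕ)) = (n : ℝ) ^ 2 / 2 ^ k * ((q - 1 : ℕ) : ℝ) := by
          ring
      _ ≤ _ := mul_le_mul_of_nonneg_left hcardGG h4
  -- the values of `v`
  have hvi : ∀ i : {ℓ : Nat.Primes // ℓ ∉ (Tf : Set Nat.Primes)}, v i.1 = u (res (Φ i)) := by
    intro i
    obtain ⟨Q, hQp, hQ, hφ⟩ := hΦ i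
    have hiT : (i.1 : ℕ) ∉ T := fun h => i.2 (hTf1 _ h)
    have : (Q.comap (algebraMap (𝓞 L) (𝓞 M))).IsPrime := Ideal.comap_isPrime _ _
    refine hv i.1 hiT (Q.comap (algebraMap (𝓞 L) (𝓞 M))) ?_ _ (res_frob L M i.1 Q (Φ i) hφ)
    rw [Ideal.mem_comap, map_natCast]
    exact hQ
  refine ⟨C + ∑ ℓ ∈ Tf, |v ℓ|, ?_⟩
  filter_upwards [hC, hw, hlam0, self_mem_nhdsWithin] with s hs hws hl0 hs1
  have hs1' : (1 : ℝ) < s := hs1
  have hsub : ∀ i : {ℓ : Nat.Primes // ℓ ∉ Tf}, v i.1 * ((i.1 : ℕ) : ℝ) ^ (-s) =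
      u (res (Φ i)) * w s i := fun i => by rw [hvi i]
  have hsummable : Summable fun ℓ : Nat.Primes => v ℓ * ((ℓ : ℕ) : ℝ) ^ (-s) := by
    rw [← Finset.summable_compl_iff Tf]
    simp_rw [hsub]
    exact summable_comp_mul Φ hws.2 (fun x => u (res x))
  rw [← hsummable.sum_add_tsum_subtype_compl Tf]
  simp_rw [hsub]
  have hfin : |∑ ℓ ∈ Tf, v ℓ * ((ℓ : ℕ) : ℝ) ^ (-s)| ≤ ∑ ℓ ∈ Tf, |v ℓ| := by
    refine (Finset.abs_sum_le_sum_abs _ _).trans (Finset.sum_le_sum fun ℓ _ => ?_)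
    rw [abs_mul, abs_of_nonneg (Real.rpow_nonneg (Nat.cast_nonneg _) _)]
    exact mul_le_of_le_one_right (abs_nonneg _)
      (Real.rpow_le_one_of_one_le_of_nonpos (by exact_mod_cast ℓ.2.one_lt.le) (by linarith))
  have hkey : Mu * (2 * (Nat.card (Goodᶜ : Set (M ≃ₐ[ℚ] M)) : ℝ) / Nat.card (M ≃ₐ[ℚ] M)) * lam s ≤
      Mu * (2 * (n : ℝ) ^ 2 / 2 ^ k) * lam s := by
    refine mul_le_mul_of_nonneg_right (mul_le_mul_of_nonneg_left ?_ hMu0) hl0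
    rw [mul_div_assoc, mul_div_assoc]
    exact mul_le_mul_of_nonneg_left hbad zero_le_two
  have habs := abs_add_le (∑ ℓ ∈ Tf, v ℓ * ((ℓ : ℕ) : ℝ) ^ (-s))
    (∑' i, u (res (Φ i)) * w s i - (∑ y, u y) / n * lam s)
  calc |∑ ℓ ∈ Tf, v ℓ * ((ℓ : ℕ) : ℝ) ^ (-s) + ∑' i, u (res (Φ i)) * w s i -
        (∑ y, u y) / n * lam s|
      = |∑ ℓ ∈ Tf, v ℓ * ((ℓ : ℕ) : ℝ) ^ (-s) + (∑' i, u (res (Φ i)) * w s i -
        (∑ y, u y) / n * lam s)| := by rw [add_sub_assoc]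
    _ ≤ _ := habs
    _ ≤ _ := by linarith

end crossing

end Main

/-- **Symmetrised Chebotarev density theorem**, number field form. -/
theorem chebotarev_sym_fun (L : Type*) [Field L] [NumberField L] [IsGalois ℚ L]
    (u : (L ≃ₐ[ℚ] L) → ℝ) (huc : ∀ g x, u (g * x * g⁻¹) = u x) (hui : ∀ x, u x⁻¹ = u x)
    (v : Nat.Primes → ℝ) (T : Finset ℕ)
    (hv : ∀ ℓ : Nat.Primes, (ℓ : ℕ) ∉ T → ∀ (Q : Ideal (𝓞 L)) [Q.IsPrime], ((ℓ : ℕ) : 𝓞 L) ∈ Q →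
      ∀ φ : L ≃ₐ[ℚ] L, (∀ x : 𝓞 L, φ • x - x ^ (ℓ : ℕ) ∈ Q) → v ℓ = u φ)
    {ε : ℝ} (hε : 0 < ε) :
    ∀ᶠ s in 𝓝[>] (1 : ℝ),
      |∑' ℓ : Nat.Primes, v ℓ * ((ℓ : ℕ) : ℝ) ^ (-s) -
        (∑ x, u x) / Nat.card (L ≃ₐ[ℚ] L) * Real.log (1 / (s - 1))| ≤
        ε * Real.log (1 / (s - 1)) := by
  classical
  set n : ℕ := Nat.card (L ≃ₐ[ℚ] L) with hn
  have hn0 : 0 < n := Nat.card_pos
  set Mu : ℝ := ∑ x, |u x| with hMudef
  have hMu : ∀ x, |u x| ≤ Mu := fun x =>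
    Finset.single_le_sum (f := fun x => |u x|) (fun _ _ => abs_nonneg _) (Finset.mem_univ x)
  have hMu0 : 0 ≤ Mu := Finset.sum_nonneg fun _ _ => abs_nonneg _
  obtain ⟨k, hk⟩ := pow_unbounded_of_one_lt (4 * Mu * (n : ℝ) ^ 2 / ε) (one_lt_two : (1 : ℝ) < 2)
  obtain ⟨q, hqp, -, hqmod⟩ := Nat.exists_prime_gt_modEq_one (k := n ^ k) 0
    (pow_ne_zero _ hn0.ne')
  have : Fact q.Prime := ⟨hqp⟩
  have hq : n ^ k ∣ q - 1 := (Nat.modEq_iff_dvd' hqp.one_lt.le).mp hqmod.symm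
  have := isGalois_cyclotomicField L q
  obtain ⟨C, hC⟩ := Main.crossing_bound_aux L (CyclotomicField q L) q
    (IsCyclotomicExtension.zeta_spec q L (CyclotomicField q L))
    (fun g h1 h2 => eq_one_of_res_of_zeta L q g h1 h2) u huc hui v T hv Mu hMu k hq
  have h2k : (0 : ℝ) < 2 ^ k := by positivity
  have hsmall : Mu * (2 * (n : ℝ) ^ 2 / 2 ^ k) ≤ ε / 2 := by
    rw [div_lt_iff₀ hε] at hk
    rw [← mul_div_assoc, div_le_iff₀ h2k]
    nlinarith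
  have hbig := Fermat.Agent.Lib.WeakChebotarev.tendsto_log_one_div_sub_one.eventually_ge_atTop
    (max 0 (2 * C / ε))
  filter_upwards [hC, hbig] with s hs hb
  have hl0 : 0 ≤ Real.log (1 / (s - 1)) := (le_max_left _ _).trans hb
  have hl1 : 2 * C / ε ≤ Real.log (1 / (s - 1)) := (le_max_right _ _).trans hb
  rw [div_le_iff₀ hε] at hl1
  refine hs.trans ?_
  have := mul_le_mul_of_nonneg_right hsmall hl0
  nlinarith

end Fermat.Agent.S48.CH
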