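import Fermat.Agent.S48.CH.NormCongr
import Fermat.Agent.S14.ClassZeta.Main

/-!
# S48 / block CH, N3 : twisted unfolding over unit orbits.   (helper110)
-/

set_option autoImplicit false

namespace Fermat.Agent.S48.CH

open NumberField Ideal Filter Topology
open scoped nonZeroDivisors Pointwise
open Fermat.Agent.S14.Analytic (term zetaSum)
open Fermat.Agent.Lib.WeakChebotarev (degOneCount degOneSum conjCount)

section analytic

variable (F : Type*) [Field F] [NumberField F] {m : ℕ} (χ : DirichletCharacter ℂ m)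

theorem hasSum_tw_unfold (J : (Ideal (𝓞 F))⁰) {s : ℝ} (hs : 1 < s) :
    HasSum (fun β : (J : Ideal (𝓞 F)) => X F χ β * (S14.ClassZeta.F F s β : ℂ))
      ((Units.torsionOrder F : ℂ) * prinSumTw F χ J s) := by
  classical
  set P := {I : (Ideal (𝓞 F))⁰ // (J : Ideal (𝓞 F)) ∣ I ∧ (I : Ideal (𝓞 F)).IsPrincipal} with hP
  -- generators
  have hgen : ∀ I : P, ∃ g : 𝓞 F, Ideal.span {g} = (I.1 : Ideal (𝓞 F)) := fun I => by
    obtain ⟨g, hg⟩ := I.2.2
    exact ⟨g, hg.symm⟩
  choose g hg using hgen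
  have hg0 : ∀ I : P, g I ≠ 0 := fun I h0 => by
    have h1 := hg I
    rw [h0] at h1
    have h2 : (I.1 : Ideal (𝓞 F)) ≠ 0 := nonZeroDivisors.coe_ne_zero I.1
    apply h2
    rw [← h1]
    simp
  have hgJ : ∀ I : P, g I ∈ (J : Ideal (𝓞 F)) := fun I => by
    rw [← Ideal.dvd_span_singleton, hg I]
    exact I.2.1
  -- the parametrisation
  let i : P × (𝓞 F)ˣ → (J : Ideal (𝓞 F)) := fun x =>
    ⟨(x.2 : 𝓞 F) * g x.1, Ideal.mul_mem_left _ _ (hgJ x.1)⟩
  have hspan : ∀ x : P × (𝓞 F)ˣ, Ideal.span {(x.2 : 𝓞 F) * g x.1} = (x.1.1 : Ideal (𝓞 F)) :=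
    fun x => by rw [Ideal.span_singleton_mul_left_unit x.2.isUnit, hg]
  have hinj : Function.Injective i := by
    rintro ⟨I, u⟩ ⟨I', u'⟩ h
    have h1 : (u : 𝓞 F) * g I = (u' : 𝓞 F) * g I' := congrArg Subtype.val h
    have h2 : I = I' := by
      apply Subtype.ext
      apply Subtype.ext
      rw [← hspan (I, u), ← hspan (I', u')]
      exact congrArg (fun t => Ideal.span {t}) h1
    subst h2
    have h3 : (u : 𝓞 F) = u' := mul_right_cancel₀ (hg0 I) h1
    rw [Units.ext h3]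
  have hrange : ∀ β : (J : Ideal (𝓞 F)), β ∉ Set.range i →
      X F χ β * (S14.ClassZeta.F F s β : ℂ) = 0 := by
    intro β hβ
    by_cases h0 : (β : 𝓞 F) = 0
    · rw [h0, S14.ClassZeta.F, S14.ClassZeta.nrm_zero_rpow F (by linarith), mul_zero,
        Complex.ofReal_zero, mul_zero]
    · exfalso
      apply hβ
      have hne : Ideal.span {(β : 𝓞 F)} ≠ 0 := by
        simpa [Ideal.span_singleton_eq_bot] using h0
      let I : P := ⟨⟨Ideal.span {(β : 𝓞 F)}, mem_nonZeroDivisors_of_ne_zero hne⟩,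
        by
          refine ⟨?_, ⟨⟨(β : 𝓞 F), rfl⟩⟩⟩
          rw [Ideal.dvd_span_singleton]
          exact β.2⟩
      have h1 : Ideal.span {g I} = Ideal.span {(β : 𝓞 F)} := hg I
      rw [Ideal.span_singleton_eq_span_singleton] at h1
      obtain ⟨u, hu⟩ := h1
      refine ⟨(I, u), ?_⟩
      apply Subtype.ext
      show (u : 𝓞 F) * g I = β
      rw [mul_comm, hu]
  -- summability on `J`
  have hsumJ : Summable fun β : (J : Ideal (𝓞 F)) => X F χ β * (S14.ClassZeta.F F s β : ℂ) := by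
    refine Summable.of_norm_bounded (S14.ClassZeta.hasSum_F_ideal F J hs).summable fun β => ?_
    rw [norm_mul, Complex.norm_real, Real.norm_eq_abs]
    have hnn : 0 ≤ S14.ClassZeta.F F s β :=
      mul_nonneg (S14.ClassZeta.W_nonneg F _)
        (Real.rpow_nonneg (S14.ClassZeta.nrm_nonneg F _) _)
    rw [abs_of_nonneg hnn]
    exact mul_le_of_le_one_left hnn (norm_X_le F χ _)
  rw [← hinj.hasSum_iff hrange]
  have hsum : Summable
      ((fun β : (J : Ideal (𝓞 F)) => X F χ β * (S14.ClassZeta.F F s β : ℂ)) ∘ i) :=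
    (hinj.summable_iff hrange).mpr hsumJ
  have hgK : ∀ I : P, ((g I : 𝓞 F) : F) ≠ 0 := fun I h => hg0 I (by exact_mod_cast h)
  -- the fibres
  have hfib : ∀ I : P, HasSum (fun u : (𝓞 F)ˣ =>
      ((fun β : (J : Ideal (𝓞 F)) => X F χ β * (S14.ClassZeta.F F s β : ℂ)) ∘ i) (I, u))
      ((Units.torsionOrder F : ℂ) * (tw F χ I.1 * (term F s I.1 : ℂ))) := by
    intro I
    have h1 := ((S14.ClassZeta.hasSum_W_units F (hgK I)).mul_right (term F s I.1))
    have h2 := ((Complex.hasSum_ofReal).mpr h1).mul_left (tw F χ I.1)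
    have h3 : tw F χ I.1 * (((Units.torsionOrder F : ℝ) * term F s I.1 : ℝ) : ℂ) =
        (Units.torsionOrder F : ℂ) * (tw F χ I.1 * (term F s I.1 : ℂ)) := by
      push_cast
      ring
    rw [h3] at h2
    refine h2.congr_fun fun u => ?_
    simp only [Function.comp_apply, i]
    rw [X_eq_tw F χ _ I.1 (hspan (I, u)).symm, S14.ClassZeta.F,
      S14.ClassZeta.nrm_eq_absNorm_span, hspan (I, u)]
    push_cast
    rfl
  have h4 := hsum.hasSum.prod_fiberwise hfib
  have h5 : (∑' x, ((fun β : (J : Ideal (𝓞 F)) =>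
      X F χ β * (S14.ClassZeta.F F s β : ℂ)) ∘ i) x) =
      (Units.torsionOrder F : ℂ) * prinSumTw F χ J s := by
    rw [← h4.tsum_eq, tsum_mul_left]
    rfl
  rw [← h5]
  exact hsum.hasSum

end analytic

end Fermat.Agent.S48.CH
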